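/-
F3 / (I2), INTERFACE between the dictionary over `ℂ` (A3c: helper24/46/78/84) and the
`κ`-construction (A3 core, helper43).  DEFINITIONS ONLY (no theorems, no sorry).

`FC N` = function field of `X₀(N)` over `ℂ` in the Prelude's model `ℂ(j(q^d) : d ∣ N) ⊂ ℂ((q))`.
`IsRatio N x A B` : the element `x` of `FC N` is the quotient `A / B` of two modular forms of equal
weight on `Γ₀(N)` (comparison of `q`-expansions at `∞`).

Providers prove the `Prop`s `DictD1a .. DictD3`; the `κ`-core consumes them as hypotheses.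
-/
import Mathlib
import Fermat.Prelude.Def_ModularCurve_HeckeModule
import Fermat.Prelude.Sol.S_ModularForm_heckeT_slash_eq_self_of_mem_Gamma0
import Fermat.Agent.F3.Galois.NormDesc

set_option autoImplicit false

noncomputable section

namespace Fermat.Agent.F3I2

open UpperHalfPlane CongruenceSubgroup ModularCurve AlgebraicCurve
open scoped MatrixGroups ModularForm
open P2MW.S_ModularForm_heckeT_slash_eq_self_of_mem_Gamma0.ModularForm.HeckeSlashInvariance

/-- The function field of `X₀(N)` over `ℂ` (Prelude model inside `ℂ((q))`). -/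
abbrev FC (N : ℕ) : IntermediateField ℂ (LaurentSeries ℂ) :=
  laurentBaseChange ℂ (modularFunctionFieldFull N)

/-- The `q`-expansion at `∞` (period `1`) of a function on `ℍ`, as a Laurent series. -/
def qLaurent (f : ℍ → ℂ) : LaurentSeries ℂ :=
  HahnSeries.ofPowerSeries ℤ ℂ (qExpansion 1 f)

/-- `x = A / B` : `q`-expansion of `A` equals `x` times the `q`-expansion of `B`, and `B ≠ 0`. -/
def IsRatio (N : ℕ) (x : FC N) {w : ℤ} (A B : ModularForm (Gamma0 N) w) : Prop :=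
  B ≠ 0 ∧ qLaurent A = (x : LaurentSeries ℂ) * qLaurent B

/-- The order of vanishing at `τ ∈ ℍ` of a function on `ℍ` (as an integer; `0` if the function
vanishes identically near `τ`). -/
def ordAt (f : ℍ → ℂ) (τ : ℍ) : ℤ :=
  ((analyticOrderAt (f ∘ ofComplex) (τ : ℂ)).toNat : ℤ)

/-- The order of vanishing at `i∞` of a function on `ℍ` of period `h`, in the parameter
`q_h = exp (2 π i z / h)`. -/
def ordInf (h : ℕ) (f : ℍ → ℂ) : ℤ :=
  (((qExpansion (h : ℝ) f).order).toNat : ℤ)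

/-- (D1a) every element of `FC N` is a quotient of two modular forms of equal weight. -/
def DictD1a (N : ℕ) : Prop :=
  ∀ x : FC N, x ≠ 0 → ∃ (w : ℤ) (A B : ModularForm (Gamma0 N) w), A ≠ 0 ∧ IsRatio N x A B

/-- (D1b) every quotient of two modular forms of equal weight on `Γ₀(N)` is in `FC N`. -/
def DictD1b (N : ℕ) : Prop :=
  ∀ (w : ℤ) (A B : ModularForm (Gamma0 N) w), B ≠ 0 → ∃ x : FC N, IsRatio N x A B

/-- A chart of the place `v` at a point `τ ∈ ℍ`: `e · ord_v (A/B) = ord_τ A - ord_τ B`, and `e` is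
the order of the stabiliser of `τ` in `Γ₀(N) / ±1`, witnessed by an element `γ₀` of the stabiliser
whose squared automorphy factor at `τ` is a primitive `e`-th root of unity. -/
def IsChartAt (N : ℕ) (v : Place ℂ (FC N)) (τ : ℍ) (e : ℕ) : Prop :=
  0 < e ∧
  (∃ γ₀ : SL(2, ℤ), γ₀ ∈ Gamma0 N ∧ γ₀ • τ = τ ∧
    IsPrimitiveRoot ((((γ₀ 1 0 : ℤ) : ℂ) * (τ : ℂ) + ((γ₀ 1 1 : ℤ) : ℂ)) ^ 2) e) ∧
  ∀ (w : ℤ) (A B : ModularForm (Gamma0 N) w) (x : FC N), A ≠ 0 → IsRatio N x A B →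
    (e : ℤ) * v.ord x = ordAt A τ - ordAt B τ

/-- A chart of the place `v` at the cusp `g ∞`: `h > 0` with `g T^h g⁻¹ ∈ Γ₀(N)` (so that
`A ∣[w] g` has period `h`; then it has period `h * e` as well), and
`e · ord_v (A/B) = ord_{q_{he}} (A ∣ g) - ord_{q_{he}} (B ∣ g)`.
(With `h` = the width of the cusp one can take `e = 1`; with `h * e = N` this is the
`q_N`-expansion.) -/
def IsChartCusp (N : ℕ) (v : Place ℂ (FC N)) (g : SL(2, ℤ)) (h e : ℕ) : Prop :=
  0 < h ∧ 0 < e ∧ g * ModularGroup.T ^ h * g⁻¹ ∈ Gamma0 N ∧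
  ∀ (w : ℤ) (A B : ModularForm (Gamma0 N) w) (x : FC N), A ≠ 0 → IsRatio N x A B →
    (e : ℤ) * v.ord x = ordInf (h * e) (⇑A ∣[w] g) - ordInf (h * e) (⇑B ∣[w] g)

/-- (D2a) places → points: every place of `FC N` has a chart at a point of `ℍ` or at a cusp. -/
def DictD2a (N : ℕ) : Prop :=
  ∀ v : Place ℂ (FC N),
    (∃ (τ : ℍ) (e : ℕ), IsChartAt N v τ e) ∨ (∃ (g : SL(2, ℤ)) (h e : ℕ), IsChartCusp N v g h e)

/-- (D2b) points → places: every `τ ∈ ℍ` is the centre of a chart of some place. -/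
def DictD2b (N : ℕ) : Prop :=
  ∀ τ : ℍ, ∃ (v : Place ℂ (FC N)) (e : ℕ), IsChartAt N v τ e

/-- (HPD) principal divisors of `FC N` exist (finite support) and have degree `0`. -/
def DictHPD (N : ℕ) : Prop := HasPrincipalDivisors ℂ (FC N)

/-- (CONST) an element of `FC N` without zeros and poles is a constant. -/
def DictConst (N : ℕ) : Prop :=
  ∀ x : FC N, x ≠ 0 → (∀ v : Place ℂ (FC N), v.ord x = 0) → ∃ a : ℂ, x = algebraMap ℂ (FC N) a

/-- (D3) the norm description of `T_ℓ` on functions, in terms of modular forms: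
if `x = A / B` then `Norm_{F_{Nℓ}/F_N} (x(q^ℓ)) = ∏_i (A ∣ α_i) / ∏_i (B ∣ α_i)`, the product over
the `ℓ + 1` Hecke representatives `α_i = heckeRep ℓ i`, `i ∈ ℙ¹(𝔽_ℓ)`. -/
def DictD3 (N ℓ : ℕ) [NeZero N] [NeZero ℓ] : Prop :=
  ∀ (w : ℤ) (A B : ModularForm (Gamma0 N) w) (x : FC N), A ≠ 0 → IsRatio N x A B →
    ∀ (w' : ℤ) (A' B' : ModularForm (Gamma0 N) w'),
      (⇑A' = fun z => ∏ i : OnePoint (ZMod ℓ), (⇑A ∣[w] heckeRep ℓ i) z) →
      (⇑B' = fun z => ∏ i : OnePoint (ZMod ℓ), (⇑B ∣[w] heckeRep ℓ i) z) →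
      IsRatio N (Fermat.Agent.F3G.heckeFun ℂ N ℓ x) A' B'

end Fermat.Agent.F3I2
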