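/-
Cluster A (F3), analytic package (I2), piece A3c (D1), part 1 (helper78):
auxiliary analytic lemmas for the dictionary `F_ℂ ↔ ratios of modular forms`.

* a function with `q`-expansion `0` vanishes near the cusp (`dict1_hasQ_zero_eventually`);
* a holomorphic function vanishing near the cusp vanishes (`dict1_isHol_eq_zero_of_eventually`);
* the translates of a modular form by coset representatives (`dict1_exists_SL_of_coset`);
* the translates of `j_N = v_N / Δ ^ N` are the `γ • j_N` (`dict1_translate_eq`);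
* the product of the differences `j_N - γ_q • j_N`, `q ≠ 1`, is not identically zero.
-/
import Fermat.Agent.S28.ThmA
import Fermat.Agent.S24.EmbFStab
import Fermat.Agent.S24.Hol

set_option autoImplicit false

namespace Fermat.Agent.F3I2

open UpperHalfPlane ModularForm MatrixGroups Polynomial SlashInvariantForm Filter
open scoped Real Topology Manifold
open Fermat.Agent.S23 ModularCurve
open Fermat.Agent.S28 Fermat.Agent.S28.QExp

/-- A function whose `q`-expansion is `0` vanishes near the cusp `i∞`. -/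
theorem dict1_hasQ_zero_eventually {f : ℍ → ℂ} (h : HasQ f 0) :
    ∃ R : ℝ, ∀ τ : ℍ, R < τ.im → f τ = 0 := by
  obtain ⟨hper, m, hqa, hexp⟩ := h
  rw [mul_zero] at hexp
  have h0 : qExpansion 1 (f * qFun ^ m) = 0 := by
    apply HahnSeries.ofPowerSeries_injective (Γ := ℤ) (R := ℂ)
    rw [hexp, map_zero]
  have hps := hasFPowerSeriesAt_taylor0 hqa
  rw [← qExpansion_eq_taylor0, h0] at hps
  have hz : (FormalMultilinearSeries.ofScalars ℂ fun n => (0 : PowerSeries ℂ).coeff n) = 0 := by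
    ext n; simp
  rw [hz] at hps
  have hev := hps.eventually_eq_zero
  obtain ⟨r, hr, hball⟩ := Metric.eventually_nhds_iff.mp hev
  refine ⟨-Real.log r / (2 * π), fun τ hτ => ?_⟩
  have hq : ‖qFun τ‖ < r := by
    rw [qFun, Function.Periodic.norm_qParam]
    rw [← Real.exp_log hr]
    apply Real.exp_lt_exp.mpr
    have hpi : (0 : ℝ) < 2 * π := by positivity
    rw [div_lt_iff₀ hpi] at hτ
    have : (τ : ℂ).im = τ.im := rfl
    rw [this, div_one]
    linarith
  have h1 := hball (by simpa [dist_zero_right] using hq)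
  have hper' : IsPer (f * qFun ^ m) := hper.mul (isPer_qFun.pow m)
  have e := Function.Periodic.eq_cuspFunction one_ne_zero hper' (τ : ℂ)
  have e2 : cuspFunction 1 (f * qFun ^ m) (qFun τ) = (f * qFun ^ m) τ := by
    rw [qFun]
    refine e.trans ?_
    simp [Function.comp]
  rw [e2] at h1
  have h2 : f τ * qFun τ ^ m = 0 := h1
  rcases mul_eq_zero.mp h2 with h3 | h3
  · exact h3
  · exact absurd h3 (pow_ne_zero _ (qFun_ne_zero τ))

open Fermat.Agent.S24 in
/-- A holomorphic function on `ℍ` vanishing near the cusp vanishes identically. -/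
theorem dict1_isHol_eq_zero_of_eventually {f : Fermat.Agent.S24.Fun} (hf : IsHol f) (R : ℝ)
    (h : ∀ τ : ℍ, R < τ.im → f τ = 0) : f = 0 := by
  have hpos : (0 : ℝ) < |R| + 1 := by positivity
  set τ₁ : ℍ := ⟨⟨0, |R| + 1⟩, hpos⟩ with hτ₁
  apply hf.eq_zero_of_analyticOrderAt_eq_top τ₁
  rw [analyticOrderAt_eq_top]
  have hopen : IsOpen {z : ℂ | max R 0 < z.im} := isOpen_lt continuous_const Complex.continuous_im
  have hmem : (τ₁ : ℂ) ∈ {z : ℂ | max R 0 < z.im} := by
    show max R 0 < (τ₁ : ℂ).im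
    have : (τ₁ : ℂ).im = |R| + 1 := rfl
    rw [this]
    rcases le_total R 0 with h0 | h0
    · rw [max_eq_right h0]; exact hpos
    · rw [max_eq_left h0, abs_of_nonneg h0]; linarith
  filter_upwards [hopen.mem_nhds hmem] with z hz
  have hz0 : 0 < z.im := lt_of_le_of_lt (le_max_right R 0) hz
  have hzR : R < z.im := lt_of_le_of_lt (le_max_left R 0) hz
  have := h ⟨z, hz0⟩ hzR
  rw [ofComplex_apply_of_im_pos hz0]
  exact this

end Fermat.Agent.F3I2

namespace Fermat.Agent.F3I2

open UpperHalfPlane ModularForm MatrixGroups Polynomial SlashInvariantForm Filter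
open scoped Real Topology Manifold
open Fermat.Agent.S23 ModularCurve
open Fermat.Agent.S28 Fermat.Agent.S28.QExp

/-- Every translate of `F` by a coset of `Γ₀(N)` in `SL(2,ℤ)` is `F ∣ γ` for some
`γ ∈ SL(2,ℤ)`; the trivial coset corresponds to `N ∣ γ 1 0`. -/
theorem dict1_exists_SL_of_coset (N : ℕ) [NeZero N] {k : ℤ} (F : ModularForm (G0 N) k)
    (q : Q N) :
    ∃ γ : SL(2, ℤ), quotientFunc F q = (⇑F) ∣[k] γ ∧
      (q = QuotientGroup.mk 1 ↔ (N : ℤ) ∣ γ 1 0) := by
  induction q using Quotient.inductionOn with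
  | h r =>
    obtain ⟨γ, hγ⟩ := (r⁻¹).2
    refine ⟨γ, ?_, ?_⟩
    · rw [quotientFunc_mk, SL_slash]
      congr 1
      rw [← Subgroup.coe_inv]
      exact hγ.symm
    · have h1 : (Quotient.mk _ r : Q N) = QuotientGroup.mk r := rfl
      rw [h1, QuotientGroup.eq, Subgroup.mem_subgroupOf, ← mapGL_mem_G0_iff, hγ]
      simp

/-- `Δ (γ τ) = (c τ + d) ^ 12 Δ (τ)`. -/
theorem dict1_discriminant_smul (γ : SL(2, ℤ)) (τ : ℍ) :
    discriminant (γ • τ) = discriminant τ * denom γ τ ^ (12 : ℤ) := by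
  have h := congrFun (wp3_discriminant_slash γ) τ
  rw [← SL_slash, SL_slash_apply] at h
  have hd : denom γ τ ≠ 0 := denom_ne_zero _ τ
  rw [← h, mul_assoc, ← zpow_add₀ hd]
  simp

/-- The two descriptions of the point `N τ`. -/
theorem dict1_heckeDiag_smul_eq_scale (d : ℕ) [NeZero d] (τ : ℍ) :
    heckeDiagMatrix d • τ = Fermat.Agent.S24.scale d τ := by
  apply UpperHalfPlane.ext
  rw [coe_heckeDiagMatrix_smul (NeZero.ne d), Fermat.Agent.S24.coe_scale]

/-- The translates of `j_N = v / Δ ^ N` are the functions `γ⁻¹ • j_N`. -/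
theorem dict1_translate_eq (N : ℕ) [NeZero N] (v : ModularForm (G0 N) (12 * (N : ℤ)))
    (hv : ∀ τ : ℍ, v τ = E₄ (heckeDiagMatrix N • τ) ^ 3 * discriminant τ ^ N /
      discriminant (heckeDiagMatrix N • τ)) (γ : SL(2, ℤ)) (τ : ℍ) :
    ((⇑v) ∣[12 * (N : ℤ)] γ) τ / discriminant τ ^ N = (γ⁻¹ • Fermat.Agent.S24.jd N) τ := by
  have hd : denom γ τ ≠ 0 := denom_ne_zero _ τ
  have hΔ : discriminant τ ≠ 0 := discriminant_ne_zero τ
  have hΔ' : discriminant (heckeDiagMatrix N • (γ • τ)) ≠ 0 := discriminant_ne_zero _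
  have hR : (γ⁻¹ • Fermat.Agent.S24.jd N) τ =
      E₄ (heckeDiagMatrix N • (γ • τ)) ^ 3 / discriminant (heckeDiagMatrix N • (γ • τ)) := by
    show Fermat.Agent.S24.jFun (Fermat.Agent.S24.scale N ((γ⁻¹)⁻¹ • τ)) = _
    rw [inv_inv, ← dict1_heckeDiag_smul_eq_scale]
    rfl
  rw [hR, SL_slash_apply, hv (γ • τ), dict1_discriminant_smul γ τ, mul_pow, ← zpow_natCast
    (denom γ τ ^ (12 : ℤ)), ← zpow_mul]
  have e : denom γ τ ^ (-(12 * (N : ℤ))) = (denom γ τ ^ ((12 : ℤ) * (N : ℤ)))⁻¹ := by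
    rw [zpow_neg]
  rw [e]
  have h2 : denom γ τ ^ ((12 : ℤ) * (N : ℤ)) ≠ 0 := zpow_ne_zero _ hd
  have h3 : discriminant τ ^ N ≠ 0 := pow_ne_zero _ hΔ
  field_simp

end Fermat.Agent.F3I2

namespace Fermat.Agent.F3I2

open UpperHalfPlane ModularForm MatrixGroups Polynomial SlashInvariantForm Filter
open scoped Real Topology Manifold
open Fermat.Agent.S23 ModularCurve
open Fermat.Agent.S28 Fermat.Agent.S28.QExp
open Fermat.Agent.S24 (IsHol jd)

/-- For `γ ∉ Γ₀(N)` the function `j_N - γ⁻¹ • j_N` is not zero. -/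
theorem dict1_jd_sub_ne_zero (N : ℕ) [NeZero N] (γ : SL(2, ℤ)) (h : ¬ (N : ℤ) ∣ γ 1 0) :
    jd N - γ⁻¹ • jd N ≠ 0 := by
  intro h0
  have h1 : γ⁻¹ • jd N = jd N := (sub_eq_zero.mp h0).symm
  rw [Fermat.Agent.S24.smul_jd_eq_iff] at h1
  have h2 := inv_mem h1
  rw [inv_inv] at h2
  exact h (Fermat.Agent.S24.EmbFStab.dvd_of_mem_Gamma0 h2)

theorem dict1_fun_prod_apply {ι : Type*} (s : Finset ι) (f : ι → Fermat.Agent.S24.Fun) (τ : ℍ) :
    (∏ i ∈ s, f i) τ = ∏ i ∈ s, f i τ := by
  classical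
  induction s using Finset.induction_on with
  | empty => simp
  | insert a s ha ih =>
    rw [Finset.prod_insert ha, Finset.prod_insert ha, Fermat.Agent.S24.Fun.mul_apply, ih]

theorem dict1_isHol_one : IsHol (1 : Fermat.Agent.S24.Fun) :=
  (mdifferentiable_const : MDifferentiable 𝓘(ℂ) 𝓘(ℂ) (fun _ : ℍ => (1 : ℂ)))

theorem dict1_isHol_sub {f g : Fermat.Agent.S24.Fun} (hf : IsHol f) (hg : IsHol g) :
    IsHol (f - g) :=
  MDifferentiable.sub hf hg

/-- A finite product of nonzero holomorphic functions on `ℍ` is a nonzero holomorphic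
function. -/
theorem dict1_isHol_prod_ne_zero {ι : Type*} (s : Finset ι) (f : ι → Fermat.Agent.S24.Fun)
    (hf : ∀ i ∈ s, IsHol (f i)) (hne : ∀ i ∈ s, f i ≠ 0) :
    IsHol (∏ i ∈ s, f i) ∧ ∏ i ∈ s, f i ≠ 0 := by
  classical
  induction s using Finset.induction_on with
  | empty =>
    refine ⟨by simpa using dict1_isHol_one, ?_⟩
    rw [Finset.prod_empty]
    intro h
    have := congrFun h ⟨Complex.I, by simp⟩
    exact one_ne_zero this
  | insert a s ha ih =>
    obtain ⟨h1, h2⟩ := ih (fun i hi => hf i (Finset.mem_insert_of_mem hi))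
      (fun i hi => hne i (Finset.mem_insert_of_mem hi))
    rw [Finset.prod_insert ha]
    have ha1 := hf a (Finset.mem_insert_self a s)
    refine ⟨ha1.mul h1, fun h => ?_⟩
    rcases ha1.eq_zero_or_eq_zero_of_mul_eq_zero h1 h with h3 | h3
    · exact hne a (Finset.mem_insert_self a s) h3
    · exact h2 h3

/-- **Separability.**  The derivative of the characteristic polynomial of `j_N = v / Δ ^ N`
does not vanish identically at `j_N` near the cusp. -/
theorem dict1_exists_derivative_ne_zero (N : ℕ) [NeZero N]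
    (v : ModularForm (G0 N) (12 * (N : ℤ)))
    (hv : ∀ τ : ℍ, v τ = E₄ (heckeDiagMatrix N • τ) ^ 3 * discriminant τ ^ N /
      discriminant (heckeDiagMatrix N • τ)) (R : ℝ) :
    ∃ τ : ℍ, R < τ.im ∧
      (derivative (rootPoly (fun q : Q N =>
        quotientFunc v q τ / discriminant τ ^ N))).eval (v τ / discriminant τ ^ N) ≠ 0 := by
  classical
  choose γ hγ hγ1 using dict1_exists_SL_of_coset N v
  set i₀ : Q N := QuotientGroup.mk 1 with hi₀
  set D : Fermat.Agent.S24.Fun :=
    ∏ q ∈ (Finset.univ : Finset (Q N)).erase i₀, (jd N - (γ q)⁻¹ • jd N) with hD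
  have hDprop := dict1_isHol_prod_ne_zero ((Finset.univ : Finset (Q N)).erase i₀)
    (fun q => jd N - (γ q)⁻¹ • jd N)
    (fun q _ => dict1_isHol_sub (Fermat.Agent.S24.isHol_jd N)
      ((Fermat.Agent.S24.isHol_jd N).sl_smul _))
    (fun q hq => dict1_jd_sub_ne_zero N (γ q) fun h =>
      (Finset.mem_erase.mp hq).1 ((hγ1 q).mpr h))
  by_contra hcon
  push Not at hcon
  apply hDprop.2
  refine dict1_isHol_eq_zero_of_eventually hDprop.1 R fun τ hτ => ?_
  have h1 := hcon τ hτ
  have ht0 : quotientFunc v i₀ τ = v τ := congrFun (quotientFunc_one (N := N) v) τ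
  have hjd : v τ / discriminant τ ^ N = jd N τ := by
    have := dict1_translate_eq N v hv 1 τ
    rw [inv_one, one_smul] at this
    rw [← this]
    congr 1
    rw [SL_slash_apply]
    simp
  have h2 := rootPoly_derivative_eval
    (fun q : Q N => quotientFunc v q τ / discriminant τ ^ N) i₀
  simp only [ht0] at h2
  rw [h2] at h1
  rw [dict1_fun_prod_apply, ← h1]
  refine Finset.prod_congr rfl fun q _ => ?_
  rw [Fermat.Agent.S24.Fun.sub_apply, hjd, hγ q, dict1_translate_eq N v hv (γ q) τ]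

end Fermat.Agent.F3I2
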