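/-
Cluster A (F3), analytic package (I2), piece A3c (D1) (helper78):
the dictionary between the function field `F_ℂ = ℂ(j(q^d) : d ∣ N) ⊆ ℂ((q))` of `X₀(N)` and
ratios of holomorphic modular forms of equal weight on `Γ₀(N)`, in `q`-expansion form.

* `dict1_onto` : for `A, B ∈ M_k(Γ₀(N))`, `B ≠ 0`, the series `qexp A / qexp B` lies in `F_ℂ`;
* `dict1_into` : every `x ∈ F_ℂ` is `qexp A / qexp B` for such `A, B`;
* `dict1QL_ne_zero`, `dict1_ratio_unique`.

Route: Lagrange–Euler interpolation with the primitive element `j_N = v_N / Δ ^ N`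
(S28 `Certificate`), separability from `Stab(j_N) = Γ₀(N)` (S24 `smul_jd_eq_iff`).
-/
import Fermat.Agent.F3.I2.Dict1Aux

set_option autoImplicit false

namespace Fermat.Agent.F3I2

open UpperHalfPlane ModularForm MatrixGroups Polynomial SlashInvariantForm Filter
open scoped Real Topology Manifold
open Fermat.Agent.S23 ModularCurve
open Fermat.Agent.S28 Fermat.Agent.S28.QExp

/-- The function field of `X₀(N)` over `ℂ`, inside `ℂ((q))`. -/
noncomputable abbrev dict1FC (N : ℕ) : IntermediateField ℂ (LaurentSeries ℂ) :=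
  laurentBaseChange ℂ (modularFunctionFieldFull N)

/-- The `q`-expansion at `∞` of a function on `ℍ`, as a Laurent series. -/
noncomputable def dict1QF (f : ℍ → ℂ) : LaurentSeries ℂ :=
  HahnSeries.ofPowerSeries ℤ ℂ (qExpansion 1 f)

/-- The `q`-expansion at `∞` of a modular form, as a Laurent series. -/
noncomputable def dict1QL {N : ℕ} {k : ℤ} (A : ModularForm (G0 N) k) : LaurentSeries ℂ :=
  dict1QF A

theorem dict1QL_def {N : ℕ} {k : ℤ} (A : ModularForm (G0 N) k) :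
    dict1QL A = HahnSeries.ofPowerSeries ℤ ℂ (qExpansion 1 A) := rfl

theorem dict1_hasQ_of_isMF {N : ℕ} {k : ℤ} {f : ℍ → ℂ} (hf : IsMF (G0 N) k f) :
    HasQ f (dict1QF f) := HasQ.of_isMF hf

theorem dict1_hasQ_modularForm {N : ℕ} {k : ℤ} (A : ModularForm (G0 N) k) :
    HasQ A (dict1QL A) := HasQ.of_modularForm A

/-! ### Membership in `F_ℂ` -/

theorem dict1_toC_jqd_mem (N : ℕ) [NeZero N] {d : ℕ} [NeZero d] (hd : d ∣ N) :
    toC (qExpand ℚ d jq) ∈ dict1FC N :=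
  coeffEmb_mem_laurentBaseChange ℂ (jqd_mem_full N hd)

theorem dict1_toC_jq_mem (N : ℕ) [NeZero N] : toC jq ∈ dict1FC N := by
  have h := dict1_toC_jqd_mem N (one_dvd N)
  rwa [qExpand_one_apply] at h

theorem dict1_evJ_mem (N : ℕ) [NeZero N] (p : Polynomial ℂ) :
    evJ (toC jq) p ∈ dict1FC N := by
  show (aeval (toC jq) p) ∈ dict1FC N
  rw [aeval_eq_sum_range]
  refine sum_mem fun i _ => ?_
  rw [Algebra.smul_def]
  exact mul_mem ((dict1FC N).algebraMap_mem _) (pow_mem (dict1_toC_jq_mem N) _)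

theorem dict1_biv_mem (N : ℕ) [NeZero N] (P : Polynomial (Polynomial ℂ)) :
    P.eval₂ (evJ (toC jq)) (toC (qExpand ℚ N jq)) ∈ dict1FC N := by
  rw [eval₂_eq_sum_range]
  refine sum_mem fun i _ => ?_
  exact mul_mem (dict1_evJ_mem N _) (pow_mem (dict1_toC_jqd_mem N dvd_rfl) _)

/-! ### The core: `G / Δ ^ d ∈ F_ℂ` -/

/-- **Core of (D1), onto.**  For `G ∈ M_{12 d}(Γ₀(N))` the expansion of `G / Δ ^ d` lies in
`F_ℂ`. -/
theorem dict1_core (N : ℕ) [NeZero N] (d : ℕ) (G : ModularForm (G0 N) (12 * (d : ℤ))) :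
    dict1QL G * deltaInvC ^ d ∈ dict1FC N := by
  classical
  obtain ⟨v, hv⟩ := exists_vd N N dvd_rfl
  obtain ⟨c, -, -, hc⟩ := wp4_exists_charPoly N N v
  set n := Fintype.card (Q N) with hn
  obtain ⟨A, hA⟩ := wp11_exists_certificate_of_coeffs N N d v G c hc
  set χ := wp11Poly n c with hχ
  have hmap : ∀ τ : ℍ, χ.map (evalRingHom (wp4J τ)) =
      rootPoly (fun q : Q N => quotientFunc v q τ / discriminant τ ^ N) := fun τ =>
    wp11Poly_map_eq_rootPoly _ c (wp4J τ) (hc τ)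
  have hJ := thmA_hasQ_wp4J
  have hU : HasQ (fun τ => v τ / discriminant τ ^ N) (toC (qExpand ℚ N jq)) := by
    refine (thmA_hasQ_jd N).congr fun τ => ?_
    rw [hv τ, wp4J]
    have h1 := discriminant_ne_zero τ
    have h2 := discriminant_ne_zero (heckeDiagMatrix N • τ)
    field_simp
  have hG : HasQ (fun τ => G τ / discriminant τ ^ d) (dict1QL G * deltaInvC ^ d) := by
    refine ((dict1_hasQ_modularForm G).mul (hasQ_inv_discriminant.pow d)).congr fun τ => ?_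
    simp only [Pi.mul_apply, Pi.pow_apply, Pi.inv_apply]
    rw [div_eq_mul_inv, inv_pow]
  have hL := thmA_hasQ_biv hJ hU (derivative χ)
  have hR := thmA_hasQ_biv hJ hU A
  have hprod : dict1QL G * deltaInvC ^ d *
      (derivative χ).eval₂ (evJ (toC jq)) (toC (qExpand ℚ N jq)) =
      A.eval₂ (evJ (toC jq)) (toC (qExpand ℚ N jq)) :=
    (hG.mul hL).eq_of_eq hR fun τ => by
      rw [Pi.mul_apply]
      exact hA τ
  -- separability
  have hS : (derivative χ).eval₂ (evJ (toC jq)) (toC (qExpand ℚ N jq)) ≠ 0 := by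
    intro h0
    rw [h0] at hL
    obtain ⟨R, hR0⟩ := dict1_hasQ_zero_eventually hL
    obtain ⟨τ, hτ, hne⟩ := dict1_exists_derivative_ne_zero N v hv R
    apply hne
    have := hR0 τ hτ
    rwa [← derivative_map, hmap τ] at this
  have hmem : dict1QL G * deltaInvC ^ d =
      A.eval₂ (evJ (toC jq)) (toC (qExpand ℚ N jq)) /
        (derivative χ).eval₂ (evJ (toC jq)) (toC (qExpand ℚ N jq)) := by
    rw [eq_div_iff hS, hprod]
  rw [hmem]
  exact div_mem (dict1_biv_mem N A) (dict1_biv_mem N (derivative χ))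

/-! ### Arithmetic of `q`-expansions of modular forms -/

theorem dict1_isHol_of_isMF {N : ℕ} {k : ℤ} {f : ℍ → ℂ} (hf : IsMF (G0 N) k f) :
    Fermat.Agent.S24.IsHol f := by
  obtain ⟨F, rfl⟩ := hf
  exact F.holo'

/-- A modular form with vanishing `q`-expansion vanishes. -/
theorem dict1_eq_zero_of_qF {N : ℕ} {k : ℤ} {f : ℍ → ℂ} (hf : IsMF (G0 N) k f)
    (h : dict1QF f = 0) : f = 0 := by
  have hq := dict1_hasQ_of_isMF hf
  rw [h] at hq
  obtain ⟨R, hR⟩ := dict1_hasQ_zero_eventually hq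
  exact dict1_isHol_eq_zero_of_eventually (dict1_isHol_of_isMF hf) R hR

theorem dict1QF_ne_zero {N : ℕ} {k : ℤ} {f : ℍ → ℂ} (hf : IsMF (G0 N) k f) (h : f ≠ 0) :
    dict1QF f ≠ 0 := fun h0 => h (dict1_eq_zero_of_qF hf h0)

/-- The `q`-expansion of a nonzero modular form is nonzero. -/
theorem dict1QL_ne_zero {N : ℕ} {k : ℤ} (B : ModularForm (G0 N) k) (hB : B ≠ 0) :
    dict1QL B ≠ 0 := by
  refine dict1QF_ne_zero (IsMF.of B) fun h => hB ?_
  ext τ
  exact congrFun h τ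

theorem dict1QF_zero : dict1QF 0 = 0 := by
  have h := (hasQ_zero).unique (HasQ.of_qa (isPer_const 0) QA.zero)
  exact h.symm

theorem dict1QF_mul {N : ℕ} {k₁ k₂ : ℤ} {a b : ℍ → ℂ} (ha : IsMF (G0 N) k₁ a)
    (hb : IsMF (G0 N) k₂ b) : dict1QF (a * b) = dict1QF a * dict1QF b :=
  (dict1_hasQ_of_isMF (ha.mul hb)).unique ((dict1_hasQ_of_isMF ha).mul (dict1_hasQ_of_isMF hb))

theorem dict1QF_add {N : ℕ} {k : ℤ} {a b : ℍ → ℂ} (ha : IsMF (G0 N) k a)
    (hb : IsMF (G0 N) k b) : dict1QF (a + b) = dict1QF a + dict1QF b :=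
  (dict1_hasQ_of_isMF (ha.add hb)).unique ((dict1_hasQ_of_isMF ha).add (dict1_hasQ_of_isMF hb))

theorem dict1QF_neg {N : ℕ} {k : ℤ} {a : ℍ → ℂ} (ha : IsMF (G0 N) k a) :
    dict1QF (-a) = -dict1QF a :=
  (dict1_hasQ_of_isMF ha.neg).unique (dict1_hasQ_of_isMF ha).neg

theorem dict1QF_pow {N : ℕ} {k : ℤ} {a : ℍ → ℂ} (ha : IsMF (G0 N) k a) (n : ℕ) :
    dict1QF (a ^ n) = dict1QF a ^ n :=
  (dict1_hasQ_of_isMF (ha.pow n)).unique ((dict1_hasQ_of_isMF ha).pow n)

theorem dict1_isMF_discriminant (N : ℕ) : IsMF (G0 N) 12 (discriminant : ℍ → ℂ) :=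
  (IsMF.of (ModularFormClass.modularForm CuspForm.discriminant)).mono (G0_le_SL N)

theorem dict1QF_discriminant : dict1QF (discriminant : ℍ → ℂ) = deltaC :=
  (dict1_hasQ_of_isMF (dict1_isMF_discriminant 1)).unique hasQ_discriminant

theorem dict1_mul_ne_zero {N : ℕ} {k₁ k₂ : ℤ} {a b : ℍ → ℂ} (ha : IsMF (G0 N) k₁ a)
    (hb : IsMF (G0 N) k₂ b) (ha0 : a ≠ 0) (hb0 : b ≠ 0) : a * b ≠ 0 := by
  intro h
  rcases (dict1_isHol_of_isMF ha).eq_zero_or_eq_zero_of_mul_eq_zero (dict1_isHol_of_isMF hb) h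
    with h1 | h1
  · exact ha0 h1
  · exact hb0 h1

theorem dict1_deltaInvC_ne_zero : deltaInvC ≠ 0 :=
  right_ne_zero_of_mul_eq_one deltaC_mul_deltaInvC

/-! ### (D1), onto -/

/-- **(D1), onto**, function form. -/
theorem dict1_onto_fun (N : ℕ) [NeZero N] {k : ℤ} {a b : ℍ → ℂ} (ha : IsMF (G0 N) k a)
    (hb : IsMF (G0 N) k b) (hb0 : b ≠ 0) :
    ∃ x ∈ dict1FC N, x * dict1QF b = dict1QF a := by
  set e : ℕ := k.natAbs with he
  have hke : 0 ≤ k + (e : ℤ) := by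
    omega
  obtain ⟨d, hd⟩ := Int.eq_ofNat_of_zero_le hke
  have hΔ := dict1_isMF_discriminant N
  have h1 : IsMF (G0 N) (12 * (d : ℤ)) (a * b ^ 11 * discriminant ^ e) :=
    ((ha.mul (hb.pow 11)).mul (hΔ.pow e)).cast (by rw [← hd]; push_cast; ring)
  have h2 : IsMF (G0 N) (12 * (d : ℤ)) (b ^ 12 * discriminant ^ e) :=
    ((hb.pow 12).mul (hΔ.pow e)).cast (by rw [← hd]; push_cast; ring)
  obtain ⟨G₁, hG₁⟩ := h1
  obtain ⟨G₂, hG₂⟩ := h2
  have m1 := dict1_core N d G₁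
  have m2 := dict1_core N d G₂
  have q1 : dict1QL G₁ = dict1QF a * dict1QF b ^ 11 * deltaC ^ e := by
    show dict1QF G₁ = _
    rw [hG₁, dict1QF_mul (ha.mul (hb.pow 11)) (hΔ.pow e), dict1QF_mul ha (hb.pow 11),
      dict1QF_pow hb, dict1QF_pow hΔ, dict1QF_discriminant]
  have q2 : dict1QL G₂ = dict1QF b ^ 12 * deltaC ^ e := by
    show dict1QF G₂ = _
    rw [hG₂, dict1QF_mul (hb.pow 12) (hΔ.pow e), dict1QF_pow hb, dict1QF_pow hΔ,
      dict1QF_discriminant]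
  refine ⟨_, div_mem m1 m2, ?_⟩
  rw [q1, q2]
  have hqb : dict1QF b ≠ 0 := dict1QF_ne_zero hb hb0
  have hδ : deltaC ≠ 0 := deltaC_ne_zero
  have hδi : deltaInvC ≠ 0 := dict1_deltaInvC_ne_zero
  field_simp

/-- **(D1), onto.**  The ratio of the `q`-expansions of two modular forms of the same weight on
`Γ₀(N)` lies in the function field `F_ℂ = ℂ(j(q^d) : d ∣ N)`. -/
theorem dict1_onto (N : ℕ) [NeZero N] {k : ℤ} (A B : ModularForm (G0 N) k) (hB : B ≠ 0) :
    ∃ x ∈ laurentBaseChange ℂ (modularFunctionFieldFull N), x * dict1QL B = dict1QL A := by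
  refine dict1_onto_fun N (IsMF.of A) (IsMF.of B) fun h => hB ?_
  ext τ
  exact congrFun h τ

/-! ### (D1), into -/

/-- `x` is the ratio of the expansions of two modular forms of the same weight on `Γ₀(N)`. -/
def Dict1IsRatio (N : ℕ) (x : LaurentSeries ℂ) : Prop :=
  ∃ (k : ℤ) (a b : ℍ → ℂ), IsMF (G0 N) k a ∧ IsMF (G0 N) k b ∧ b ≠ 0 ∧
    x * dict1QF b = dict1QF a

theorem dict1_one_ne_zero : (1 : ℍ → ℂ) ≠ 0 := fun h =>
  one_ne_zero (congrFun h ⟨Complex.I, by simp⟩)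

theorem dict1QF_one : dict1QF (1 : ℍ → ℂ) = 1 :=
  (HasQ.of_qa isPer_one QA.one).unique hasQ_one

theorem Dict1IsRatio.const (N : ℕ) (c : ℂ) :
    Dict1IsRatio N (algebraMap ℂ (LaurentSeries ℂ) c) := by
  refine ⟨0, c • (1 : ℍ → ℂ), 1, IsMF.one.smul c, IsMF.one, dict1_one_ne_zero, ?_⟩
  rw [dict1QF_one, mul_one]
  have h1 : HasQ (c • (1 : ℍ → ℂ)) (HahnSeries.C c) :=
    (hasQ_const c).congr fun τ => by simp
  have h2 := dict1_hasQ_of_isMF (N := N) (IsMF.one.smul c)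
  rw [← h1.unique h2, algebraMap_eq_single_zero]
  rfl

theorem Dict1IsRatio.zero (N : ℕ) : Dict1IsRatio N 0 := by
  simpa using Dict1IsRatio.const N 0

theorem Dict1IsRatio.one (N : ℕ) : Dict1IsRatio N 1 := by
  simpa using Dict1IsRatio.const N 1

theorem Dict1IsRatio.jqd (N : ℕ) [NeZero N] {d : ℕ} [NeZero d] (hd : d ∣ N) :
    Dict1IsRatio N (toC (qExpand ℚ d jq)) := by
  obtain ⟨v, hv⟩ := exists_vd N d hd
  have hΔ := (dict1_isMF_discriminant N).pow d
  refine ⟨12 * (d : ℤ), v, discriminant ^ d, IsMF.of v, hΔ, ?_, ?_⟩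
  · intro h
    have := congrFun h ⟨Complex.I, by simp⟩
    exact pow_ne_zero _ (discriminant_ne_zero _) this
  · refine ((thmA_hasQ_jd d).mul (dict1_hasQ_of_isMF hΔ)).eq_of_eq
      (dict1_hasQ_of_isMF (IsMF.of v)) fun τ => ?_
    rw [Pi.mul_apply, hv τ, wp4J, Pi.pow_apply]
    have h1 := discriminant_ne_zero τ
    have h2 := discriminant_ne_zero (heckeDiagMatrix d • τ)
    field_simp

theorem Dict1IsRatio.add {N : ℕ} {x y : LaurentSeries ℂ} (hx : Dict1IsRatio N x)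
    (hy : Dict1IsRatio N y) : Dict1IsRatio N (x + y) := by
  obtain ⟨k, a, b, ha, hb, hb0, h⟩ := hx
  obtain ⟨k', a', b', ha', hb', hb0', h'⟩ := hy
  have h1 : IsMF (G0 N) (k + k') (a * b') := ha.mul hb'
  have h2 : IsMF (G0 N) (k + k') (a' * b) := (ha'.mul hb).cast (add_comm _ _)
  refine ⟨k + k', a * b' + a' * b, b * b', h1.add h2, hb.mul hb',
    dict1_mul_ne_zero hb hb' hb0 hb0', ?_⟩
  rw [dict1QF_add h1 h2, dict1QF_mul ha hb', dict1QF_mul ha' hb, dict1QF_mul hb hb', ← h, ← h']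
  ring

theorem Dict1IsRatio.mul {N : ℕ} {x y : LaurentSeries ℂ} (hx : Dict1IsRatio N x)
    (hy : Dict1IsRatio N y) : Dict1IsRatio N (x * y) := by
  obtain ⟨k, a, b, ha, hb, hb0, h⟩ := hx
  obtain ⟨k', a', b', ha', hb', hb0', h'⟩ := hy
  refine ⟨k + k', a * a', b * b', ha.mul ha', hb.mul hb',
    dict1_mul_ne_zero hb hb' hb0 hb0', ?_⟩
  rw [dict1QF_mul ha ha', dict1QF_mul hb hb', ← h, ← h']
  ring

theorem Dict1IsRatio.neg {N : ℕ} {x : LaurentSeries ℂ} (hx : Dict1IsRatio N x) :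
    Dict1IsRatio N (-x) := by
  obtain ⟨k, a, b, ha, hb, hb0, h⟩ := hx
  refine ⟨k, -a, b, ha.neg, hb, hb0, ?_⟩
  rw [dict1QF_neg ha, ← h]
  ring

theorem Dict1IsRatio.inv {N : ℕ} {x : LaurentSeries ℂ} (hx : Dict1IsRatio N x) :
    Dict1IsRatio N x⁻¹ := by
  rcases eq_or_ne x 0 with rfl | hx0
  · simpa using Dict1IsRatio.zero N
  obtain ⟨k, a, b, ha, hb, hb0, h⟩ := hx
  have hqb := dict1QF_ne_zero hb hb0
  have ha0 : a ≠ 0 := by
    rintro rfl
    rw [dict1QF_zero] at h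
    rcases mul_eq_zero.mp h with h1 | h1
    · exact hx0 h1
    · exact hqb h1
  refine ⟨k, b, a, hb, ha, ha0, ?_⟩
  rw [← h, ← mul_assoc, inv_mul_cancel₀ hx0, one_mul]

theorem Dict1IsRatio.of_coeffEmb (N : ℕ) [NeZero N] {x₀ : LaurentSeries ℚ}
    (hx₀ : x₀ ∈ modularFunctionFieldFull N) :
    Dict1IsRatio N (ModularCurve.coeffEmb ℂ x₀) := by
  rw [modularFunctionFieldFull] at hx₀
  induction hx₀ using IntermediateField.adjoin_induction with
  | mem x hx =>
    obtain ⟨d, hd0, hd, rfl⟩ := hx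
    exact Dict1IsRatio.jqd N hd
  | algebraMap r =>
    have : ModularCurve.coeffEmb ℂ (algebraMap ℚ (LaurentSeries ℚ) r) =
        algebraMap ℂ (LaurentSeries ℂ) (algebraMap ℚ ℂ r) := by
      rw [algebraMap_eq_single_zero, algebraMap_eq_single_zero, ModularCurve.coeffEmb,
        coeffMap_single]
    rw [this]
    exact Dict1IsRatio.const N _
  | add x y _ _ hx hy => rw [map_add]; exact hx.add hy
  | inv x _ hx => rw [map_inv₀]; exact hx.inv
  | mul x y _ _ hx hy => rw [map_mul]; exact hx.mul hy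

theorem Dict1IsRatio.of_mem (N : ℕ) [NeZero N] {x : LaurentSeries ℂ} (hx : x ∈ dict1FC N) :
    Dict1IsRatio N x := by
  rw [mem_laurentBaseChange_iff] at hx
  induction hx using Subfield.closure_induction with
  | mem x hx =>
    rcases hx with ⟨c, rfl⟩ | ⟨x₀, hx₀, rfl⟩
    · exact Dict1IsRatio.const N c
    · exact Dict1IsRatio.of_coeffEmb N hx₀
  | one => exact Dict1IsRatio.one N
  | add x y _ _ hx hy => exact hx.add hy
  | neg x _ hx => exact hx.neg
  | inv x _ hx => exact hx.inv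
  | mul x y _ _ hx hy => exact hx.mul hy

/-- The elements of `F_ℂ` are exactly the ratios of `q`-expansions of modular forms of equal
weight on `Γ₀(N)`. -/
theorem dict1_mem_iff (N : ℕ) [NeZero N] (x : LaurentSeries ℂ) :
    x ∈ dict1FC N ↔ Dict1IsRatio N x := by
  refine ⟨Dict1IsRatio.of_mem N, ?_⟩
  rintro ⟨k, a, b, ha, hb, hb0, h⟩
  obtain ⟨y, hy, hyb⟩ := dict1_onto_fun N ha hb hb0
  have hqb := dict1QF_ne_zero hb hb0
  have : x = y := mul_right_cancel₀ hqb (h.trans hyb.symm)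
  rwa [this]

/-- **(D1), into.**  Every element of the function field `F_ℂ = ℂ(j(q^d) : d ∣ N)` is the ratio
of the `q`-expansions of two modular forms of the same weight on `Γ₀(N)`. -/
theorem dict1_into (N : ℕ) [NeZero N] {x : LaurentSeries ℂ}
    (hx : x ∈ laurentBaseChange ℂ (modularFunctionFieldFull N)) :
    ∃ (k : ℤ) (A B : ModularForm (G0 N) k), B ≠ 0 ∧ x * dict1QL B = dict1QL A := by
  obtain ⟨k, a, b, ⟨A, rfl⟩, ⟨B, rfl⟩, hb0, h⟩ := Dict1IsRatio.of_mem N hx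
  refine ⟨k, A, B, ?_, h⟩
  rintro rfl
  exact hb0 rfl

/-- Two representations of the same element of `F_ℂ` define the same meromorphic function. -/
theorem dict1_ratio_unique {N : ℕ} {k k' : ℤ} {x : LaurentSeries ℂ}
    (A B : ModularForm (G0 N) k) (A' B' : ModularForm (G0 N) k')
    (h : x * dict1QL B = dict1QL A) (h' : x * dict1QL B' = dict1QL A') (τ : ℍ) :
    A τ * B' τ = A' τ * B τ := by
  have h1 : IsMF (G0 N) (k + k') ((A : ℍ → ℂ) * B') := (IsMF.of A).mul (IsMF.of B')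
  have h2 : IsMF (G0 N) (k + k') ((A' : ℍ → ℂ) * B) :=
    ((IsMF.of A').mul (IsMF.of B)).cast (add_comm _ _)
  have h3 : dict1QF ((A : ℍ → ℂ) * B' - (A' : ℍ → ℂ) * B) = 0 := by
    rw [sub_eq_add_neg, dict1QF_add h1 h2.neg, dict1QF_neg h2,
      dict1QF_mul (IsMF.of A) (IsMF.of B'), dict1QF_mul (IsMF.of A') (IsMF.of B)]
    show dict1QL A * dict1QL B' + -(dict1QL A' * dict1QL B) = 0
    rw [← h, ← h']
    ring
  have h4 := dict1_eq_zero_of_qF (h1.sub h2) h3
  have := congrFun h4 τ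
  simpa [sub_eq_zero] using this

end Fermat.Agent.F3I2
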