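/-
Cluster A (F3), analytic package (I2), piece A3c (D1) (helper78): the interface propositions
`DictD1a N`, `DictD1b N` of `DictInterface.lean` (helper43), from `Dict1.lean`.
-/
import Fermat.Agent.F3.I2.Dict1
import Fermat.Agent.F3.I2.DictInterface

set_option autoImplicit false

namespace Fermat.Agent.F3I2

open UpperHalfPlane CongruenceSubgroup ModularCurve
open scoped MatrixGroups ModularForm

theorem dict1_qLaurent_eq (f : ℍ → ℂ) : qLaurent f = dict1QF f := rfl

/-- **(D1b)**: every quotient of two modular forms of equal weight on `Γ₀(N)` is in `FC N`. -/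
theorem dictD1b (N : ℕ) [NeZero N] : DictD1b N := by
  intro w A B hB
  obtain ⟨x, hx, h⟩ := dict1_onto N A B hB
  exact ⟨⟨x, hx⟩, hB, h.symm⟩

/-- **(D1a)**: every nonzero element of `FC N` is a quotient of two modular forms of equal
weight on `Γ₀(N)`. -/
theorem dictD1a (N : ℕ) [NeZero N] : DictD1a N := by
  intro x hx0
  obtain ⟨k, A, B, hB, h⟩ := dict1_into N x.2
  refine ⟨k, A, B, ?_, hB, h.symm⟩
  rintro rfl
  have h0 : dict1QL (0 : ModularForm (Fermat.Agent.S23.G0 N) k) = 0 := dict1QF_zero
  rw [h0] at h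
  rcases mul_eq_zero.mp h with h1 | h1
  · exact hx0 (Subtype.ext h1)
  · exact dict1QL_ne_zero B hB h1

/-- The element of `FC N` attached to a ratio is unique. -/
theorem dict1_isRatio_unique {N : ℕ} {w : ℤ} {A B : ModularForm (Gamma0 N) w} {x y : FC N}
    (hx : IsRatio N x A B) (hy : IsRatio N y A B) : x = y := by
  obtain ⟨hB, h1⟩ := hx
  obtain ⟨-, h2⟩ := hy
  have hq : qLaurent B ≠ 0 := dict1QL_ne_zero B hB
  exact Subtype.ext (mul_right_cancel₀ hq (h1.symm.trans h2))

/-- Two ratios representing the same element define the same meromorphic function. -/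
theorem dict1_isRatio_cross {N : ℕ} {w w' : ℤ} {A B : ModularForm (Gamma0 N) w}
    {A' B' : ModularForm (Gamma0 N) w'} {x : FC N}
    (h : IsRatio N x A B) (h' : IsRatio N x A' B') (τ : ℍ) : A τ * B' τ = A' τ * B τ :=
  dict1_ratio_unique A B A' B' h.2.symm h'.2.symm τ

end Fermat.Agent.F3I2
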