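/-
Cluster A (F3), analytic package (I2), piece A3c (D3), part 1 (helper78):
`q`-expansions of translates `τ ↦ f (τ + r)` and of the product of the Hecke translates
`∏_i A ∣[w] α_i` of a modular form.
-/
import Fermat.Agent.F3.I2.Dict1
import Fermat.Agent.Lib.Kronecker.Formal

set_option autoImplicit false

namespace Fermat.Agent.F3I2

open UpperHalfPlane ModularForm MatrixGroups Polynomial SlashInvariantForm Filter
open scoped Real Topology Manifold
open Fermat.Agent.S23 ModularCurve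
open Fermat.Agent.S28 Fermat.Agent.S28.QExp
open Fermat.Agent.Kronecker (scaleL scaleL_coeff)

/-- `q (τ + r) = e^{2πi r} q (τ)`. -/
theorem dict3_qFun_vadd (r : ℝ) (τ : ℍ) :
    qFun (r +ᵥ τ) = Complex.exp (2 * π * Complex.I * r) * qFun τ := by
  simp only [qFun, Function.Periodic.qParam, UpperHalfPlane.coe_vadd]
  rw [← Complex.exp_add]
  congr 1
  push_cast
  ring

theorem dict3_isPer_translate {f : ℍ → ℂ} (hf : IsPer f) (r : ℝ) :
    IsPer (fun τ => f (r +ᵥ τ)) := by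
  rw [isPer_iff] at hf ⊢
  intro τ
  have : r +ᵥ ((1 : ℝ) +ᵥ τ) = (1 : ℝ) +ᵥ (r +ᵥ τ) := by
    rw [vadd_vadd, vadd_vadd, add_comm]
  rw [this, hf]

/-- Taylor expansion of `q ↦ a * c (z q)`. -/
theorem dict3_taylor0_scale {c : ℂ → ℂ} (hc : AnalyticAt ℂ c 0) (a z : ℂ) (hz : ‖z‖ = 1) :
    AnalyticAt ℂ (fun q => a * c (z * q)) 0 ∧
      taylor0 (fun q => a * c (z * q)) =
        PowerSeries.mk fun n => a * z ^ n * (taylor0 c).coeff n := by
  obtain ⟨r, hr0, hr1, hsum⟩ := exists_hasSum_of_analyticAt hc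
  have key : HasFPowerSeriesAt (fun q => a * c (z * q)) (FormalMultilinearSeries.ofScalars ℂ
      (fun n => a * z ^ n * (taylor0 c).coeff n)) 0 := by
    refine hasFPowerSeriesAt_of_hasSum hr0 fun q hq => ?_
    have hzq : ‖z * q‖ < r := by rw [norm_mul, hz, one_mul]; exact hq
    have h1 := (hsum (z * q) hzq).mul_left a
    have e : (fun n : ℕ => a * z ^ n * (taylor0 c).coeff n * q ^ n) =
        fun n : ℕ => a * ((taylor0 c).coeff n * (z * q) ^ n) := by
      funext n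
      rw [mul_pow]
      ring
    rw [e]
    exact h1
  exact ⟨key.analyticAt, taylor0_eq_of_hasFPowerSeriesAt key⟩

/-- **Translation.**  If `f` has expansion `s` then `τ ↦ f (τ + r)` has expansion
`s (e^{2πi r} q)`. -/
theorem dict3_hasQ_translate {f : ℍ → ℂ} {s : LaurentSeries ℂ} (hf : HasQ f s) (r : ℝ)
    (z : ℂˣ) (hz : (z : ℂ) = Complex.exp (2 * π * Complex.I * r)) :
    HasQ (fun τ => f (r +ᵥ τ)) (scaleL z s) := by
  obtain ⟨hper, m, hqa, hexp⟩ := hf
  have hznorm : ‖(z : ℂ)‖ = 1 := by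
    rw [hz, Complex.norm_exp]
    simp
  set F : ℍ → ℂ := f * qFun ^ m with hF
  have hperF : IsPer F := hper.mul (isPer_qFun.pow m)
  set c₀ : ℂ → ℂ := cuspFunction 1 F with hc₀
  set c : ℂ → ℂ := fun q => ((z : ℂ) ^ m)⁻¹ * c₀ ((z : ℂ) * q) with hc
  obtain ⟨hcan, hctay⟩ := dict3_taylor0_scale (c := c₀) hqa ((z : ℂ) ^ m)⁻¹ z hznorm
  have hval : ∀ τ : ℍ, ((fun τ : ℍ => f (r +ᵥ τ)) * qFun ^ m) τ = c (qFun τ) := by
    intro τ
    have e1 : c₀ ((z : ℂ) * qFun τ) = F (r +ᵥ τ) := by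
      have := Function.Periodic.eq_cuspFunction one_ne_zero hperF ((r +ᵥ τ : ℍ) : ℂ)
      have h2 : Function.Periodic.qParam 1 ((r +ᵥ τ : ℍ) : ℂ) = (z : ℂ) * qFun τ := by
        have := dict3_qFun_vadd r τ
        rw [qFun] at this
        rw [this, hz, qFun]
      rw [h2] at this
      rw [hc₀]
      refine this.trans ?_
      rw [Function.comp_apply, ofComplex_apply]
    show f (r +ᵥ τ) * (qFun ^ m) τ = ((z : ℂ) ^ m)⁻¹ * c₀ ((z : ℂ) * qFun τ)
    rw [e1, hF, Pi.mul_apply, Pi.pow_apply, Pi.pow_apply, dict3_qFun_vadd, ← hz, mul_pow]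
    have hzm : (z : ℂ) ^ m ≠ 0 := pow_ne_zero _ z.ne_zero
    field_simp
  obtain ⟨hqa', hq'⟩ := qa_of_eq one_pos hcan fun τ _ => hval τ
  refine ⟨dict3_isPer_translate hper r, m, hqa', ?_⟩
  rw [hq', hctay]
  have hexp' : HahnSeries.ofPowerSeries ℤ ℂ (taylor0 c₀) = HahnSeries.single (m : ℤ) 1 * s := hexp
  ext k
  -- coefficient of the right hand side
  have hR : (HahnSeries.single (m : ℤ) (1 : ℂ) * scaleL z s).coeff k =
      ((z ^ (k - m) : ℂˣ) : ℂ) * s.coeff (k - m) := by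
    have := HahnSeries.coeff_single_mul_add (r := (1 : ℂ)) (x := scaleL z s) (a := k - m)
      (b := (m : ℤ))
    rw [sub_add_cancel, one_mul] at this
    rw [this, scaleL_coeff]
  have hS : ∀ k : ℤ, (HahnSeries.ofPowerSeries ℤ ℂ (taylor0 c₀)).coeff k = s.coeff (k - m) := by
    intro k
    rw [hexp']
    have := HahnSeries.coeff_single_mul_add (r := (1 : ℂ)) (x := s) (a := k - m) (b := (m : ℤ))
    rw [sub_add_cancel, one_mul] at this
    exact this
  rw [hR, ← hS k]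
  rcases lt_or_ge k 0 with hk | hk
  · rw [ofPowerSeries_coeff_of_neg _ hk, ofPowerSeries_coeff_of_neg _ hk, mul_zero]
  · obtain ⟨n, rfl⟩ := Int.eq_ofNat_of_zero_le hk
    rw [HahnSeries.ofPowerSeries_apply_coeff, HahnSeries.ofPowerSeries_apply_coeff,
      PowerSeries.coeff_mk]
    congr 1
    rw [zpow_sub, zpow_natCast, zpow_natCast, Units.val_mul, Units.val_pow_eq_pow_val,
      Units.val_inv_eq_inv_val, Units.val_pow_eq_pow_val]
    ring

end Fermat.Agent.F3I2
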