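/-
Cluster A (F3), analytic package (I2), piece A3c (D3), part 2 (helper78):
the interface proposition `DictD3 N ℓ` (norm description of `T_ℓ` on ratios of modular forms)
from the formal norm product formula over `ℂ`
    `(Norm_{F_{Nℓ}/F_N} (y(q^ℓ)))(q^ℓ) = y(q^{ℓ²}) · ∏_{b<ℓ} y(ζ^b q)`.
-/
import Fermat.Agent.F3.I2.Dict3Formal
import Fermat.Agent.F3.I2.Dict1Final

set_option autoImplicit false

namespace Fermat.Agent.F3I2

open UpperHalfPlane ModularForm MatrixGroups Filter CongruenceSubgroup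
open scoped Real Topology Manifold ModularForm
open Fermat.Agent.S23 ModularCurve
open Fermat.Agent.S28 Fermat.Agent.S28.QExp
open Fermat.Agent.Kronecker (scaleL scaleL_coeff)
open P2MW.S_ModularForm_heckeT_slash_eq_self_of_mem_Gamma0.ModularForm.HeckeSlashInvariance

/-- `ζ_ℓ = e^{2πi/ℓ}` as a unit of `ℂ`. -/
noncomputable def dict3Zeta (ℓ : ℕ) : ℂˣ :=
  Units.mk0 (Complex.exp (2 * π * Complex.I / ℓ)) (Complex.exp_ne_zero _)

theorem dict3Zeta_coe (ℓ : ℕ) : (dict3Zeta ℓ : ℂ) = Complex.exp (2 * π * Complex.I / ℓ) := rfl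

theorem dict3Zeta_pow_coe (ℓ b : ℕ) :
    ((dict3Zeta ℓ ^ b : ℂˣ) : ℂ) = Complex.exp (2 * π * Complex.I * ((b / ℓ : ℝ) : ℂ)) := by
  rw [Units.val_pow_eq_pow_val, dict3Zeta_coe, ← Complex.exp_nat_mul]
  congr 1
  push_cast
  ring

/-- The formal operator `s ↦ s(q^{ℓ²}) · ∏_{b<ℓ} s(ζ^b q)`. -/
noncomputable def dict3E (ℓ : ℕ) [NeZero ℓ] (s : LaurentSeries ℂ) : LaurentSeries ℂ :=
  qExpand ℂ (ℓ * ℓ) s * ∏ b ∈ Finset.range ℓ, scaleL (dict3Zeta ℓ ^ b) s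

theorem dict3E_mul (ℓ : ℕ) [NeZero ℓ] (s t : LaurentSeries ℂ) :
    dict3E ℓ (s * t) = dict3E ℓ s * dict3E ℓ t := by
  simp only [dict3E, map_mul, Finset.prod_mul_distrib]
  ring

theorem dict3E_ne_zero (ℓ : ℕ) [NeZero ℓ] {s : LaurentSeries ℂ} (hs : s ≠ 0) :
    dict3E ℓ s ≠ 0 := by
  unfold dict3E
  refine mul_ne_zero ?_ (Finset.prod_ne_zero_iff.mpr fun b _ => ?_)
  · exact fun h => hs (qExpand_injective (R := ℂ) (ℓ * ℓ) (h.trans (map_zero _).symm))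
  · intro h
    apply hs
    ext n
    have := congrArg (fun y : LaurentSeries ℂ => y.coeff n) h
    simp only [scaleL_coeff, HahnSeries.coeff_zero] at this
    rcases mul_eq_zero.mp this with h1 | h1
    · exact absurd h1 (Units.ne_zero _)
    · simpa using h1

/-- The **norm product formula** over `ℂ` (formal `q`-expansion form):
`(T_ℓ y)(q^ℓ) = y(q^{ℓ²}) · ∏_{b<ℓ} y(ζ^b q)` where `T_ℓ y = Norm_{F_{Nℓ}/F_N} (y(q^ℓ))`. -/
def NormProductFormulaC (N ℓ : ℕ) [NeZero N] [NeZero ℓ] : Prop :=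
  ∀ y : FC N,
    qExpand ℂ ℓ ((Fermat.Agent.F3G.heckeFun ℂ N ℓ y : FC N) : LaurentSeries ℂ) =
      dict3E ℓ (y : LaurentSeries ℂ)

/-! ### The slash action of the Hecke representatives -/

theorem dict3_slash_diag (ℓ : ℕ) [NeZero ℓ] (w : ℤ) (f : ℍ → ℂ) (τ : ℍ) :
    (f ∣[w] heckeDiagMatrix ℓ) τ = f (heckeDiagMatrix ℓ • τ) * (ℓ : ℂ) ^ (w - 1) := by
  rw [ModularForm.slash_apply, σ_heckeDiagMatrix, denom_heckeDiagMatrix (NeZero.ne ℓ),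
    det_heckeDiagMatrix (NeZero.ne ℓ)]
  simp

theorem dict3_slash_upper (ℓ : ℕ) [NeZero ℓ] (w : ℤ) (f : ℍ → ℂ) (j : ℕ) (τ : ℍ) :
    (f ∣[w] heckeMatrix ℓ j) τ =
      f (heckeMatrix ℓ j • τ) * ((ℓ : ℂ) ^ (w - 1) * (ℓ : ℂ) ^ (-w)) := by
  rw [ModularForm.slash_apply, σ_heckeMatrix, denom_heckeMatrix (NeZero.ne ℓ),
    det_heckeMatrix (NeZero.ne ℓ)]
  simp [mul_assoc]

theorem dict3_diag_smul_mulUH (ℓ : ℕ) [NeZero ℓ] (τ : ℍ) :
    heckeDiagMatrix ℓ • mulUH ℓ τ = mulUH (ℓ * ℓ) τ := by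
  apply UpperHalfPlane.ext
  rw [coe_heckeDiagMatrix_smul (NeZero.ne ℓ), coe_mulUH, coe_mulUH]
  push_cast
  ring

theorem dict3_upper_smul_mulUH (ℓ : ℕ) [NeZero ℓ] (j : ℕ) (τ : ℍ) :
    heckeMatrix ℓ j • mulUH ℓ τ = ((j / ℓ : ℝ) +ᵥ τ) := by
  apply UpperHalfPlane.ext
  rw [coe_heckeMatrix_smul (NeZero.ne ℓ), coe_mulUH, UpperHalfPlane.coe_vadd]
  have hℓ : (ℓ : ℂ) ≠ 0 := by exact_mod_cast NeZero.ne ℓ
  push_cast
  field_simp
  ring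

theorem dict3_prod_range_eq_prod_zmod (ℓ : ℕ) [NeZero ℓ] {M : Type*} [CommMonoid M]
    (F : ℕ → M) : ∏ j ∈ Finset.range ℓ, F j = ∏ x : ZMod ℓ, F x.val := by
  refine Finset.prod_nbij' (fun j : ℕ ↦ (j : ZMod ℓ)) (fun x : ZMod ℓ ↦ x.val)
    (fun _ _ ↦ Finset.mem_univ _) (fun x _ ↦ Finset.mem_range.mpr x.val_lt) (fun j hj ↦ ?_)
    (fun x _ ↦ ?_) (fun j hj ↦ ?_)
  · exact ZMod.val_cast_of_lt (Finset.mem_range.mp hj)
  · exact ZMod.natCast_zmod_val x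
  · rw [ZMod.val_cast_of_lt (Finset.mem_range.mp hj)]

/-- The normalising constant of `∏_i A ∣[w] α_i`. -/
noncomputable def dict3Const (ℓ : ℕ) (w : ℤ) : ℂ :=
  (ℓ : ℂ) ^ (w - 1) * ((ℓ : ℂ) ^ (w - 1) * (ℓ : ℂ) ^ (-w)) ^ ℓ

theorem dict3Const_ne_zero (ℓ : ℕ) [NeZero ℓ] (w : ℤ) : dict3Const ℓ w ≠ 0 := by
  have hℓ : (ℓ : ℂ) ≠ 0 := by exact_mod_cast NeZero.ne ℓ
  unfold dict3Const
  exact mul_ne_zero (zpow_ne_zero _ hℓ)
    (pow_ne_zero _ (mul_ne_zero (zpow_ne_zero _ hℓ) (zpow_ne_zero _ hℓ)))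

/-- The product of the Hecke translates of `f`, evaluated at `ℓ τ`. -/
theorem dict3_prod_slash_mulUH (ℓ : ℕ) [NeZero ℓ] (w : ℤ) (f : ℍ → ℂ) (τ : ℍ) :
    ∏ i : OnePoint (ZMod ℓ), (f ∣[w] heckeRep ℓ i) (mulUH ℓ τ) =
      dict3Const ℓ w * (f (mulUH (ℓ * ℓ) τ) *
        ∏ b ∈ Finset.range ℓ, f ((b / ℓ : ℝ) +ᵥ τ)) := by
  have h1 : ∏ i : OnePoint (ZMod ℓ), (f ∣[w] heckeRep ℓ i) (mulUH ℓ τ) =
      (f ∣[w] heckeDiagMatrix ℓ) (mulUH ℓ τ) *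
        ∏ j : ZMod ℓ, (f ∣[w] heckeMatrix ℓ j.val) (mulUH ℓ τ) :=
    Fintype.prod_option (fun i : OnePoint (ZMod ℓ) => (f ∣[w] heckeRep ℓ i) (mulUH ℓ τ))
  rw [h1, dict3_slash_diag, dict3_diag_smul_mulUH,
    ← dict3_prod_range_eq_prod_zmod ℓ (fun j => (f ∣[w] heckeMatrix ℓ j) (mulUH ℓ τ))]
  simp only [dict3_slash_upper, dict3_upper_smul_mulUH]
  rw [Finset.prod_mul_distrib, Finset.prod_const, Finset.card_range, dict3Const]
  ring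

/-- **Key lemma**: the `q`-expansion of `A' = ∏_i A ∣[w] α_i`. -/
theorem dict3_qExpand_prod (N ℓ : ℕ) [NeZero ℓ] {w w' : ℤ}
    (A : ModularForm (Gamma0 N) w) (A' : ModularForm (Gamma0 N) w')
    (hA' : ⇑A' = fun z => ∏ i : OnePoint (ZMod ℓ), (⇑A ∣[w] heckeRep ℓ i) z) :
    qExpand ℂ ℓ (qLaurent A') = HahnSeries.C (dict3Const ℓ w) * dict3E ℓ (qLaurent A) := by
  have hA : HasQ A (qLaurent A) := dict1_hasQ_modularForm A
  have h1 : HasQ (fun τ => A' (mulUH ℓ τ)) (qExpand ℂ ℓ (qLaurent A')) :=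
    (dict1_hasQ_modularForm A').comp_mulUH ℓ
  have h2 : HasQ ((fun _ : ℍ => dict3Const ℓ w) * ((fun τ => A (mulUH (ℓ * ℓ) τ)) *
      ∏ b ∈ Finset.range ℓ, fun τ => A ((b / ℓ : ℝ) +ᵥ τ)))
      (HahnSeries.C (dict3Const ℓ w) * dict3E ℓ (qLaurent A)) :=
    (hasQ_const _).mul ((hA.comp_mulUH (ℓ * ℓ)).mul
      (HasQ.prod (Finset.range ℓ) fun b _ =>
        dict3_hasQ_translate hA (b / ℓ : ℝ) (dict3Zeta ℓ ^ b) (dict3Zeta_pow_coe ℓ b)))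
  refine h1.eq_of_eq h2 fun τ => ?_
  rw [hA']
  simp only [Pi.mul_apply, Finset.prod_apply]
  exact dict3_prod_slash_mulUH ℓ w A τ

/-- **(D3)** from the norm product formula. -/
theorem dictD3_of_normProductFormula (N ℓ : ℕ) [NeZero N] [NeZero ℓ]
    (h : NormProductFormulaC N ℓ) : DictD3 N ℓ := by
  intro w A B x _ hx w' A' B' hA' hB'
  obtain ⟨hB, hAB⟩ := hx
  have hqB : qLaurent B ≠ 0 := dict1QL_ne_zero B hB
  have kA := dict3_qExpand_prod N ℓ A A' hA'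
  have kB := dict3_qExpand_prod N ℓ B B' hB'
  have hc := dict3Const_ne_zero ℓ w
  have hC : (HahnSeries.C (dict3Const ℓ w) : LaurentSeries ℂ) ≠ 0 := by
    intro h0
    have := congrArg (fun y : LaurentSeries ℂ => y.coeff 0) h0
    simp at this
    exact hc this
  have hB'0 : B' ≠ 0 := by
    rintro rfl
    have h0 : qLaurent (0 : ModularForm (Gamma0 N) w') = 0 := dict1QF_zero
    rw [h0, map_zero] at kB
    exact mul_ne_zero hC (dict3E_ne_zero ℓ hqB) kB.symm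
  refine ⟨hB'0, ?_⟩
  apply qExpand_injective (R := ℂ) ℓ
  rw [map_mul, kA, kB, h x, hAB, dict3E_mul]
  ring

end Fermat.Agent.F3I2
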