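/-
Cluster A (F3), analytic package (I2), piece A3c (D3), part 3 (helper78):
the norm product formula does not depend on the primitive root of unity; glue between the
ported statement `KroneckerC.NormProductFormula` and `NormProductFormulaC`.
-/
import Fermat.Agent.F3.I2.Dict3
import Fermat.Agent.F3.I2.NormC.ProdDefsC

set_option autoImplicit false

namespace Fermat.Agent.F3I2

open ModularCurve
open Fermat.Agent.Kronecker (scaleL scaleL_coeff)

/-- `z ↦ y (z q)` for all `z : ℂ` (zero for `z = 0`). -/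
noncomputable def dict3Scale (y : LaurentSeries ℂ) (z : ℂ) : LaurentSeries ℂ :=
  open Classical in if h : z ≠ 0 then scaleL (Units.mk0 z h) y else 0

theorem dict3Scale_unit (y : LaurentSeries ℂ) (z : ℂˣ) : dict3Scale y (z : ℂ) = scaleL z y := by
  unfold dict3Scale
  rw [dif_pos z.ne_zero]
  have : Units.mk0 (z : ℂ) z.ne_zero = z := Units.ext rfl
  rw [this]

/-- The product `∏_{b<ℓ} y(ζ^b q)` does not depend on the primitive `ℓ`-th root of unity. -/
theorem dict3_prod_scaleL_eq (ℓ : ℕ) (ζ ζ' : ℂˣ) (hζ : IsPrimitiveRoot ζ ℓ)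
    (hζ' : IsPrimitiveRoot ζ' ℓ) (y : LaurentSeries ℂ) :
    ∏ b ∈ Finset.range ℓ, scaleL (ζ ^ b) y = ∏ b ∈ Finset.range ℓ, scaleL (ζ' ^ b) y := by
  have h1 : IsPrimitiveRoot (ζ : ℂ) ℓ := IsPrimitiveRoot.coe_units_iff.mpr hζ
  have h2 : IsPrimitiveRoot (ζ' : ℂ) ℓ := IsPrimitiveRoot.coe_units_iff.mpr hζ'
  have e1 := h1.nthRoots_eq (α := 1) (a := 1) (one_pow ℓ)
  have e2 := h2.nthRoots_eq (α := 1) (a := 1) (one_pow ℓ)
  have e : (Multiset.range ℓ).map (fun b => (ζ : ℂ) ^ b) =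
      (Multiset.range ℓ).map (fun b => (ζ' : ℂ) ^ b) := by
    simpa using e1.symm.trans e2
  have key : ∀ ξ : ℂˣ, ∏ b ∈ Finset.range ℓ, scaleL (ξ ^ b) y =
      (((Multiset.range ℓ).map (fun b => (ξ : ℂ) ^ b)).map (dict3Scale y)).prod := by
    intro ξ
    rw [Multiset.map_map, Finset.prod_eq_multiset_prod]
    congr 1
    refine Multiset.map_congr rfl fun b _ => ?_
    rw [Function.comp_apply, ← Units.val_pow_eq_pow_val, dict3Scale_unit]
  rw [key ζ, key ζ', e]

/-- Glue: the ported norm product formula gives `NormProductFormulaC`. -/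
theorem dict3_normProductFormulaC_of (N ℓ : ℕ) [NeZero N] [NeZero ℓ]
    (h : Fermat.Agent.KroneckerC.NormProductFormula N ℓ) : NormProductFormulaC N ℓ := by
  obtain ⟨ζ, hζ, hy⟩ := h
  intro y
  have h0 : IsPrimitiveRoot (dict3Zeta ℓ) ℓ := by
    rw [← IsPrimitiveRoot.coe_units_iff, dict3Zeta_coe]
    exact Complex.isPrimitiveRoot_exp ℓ (NeZero.ne ℓ)
  rw [dict3E, ← dict3_prod_scaleL_eq ℓ ζ (dict3Zeta ℓ) hζ h0]
  exact hy y

end Fermat.Agent.F3I2
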