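/-
Cluster A (F3), analytic package (I2), piece A3c (D3), final (helper78):
`dictD3 : ℓ prime, ℓ ∤ N → DictD3 N ℓ` (norm description of `T_ℓ` on ratios of modular forms),
and the norm product formula over `ℂ`.
Inputs: the ports to `ℂ` (dir `NormC/`) of helper20's `conjugateExpansions` and helper42's
`normProductFormula_of_conjugateExpansions`, on top of helper46's port `F3/DictC`.
-/
import Fermat.Agent.F3.I2.Dict3Glue
import Fermat.Agent.F3.I2.NormC.NormProdC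
import Fermat.Agent.F3.I2.NormC.ConjExpC

set_option autoImplicit false

namespace Fermat.Agent.F3I2

/-- The **norm product formula** over `ℂ`:
`(Norm_{F_{Nℓ}/F_N} (y(q^ℓ)))(q^ℓ) = y(q^{ℓ²}) · ∏_{b<ℓ} y(ζ_ℓ^b q)` for `ℓ` prime, `ℓ ∤ N`. -/
theorem normProductFormulaC (N ℓ : ℕ) [NeZero N] [NeZero ℓ] (hℓ : ℓ.Prime) (hℓN : ¬ ℓ ∣ N) :
    NormProductFormulaC N ℓ :=
  dict3_normProductFormulaC_of N ℓ
    (Fermat.Agent.KroneckerC.normProductFormula_of_conjugateExpansions N ℓ hℓ hℓN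
      (Fermat.Agent.KroneckerC.conjugateExpansions N ℓ
        ((Nat.Prime.coprime_iff_not_dvd hℓ).mpr hℓN)))

/-- **(D3)**: for `ℓ` prime, `ℓ ∤ N`, and `x = A / B`:
`Norm_{F_{Nℓ}/F_N} (x(q^ℓ)) = ∏_i (A ∣ α_i) / ∏_i (B ∣ α_i)`. -/
theorem dictD3 (N ℓ : ℕ) [NeZero N] [NeZero ℓ] (hℓ : ℓ.Prime) (hℓN : ¬ ℓ ∣ N) : DictD3 N ℓ :=
  dictD3_of_normProductFormula N ℓ (normProductFormulaC N ℓ hℓ hℓN)

end Fermat.Agent.F3I2
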