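/-
Cluster A / F3 (I2), piece (C) = A3b (helper54), general part: weighted Eisenstein sums
`∑ w(v) (v₀ z + v₁)^{-k}` over `v ∈ ℤ²` with a bounded weight `w`.
Holomorphy, slash formula, limit at `i∞`.
-/
import Mathlib

set_option autoImplicit false

noncomputable section

namespace Fermat.Agent.F3I2

open UpperHalfPlane Filter Topology CongruenceSubgroup EisensteinSeries Matrix ModularForm
open scoped MatrixGroups Manifold ModularForm

/-- Right multiplication by `γ ∈ SL(2,ℤ)` on `ℤ²`. -/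
def eisVecMulEquiv (γ : SL(2, ℤ)) : (Fin 2 → ℤ) ≃ (Fin 2 → ℤ) where
  toFun v := v ᵥ* (↑γ : Matrix (Fin 2) (Fin 2) ℤ)
  invFun v := v ᵥ* (↑(γ⁻¹) : Matrix (Fin 2) (Fin 2) ℤ)
  left_inv v := by
    show (v ᵥ* (↑γ : Matrix (Fin 2) (Fin 2) ℤ)) ᵥ* (↑(γ⁻¹) : Matrix (Fin 2) (Fin 2) ℤ) = v
    rw [vecMul_vecMul, ← Matrix.SpecialLinearGroup.coe_mul, mul_inv_cancel,
      Matrix.SpecialLinearGroup.coe_one, vecMul_one]
  right_inv v := by
    show (v ᵥ* (↑(γ⁻¹) : Matrix (Fin 2) (Fin 2) ℤ)) ᵥ* (↑γ : Matrix (Fin 2) (Fin 2) ℤ) = v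
    rw [vecMul_vecMul, ← Matrix.SpecialLinearGroup.coe_mul, inv_mul_cancel,
      Matrix.SpecialLinearGroup.coe_one, vecMul_one]

@[simp] theorem eisVecMulEquiv_apply (γ : SL(2, ℤ)) (v : Fin 2 → ℤ) : eisVecMulEquiv γ v = v ᵥ* (↑γ : Matrix (Fin 2) (Fin 2) ℤ) := rfl

theorem eis_vecMul_vecMul_inv (γ : SL(2, ℤ)) (v : Fin 2 → ℤ) : (v ᵥ* (↑γ : Matrix (Fin 2) (Fin 2) ℤ)) ᵥ* (↑(γ⁻¹) : Matrix (Fin 2) (Fin 2) ℤ) = v :=
  (eisVecMulEquiv γ).left_inv v

theorem eis_vecMul_inv_vecMul (γ : SL(2, ℤ)) (v : Fin 2 → ℤ) : (v ᵥ* (↑(γ⁻¹) : Matrix (Fin 2) (Fin 2) ℤ)) ᵥ* (↑γ : Matrix (Fin 2) (Fin 2) ℤ) = v :=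
  (eisVecMulEquiv γ).right_inv v

/-- The weighted Eisenstein sum. -/
def wEis (k : ℤ) (w : (Fin 2 → ℤ) → ℂ) (z : ℍ) : ℂ :=
  ∑' v : Fin 2 → ℤ, w v * eisSummand k v z

theorem summable_wEis {k : ℤ} (hk : 3 ≤ k) {w : (Fin 2 → ℤ) → ℂ} (hw : ∀ v, ‖w v‖ ≤ 1) (z : ℍ) :
    Summable fun v => w v * eisSummand k v z :=
  Summable.of_norm_bounded (summable_norm_eisSummand hk z) (fun v => by
    rw [norm_mul]
    exact mul_le_of_le_one_left (norm_nonneg _) (hw v))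

/-- Slash formula for weighted Eisenstein sums. -/
theorem wEis_slash {k : ℤ} (w : (Fin 2 → ℤ) → ℂ) (γ : SL(2, ℤ)) :
    wEis k w ∣[k] γ = wEis k (fun v => w (v ᵥ* (↑(γ⁻¹) : Matrix (Fin 2) (Fin 2) ℤ))) := by
  ext1 z
  simp_rw [SL_slash_apply, _root_.zpow_neg,
    mul_inv_eq_iff_eq_mul₀ (zpow_ne_zero _ <| denom_ne_zero _ z), wEis, eisSummand_SL2_apply]
  have e : ∀ v : Fin 2 → ℤ, w v * (denom (γ : GL (Fin 2) ℝ) z ^ k * eisSummand k (v ᵥ* (↑γ : Matrix (Fin 2) (Fin 2) ℤ)) z)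
      = (fun u : Fin 2 → ℤ => w (u ᵥ* (↑(γ⁻¹) : Matrix (Fin 2) (Fin 2) ℤ)) * eisSummand k u z) (eisVecMulEquiv γ v)
        * denom (γ : GL (Fin 2) ℝ) z ^ k := by
    intro v
    simp only [eisVecMulEquiv_apply, eis_vecMul_vecMul_inv]
    ring
  simp_rw [e]
  rw [tsum_mul_right]
  congr 1
  exact (eisVecMulEquiv γ).tsum_eq (fun u : Fin 2 → ℤ => w (u ᵥ* (↑(γ⁻¹) : Matrix (Fin 2) (Fin 2) ℤ)) * eisSummand k u z)

/-! ### Holomorphy -/

theorem eis_norm_eisSummand_le_of_mem_verticalStrip {k : ℤ} (hk : 0 ≤ k) {A B : ℝ} (hB : 0 < B)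
    {z : ℍ} (hz : z ∈ verticalStrip A B) (v : Fin 2 → ℤ) :
    ‖eisSummand k v z‖ ≤ r ⟨⟨A, B⟩, hB⟩ ^ (-k : ℝ) * ‖v‖ ^ (-k : ℝ) := by
  have hk' : (0 : ℝ) ≤ (k : ℝ) := by exact_mod_cast hk
  simpa only [eisSummand, one_div, ← _root_.zpow_neg, norm_zpow, ← Real.rpow_intCast,
    Int.cast_neg] using summand_bound_of_mem_verticalStrip hk' v hB hz

theorem norm_wEis_summand_le {k : ℤ} (hk : 0 ≤ k) {w : (Fin 2 → ℤ) → ℂ} (hw : ∀ v, ‖w v‖ ≤ 1)
    {A B : ℝ} (hB : 0 < B) {z : ℍ} (hz : z ∈ verticalStrip A B) (v : Fin 2 → ℤ) :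
    ‖w v * eisSummand k v z‖ ≤ r ⟨⟨A, B⟩, hB⟩ ^ (-k : ℝ) * ‖v‖ ^ (-k : ℝ) := by
  rw [norm_mul]
  exact (mul_le_of_le_one_left (norm_nonneg _) (hw v)).trans
    (eis_norm_eisSummand_le_of_mem_verticalStrip hk hB hz v)

theorem wEis_tendstoLocallyUniformly {k : ℤ} (hk : 3 ≤ k) {w : (Fin 2 → ℤ) → ℂ}
    (hw : ∀ v, ‖w v‖ ≤ 1) :
    TendstoLocallyUniformly (fun (s : Finset (Fin 2 → ℤ)) ↦ (∑ x ∈ s, w x * eisSummand k x ·))
      (wEis k w ·) Filter.atTop := by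
  have hk' : (2 : ℝ) < k := by norm_cast
  have p_sum : Summable fun x : Fin 2 → ℤ ↦ ‖x‖ ^ (-k : ℝ) := summable_one_div_norm_rpow hk'
  simp only [tendstoLocallyUniformly_iff_forall_isCompact, wEis]
  intro K hK
  obtain ⟨A, B, hB, HABK⟩ := subset_verticalStrip_of_isCompact hK
  refine (tendstoUniformlyOn_tsum (hu := p_sum.mul_left <| r ⟨⟨A, B⟩, hB⟩ ^ (-k : ℝ))
    (fun p z hz ↦ ?_)).mono HABK
  exact norm_wEis_summand_le (by omega) hw hB hz p

theorem wEis_tendstoLocallyUniformlyOn {k : ℤ} (hk : 3 ≤ k) {w : (Fin 2 → ℤ) → ℂ}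
    (hw : ∀ v, ‖w v‖ ≤ 1) :
    TendstoLocallyUniformlyOn (fun (s : Finset (Fin 2 → ℤ)) ↦
      ↑ₕ(fun (z : ℍ) ↦ ∑ x ∈ s, w x * eisSummand k x z)) (↑ₕ(wEis k w))
          Filter.atTop {z : ℂ | 0 < z.im} := by
  rw [← upperHalfPlaneSet, ← UpperHalfPlane.range_coe, ← Set.image_univ]
  apply TendstoLocallyUniformlyOn.comp (s := ⊤) _ _ _ (OpenPartialHomeomorph.continuousOn_symm _)
  · simp only [Set.top_eq_univ, tendstoLocallyUniformlyOn_univ]
    exact wEis_tendstoLocallyUniformly hk hw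
  · simp only [IsOpenEmbedding.toOpenPartialHomeomorph_target, Set.top_eq_univ,
      Set.mapsTo_range_iff, Set.mem_univ, forall_const]

/-- Weighted Eisenstein sums are holomorphic. -/
theorem wEis_mdifferentiable {k : ℤ} (hk : 3 ≤ k) {w : (Fin 2 → ℤ) → ℂ}
    (hw : ∀ v, ‖w v‖ ≤ 1) : MDiff (wEis k w) := by
  intro τ
  suffices DifferentiableAt ℂ (↑ₕ(wEis k w)) τ.1 by
    convert!
      MDifferentiableAt.comp τ (DifferentiableAt.mdifferentiableAt this) τ.mdifferentiable_coe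
    exact funext fun z ↦ (comp_ofComplex (wEis k w) z).symm
  refine DifferentiableOn.differentiableAt ?_ (isOpen_upperHalfPlaneSet.mem_nhds τ.2)
  refine (wEis_tendstoLocallyUniformlyOn hk hw).differentiableOn
    (Eventually.of_forall fun s ↦ ?_) isOpen_upperHalfPlaneSet
  have e : (↑ₕ(fun (z : ℍ) ↦ ∑ x ∈ s, w x * eisSummand k x z))
      = fun z : ℂ => ∑ x ∈ s, w x * (↑ₕ(eisSummand k x)) z := by
    funext z
    simp
  rw [e]
  exact DifferentiableOn.fun_sum fun x _ ↦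
    (eisSummand_extension_differentiableOn k x).const_mul (w x)

/-! ### The limit at `i∞` -/

/-- The tail: the sum of the norms of the summands with `v 0 ≠ 0`. -/
def eisTail (k : ℤ) (z : ℍ) : ℝ :=
  ∑' v : Fin 2 → ℤ, if v 0 = 0 then 0 else ‖eisSummand k v z‖

theorem eis_vecMul_T_zpow_zero (n : ℤ) (v : Fin 2 → ℤ) :
    (v ᵥ* (↑(ModularGroup.T ^ n) : Matrix (Fin 2) (Fin 2) ℤ)) 0 = v 0 := by
  rw [ModularGroup.coe_T_zpow]
  simp [vecMul, dotProduct, Fin.sum_univ_two]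

theorem eis_vecMul_T_zpow_one (n : ℤ) (v : Fin 2 → ℤ) :
    (v ᵥ* (↑(ModularGroup.T ^ n) : Matrix (Fin 2) (Fin 2) ℤ)) 1 = v 0 * n + v 1 := by
  rw [ModularGroup.coe_T_zpow]
  simp [vecMul, dotProduct, Fin.sum_univ_two]

theorem eis_eisSummand_T_zpow_smul (k n : ℤ) (v : Fin 2 → ℤ) (z : ℍ) :
    eisSummand k v (ModularGroup.T ^ n • z)
      = eisSummand k (v ᵥ* (↑(ModularGroup.T ^ n) : Matrix (Fin 2) (Fin 2) ℤ)) z := by
  simp only [eisSummand, eis_vecMul_T_zpow_zero, eis_vecMul_T_zpow_one, ModularGroup.coe_T_zpow_smul_eq]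
  congr 1
  push_cast
  ring

theorem eisTail_T_zpow_smul (k n : ℤ) (z : ℍ) :
    eisTail k (ModularGroup.T ^ n • z) = eisTail k z := by
  unfold eisTail
  rw [← (eisVecMulEquiv (ModularGroup.T ^ n)).tsum_eq
    (fun u : Fin 2 → ℤ => if u 0 = 0 then 0 else ‖eisSummand k u z‖)]
  refine tsum_congr fun v => ?_
  rw [eis_eisSummand_T_zpow_smul, eisVecMulEquiv_apply, eis_vecMul_T_zpow_zero]

theorem eis_exists_T_zpow_mem_verticalStrip (z : ℍ) :
    ∃ n : ℤ, ModularGroup.T ^ n • z ∈ verticalStrip 1 z.im := by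
  refine ⟨-⌊z.re⌋, ?_, ?_⟩
  · rw [ModularGroup.re_T_zpow_smul]
    push_cast
    rw [abs_le]
    constructor <;> linarith [Int.floor_le z.re, Int.lt_floor_add_one z.re]
  · rw [ModularGroup.im_T_zpow_smul]

theorem eis_norm_eisSummand_le_im {k : ℤ} (hk : 0 ≤ k) {v : Fin 2 → ℤ} (hv : v 0 ≠ 0) (z : ℍ) :
    ‖eisSummand k v z‖ ≤ (z.im ^ k)⁻¹ := by
  have him : z.im ≤ ‖(v 0 : ℂ) * (z : ℂ) + v 1‖ := by
    have h1 : |((v 0 : ℂ) * (z : ℂ) + v 1).im| ≤ ‖(v 0 : ℂ) * (z : ℂ) + v 1‖ :=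
      Complex.abs_im_le_norm _
    have h2 : ((v 0 : ℂ) * (z : ℂ) + v 1).im = (v 0 : ℝ) * z.im := by
      simp
    rw [h2, abs_mul, abs_of_pos z.im_pos] at h1
    have h3 : (1 : ℝ) ≤ |(v 0 : ℝ)| := by
      have : (1 : ℤ) ≤ |v 0| := Int.one_le_abs hv
      exact_mod_cast this
    nlinarith [z.im_pos]
  rw [eisSummand, _root_.zpow_neg, norm_inv, norm_zpow]
  lift k to ℕ using hk
  simp only [zpow_natCast]
  exact inv_anti₀ (pow_pos z.im_pos _) (pow_le_pow_left₀ z.im_pos.le him _)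

theorem tendsto_eisTail {k : ℤ} (hk : 3 ≤ k) : Tendsto (eisTail k) atImInfty (𝓝 0) := by
  have hk' : (2 : ℝ) < k := by norm_cast
  choose n hn using eis_exists_T_zpow_mem_verticalStrip
  have h1 : eisTail k = fun z => ∑' v : Fin 2 → ℤ,
      (if v 0 = 0 then 0 else ‖eisSummand k v (ModularGroup.T ^ n z • z)‖) :=
    funext fun z => (eisTail_T_zpow_smul k (n z) z).symm
  rw [h1]
  have key := tendsto_tsum_of_dominated_convergence (𝓕 := atImInfty)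
    (f := fun z (v : Fin 2 → ℤ) =>
      if v 0 = 0 then (0 : ℝ) else ‖eisSummand k v (ModularGroup.T ^ n z • z)‖)
    (g := fun _ => (0 : ℝ))
    (bound := fun v => r ⟨⟨1, 1⟩, one_pos⟩ ^ (-k : ℝ) * ‖v‖ ^ (-k : ℝ))
    ((summable_one_div_norm_rpow hk').mul_left _) ?_ ?_
  · simpa using key
  · intro v
    by_cases hv : v 0 = 0
    · simp [hv]
    · simp only [hv, if_false]
      have hlim : Tendsto (fun z : ℍ => (z.im ^ k)⁻¹) atImInfty (𝓝 0) := by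
        have h2 : Tendsto (fun x : ℝ => (x ^ k)⁻¹) atTop (𝓝 0) := by
          have := tendsto_zpow_atTop_zero (𝕜 := ℝ) (n := -k) (by omega)
          simpa [_root_.zpow_neg] using this
        exact h2.comp tendsto_comap
      refine squeeze_zero (fun _ => norm_nonneg _) (fun z => ?_) hlim
      have := eis_norm_eisSummand_le_im (k := k) (by omega) hv (ModularGroup.T ^ n z • z)
      rwa [ModularGroup.im_T_zpow_smul] at this
  · rw [Filter.Eventually, atImInfty_mem]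
    refine ⟨1, fun z hz v => ?_⟩
    have hmem : ModularGroup.T ^ n z • z ∈ verticalStrip 1 1 :=
      verticalStrip_anti_right 1 hz (hn z)
    have hb := eis_norm_eisSummand_le_of_mem_verticalStrip (k := k) (by omega) one_pos hmem v
    split_ifs
    · rw [norm_zero]
      exact mul_nonneg (Real.rpow_nonneg (r_pos _).le _) (Real.rpow_nonneg (norm_nonneg _) _)
    · rwa [norm_norm]

/-- The limit of a weighted Eisenstein sum at `i∞`: only the terms with `v 0 = 0` survive. -/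
theorem wEis_tendsto {k : ℤ} (hk : 3 ≤ k) {w : (Fin 2 → ℤ) → ℂ} (hw : ∀ v, ‖w v‖ ≤ 1) :
    Tendsto (wEis k w) atImInfty
      (𝓝 (∑' v : Fin 2 → ℤ, if v 0 = 0 then w v * ((v 1 : ℤ) : ℂ) ^ (-k) else 0)) := by
  rw [tendsto_iff_norm_sub_tendsto_zero]
  refine squeeze_zero (fun _ => norm_nonneg _) (fun z => ?_) (tendsto_eisTail hk)
  have hs1 := summable_wEis hk hw z
  have hL : (fun v : Fin 2 → ℤ => if v 0 = 0 then w v * ((v 1 : ℤ) : ℂ) ^ (-k) else 0)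
      = fun v => if v 0 = 0 then w v * eisSummand k v z else 0 := by
    funext v
    split_ifs with h
    · simp [eisSummand, h]
    · rfl
  have hs2 : Summable (fun v : Fin 2 → ℤ => if v 0 = 0 then w v * eisSummand k v z else 0) :=
    Summable.of_norm_bounded (summable_norm_eisSummand hk z) (fun v => by
      split_ifs
      · rw [norm_mul]
        exact mul_le_of_le_one_left (norm_nonneg _) (hw v)
      · simp)
  rw [hL, wEis, ← hs1.tsum_sub hs2]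
  have e : ∀ v : Fin 2 → ℤ, w v * eisSummand k v z
      - (if v 0 = 0 then w v * eisSummand k v z else 0)
      = if v 0 = 0 then 0 else w v * eisSummand k v z := by
    intro v
    split_ifs <;> simp
  simp_rw [e]
  have hs3 : Summable (fun v : Fin 2 → ℤ => if v 0 = 0 then 0 else ‖eisSummand k v z‖) :=
    Summable.of_nonneg_of_le (fun v => by split_ifs <;> simp)
      (fun v => by split_ifs <;> simp) (summable_norm_eisSummand hk z)
  have hle : ∀ v : Fin 2 → ℤ, ‖(if v 0 = 0 then 0 else w v * eisSummand k v z)‖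
      ≤ if v 0 = 0 then 0 else ‖eisSummand k v z‖ := by
    intro v
    split_ifs
    · simp
    · rw [norm_mul]
      exact mul_le_of_le_one_left (norm_nonneg _) (hw v)
  have hs4 : Summable (fun v : Fin 2 → ℤ => ‖(if v 0 = 0 then 0 else w v * eisSummand k v z)‖) :=
    Summable.of_nonneg_of_le (fun v => norm_nonneg _) hle hs3
  exact (norm_tsum_le_tsum_norm hs4).trans (hs4.tsum_le_tsum hle hs3)

/-- Weighted Eisenstein sums are bounded at `i∞`. -/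
theorem wEis_isBoundedAtImInfty {k : ℤ} (hk : 3 ≤ k) {w : (Fin 2 → ℤ) → ℂ}
    (hw : ∀ v, ‖w v‖ ≤ 1) : IsBoundedAtImInfty (wEis k w) :=
  (wEis_tendsto hk hw).isBigO_one ℝ

end Fermat.Agent.F3I2
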