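/-
Cluster A / F3 (I2), piece (C) = A3b (helper54): Eisenstein series with character on `Γ₀(N)`.

For a homomorphism `χ : Γ₀(N) → ℂˣ` of absolute value one which is trivial on the stabiliser of `∞`,
and `k ≥ 3`, the series `E_{k,χ}(z) = (1/2) ∑ χ(γ_{c,d})⁻¹ (c z + d)^{-k}` (sum over the bottom rows
`(c,d)` of elements of `Γ₀(N)`) is holomorphic, satisfies `E ∣[k] γ = χ(γ) E` on `Γ₀(N)`, tends to `1`
at `i∞` for even `k`, and every `SL(2,ℤ)`-translate is bounded at `i∞`.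
-/
import Mathlib
import Fermat.Agent.F3.I2.EisWeighted

set_option autoImplicit false

noncomputable section

namespace Fermat.Agent.F3I2

open UpperHalfPlane Filter Topology CongruenceSubgroup EisensteinSeries Matrix ModularForm
open scoped MatrixGroups Manifold ModularForm

/-- The weight of the bottom row `v`: `χ(γ)⁻¹ / 2` if `v` is the bottom row of `γ ∈ Γ₀(N)`,
and `0` if `v` is not a bottom row. -/
def eisCharWeight (N : ℕ) (χ : ↥(Gamma0 N) →* ℂˣ) (v : Fin 2 → ℤ) : ℂ :=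
  open Classical in
  if h : ∃ γ : ↥(Gamma0 N), (γ : SL(2, ℤ)) 1 = v then (((χ h.choose)⁻¹ : ℂˣ) : ℂ) / 2 else 0

/-- The Eisenstein series of weight `k` and character `χ` on `Γ₀(N)`. -/
def eisChar (N : ℕ) (k : ℤ) (χ : ↥(Gamma0 N) →* ℂˣ) (z : ℍ) : ℂ :=
  ∑' v : Fin 2 → ℤ, eisCharWeight N χ v * eisSummand k v z

theorem eisChar_eq_wEis (N : ℕ) (k : ℤ) (χ : ↥(Gamma0 N) →* ℂˣ) :
    eisChar N k χ = wEis k (eisCharWeight N χ) := rfl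

variable {N : ℕ} {k : ℤ}

theorem norm_eisCharWeight_le (χ : ↥(Gamma0 N) →* ℂˣ)
    (hχ : ∀ γ, ‖((χ γ : ℂˣ) : ℂ)‖ = 1) (v : Fin 2 → ℤ) : ‖eisCharWeight N χ v‖ ≤ 1 := by
  unfold eisCharWeight
  split_ifs with h
  · rw [norm_div, Units.val_inv_eq_inv_val, norm_inv, hχ]
    norm_num
  · simp

theorem eis_sl2_mul_inv_row (γ δ : SL(2, ℤ)) :
    (γ * δ⁻¹) 1 0 = γ 1 0 * δ 1 1 - γ 1 1 * δ 1 0 := by
  rw [Matrix.SpecialLinearGroup.SL2_inv_expl]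
  show ((γ : Matrix (Fin 2) (Fin 2) ℤ) *
    (Matrix.of ![![δ.1 1 1, -δ.1 0 1], ![-δ.1 1 0, δ.1 0 0]] : Matrix (Fin 2) (Fin 2) ℤ)) 1 0 = _
  rw [Matrix.mul_apply, Fin.sum_univ_two]
  simp
  ring

/-- Two elements of `Γ₀(N)` with the same bottom row have the same value under `χ`. -/
theorem eisChar_chi_eq_of_row_eq (χ : ↥(Gamma0 N) →* ℂˣ)
    (hinf : ∀ γ : ↥(Gamma0 N), (γ : SL(2, ℤ)) 1 0 = 0 → χ γ = 1) (γ δ : ↥(Gamma0 N))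
    (h : (γ : SL(2, ℤ)) 1 = (δ : SL(2, ℤ)) 1) : χ γ = χ δ := by
  have h1 : χ (γ * δ⁻¹) = 1 := by
    apply hinf
    have e : ((γ * δ⁻¹ : ↥(Gamma0 N)) : SL(2, ℤ)) = (γ : SL(2, ℤ)) * (δ : SL(2, ℤ))⁻¹ := by
      simp
    rw [e, eis_sl2_mul_inv_row]
    have h0 := congrFun h 0
    have h1 := congrFun h 1
    rw [h0, h1]
    ring
  rw [map_mul, map_inv, mul_inv_eq_one] at h1
  exact h1

theorem eisCharWeight_row (χ : ↥(Gamma0 N) →* ℂˣ)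
    (hinf : ∀ γ : ↥(Gamma0 N), (γ : SL(2, ℤ)) 1 0 = 0 → χ γ = 1) (δ : ↥(Gamma0 N)) :
    eisCharWeight N χ ((δ : SL(2, ℤ)) 1) = (((χ δ)⁻¹ : ℂˣ) : ℂ) / 2 := by
  have h : ∃ γ : ↥(Gamma0 N), (γ : SL(2, ℤ)) 1 = (δ : SL(2, ℤ)) 1 := ⟨δ, rfl⟩
  unfold eisCharWeight
  rw [dif_pos h, eisChar_chi_eq_of_row_eq χ hinf _ δ h.choose_spec]

theorem eisCharWeight_of_not_row (χ : ↥(Gamma0 N) →* ℂˣ) {v : Fin 2 → ℤ}
    (h : ¬ ∃ γ : ↥(Gamma0 N), (γ : SL(2, ℤ)) 1 = v) : eisCharWeight N χ v = 0 := by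
  unfold eisCharWeight
  rw [dif_neg h]

theorem eis_row_mul_eq (γ δ : SL(2, ℤ)) :
    (γ * δ) 1 = (γ 1) ᵥ* (↑δ : Matrix (Fin 2) (Fin 2) ℤ) := by
  funext j
  simp [Matrix.SpecialLinearGroup.coe_mul, Matrix.mul_apply, Matrix.vecMul, dotProduct]

theorem eisCharWeight_vecMul (χ : ↥(Gamma0 N) →* ℂˣ)
    (hinf : ∀ γ : ↥(Gamma0 N), (γ : SL(2, ℤ)) 1 0 = 0 → χ γ = 1) (γ : ↥(Gamma0 N))
    (v : Fin 2 → ℤ) :
    eisCharWeight N χ (v ᵥ* (↑((γ : SL(2, ℤ))⁻¹) : Matrix (Fin 2) (Fin 2) ℤ))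
      = ((χ γ : ℂˣ) : ℂ) * eisCharWeight N χ v := by
  by_cases h : ∃ δ : ↥(Gamma0 N), (δ : SL(2, ℤ)) 1 = v
  · obtain ⟨δ, rfl⟩ := h
    have e : ((δ : SL(2, ℤ)) 1) ᵥ* (↑((γ : SL(2, ℤ))⁻¹) : Matrix (Fin 2) (Fin 2) ℤ)
        = ((δ * γ⁻¹ : ↥(Gamma0 N)) : SL(2, ℤ)) 1 := by
      rw [← eis_row_mul_eq]
      simp
    rw [e, eisCharWeight_row χ hinf, eisCharWeight_row χ hinf, map_mul, map_inv]
    simp only [_root_.mul_inv_rev, inv_inv, Units.val_mul]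
    ring
  · have h' : ¬ ∃ δ : ↥(Gamma0 N),
        (δ : SL(2, ℤ)) 1 = v ᵥ* (↑((γ : SL(2, ℤ))⁻¹) : Matrix (Fin 2) (Fin 2) ℤ) := by
      rintro ⟨δ, hδ⟩
      apply h
      refine ⟨δ * γ, ?_⟩
      have : ((δ * γ : ↥(Gamma0 N)) : SL(2, ℤ)) 1
          = ((δ : SL(2, ℤ)) 1) ᵥ* (↑(γ : SL(2, ℤ)) : Matrix (Fin 2) (Fin 2) ℤ) := by
        rw [← eis_row_mul_eq]
        simp
      rw [this, hδ, eis_vecMul_inv_vecMul]
    rw [eisCharWeight_of_not_row χ h, eisCharWeight_of_not_row χ h', mul_zero]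

/-! ### The four properties -/

theorem eisChar_mdifferentiable (hk : 3 ≤ k) (χ : ↥(Gamma0 N) →* ℂˣ)
    (hχ : ∀ γ, ‖((χ γ : ℂˣ) : ℂ)‖ = 1) : MDiff (eisChar N k χ) :=
  wEis_mdifferentiable hk (norm_eisCharWeight_le χ hχ)

theorem eisChar_slash (χ : ↥(Gamma0 N) →* ℂˣ)
    (hinf : ∀ γ : ↥(Gamma0 N), (γ : SL(2, ℤ)) 1 0 = 0 → χ γ = 1) (γ : ↥(Gamma0 N)) :
    eisChar N k χ ∣[k] (γ : SL(2, ℤ)) = ((χ γ : ℂˣ) : ℂ) • eisChar N k χ := by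
  rw [eisChar_eq_wEis, wEis_slash]
  funext z
  simp only [wEis, Pi.smul_apply, smul_eq_mul, eisCharWeight_vecMul χ hinf γ, mul_assoc]
  rw [tsum_mul_left]

theorem eisChar_isBoundedAtImInfty_slash (hk : 3 ≤ k) (χ : ↥(Gamma0 N) →* ℂˣ)
    (hχ : ∀ γ, ‖((χ γ : ℂˣ) : ℂ)‖ = 1) (g : SL(2, ℤ)) :
    IsBoundedAtImInfty (eisChar N k χ ∣[k] g) := by
  rw [eisChar_eq_wEis, wEis_slash]
  exact wEis_isBoundedAtImInfty hk (fun v => norm_eisCharWeight_le χ hχ _)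

/-! ### The limit at `i∞` -/

theorem eis_sl2_row_one_eq_of_zero (γ : SL(2, ℤ)) (h : γ 1 0 = 0) : γ 1 1 = 1 ∨ γ 1 1 = -1 := by
  have hdet := Matrix.SpecialLinearGroup.det_coe γ
  rw [Matrix.det_fin_two] at hdet
  have h' : (γ : Matrix (Fin 2) (Fin 2) ℤ) 1 0 = 0 := h
  rw [h', mul_zero, sub_zero] at hdet
  exact Int.isUnit_iff.mp (IsUnit.of_mul_eq_one _ (by rw [mul_comm]; exact hdet))

theorem eisCharWeight_zero_one (χ : ↥(Gamma0 N) →* ℂˣ)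
    (hinf : ∀ γ : ↥(Gamma0 N), (γ : SL(2, ℤ)) 1 0 = 0 → χ γ = 1) :
    eisCharWeight N χ ![0, 1] = 1 / 2 := by
  have e : ((1 : ↥(Gamma0 N)) : SL(2, ℤ)) 1 = ![0, 1] := by
    funext i
    fin_cases i <;> simp
  rw [← e, eisCharWeight_row χ hinf, map_one]
  simp

theorem eis_neg_one_mem_Gamma0 (N : ℕ) : (-1 : SL(2, ℤ)) ∈ Gamma0 N := by
  rw [Gamma0_mem]
  simp

theorem eisCharWeight_zero_neg_one (χ : ↥(Gamma0 N) →* ℂˣ)
    (hinf : ∀ γ : ↥(Gamma0 N), (γ : SL(2, ℤ)) 1 0 = 0 → χ γ = 1) :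
    eisCharWeight N χ ![0, -1] = 1 / 2 := by
  have e : ((⟨-1, eis_neg_one_mem_Gamma0 N⟩ : ↥(Gamma0 N)) : SL(2, ℤ)) 1 = ![0, -1] := by
    funext i
    fin_cases i <;> simp
  have h1 : χ ⟨-1, eis_neg_one_mem_Gamma0 N⟩ = 1 := hinf _ (by simp)
  rw [← e, eisCharWeight_row χ hinf, h1]
  simp

theorem eisCharWeight_eq_zero_of (χ : ↥(Gamma0 N) →* ℂˣ) {v : Fin 2 → ℤ} (h0 : v 0 = 0)
    (h1 : v ≠ ![0, 1]) (h2 : v ≠ ![0, -1]) : eisCharWeight N χ v = 0 := by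
  apply eisCharWeight_of_not_row
  rintro ⟨γ, rfl⟩
  rcases eis_sl2_row_one_eq_of_zero (γ : SL(2, ℤ)) h0 with h | h
  · apply h1
    funext i
    fin_cases i
    · exact h0
    · exact h
  · apply h2
    funext i
    fin_cases i
    · exact h0
    · exact h

theorem eisChar_limit_eq_one (hk2 : Even k) (χ : ↥(Gamma0 N) →* ℂˣ)
    (hinf : ∀ γ : ↥(Gamma0 N), (γ : SL(2, ℤ)) 1 0 = 0 → χ γ = 1) :
    (∑' v : Fin 2 → ℤ, if v 0 = 0 then eisCharWeight N χ v * ((v 1 : ℤ) : ℂ) ^ (-k) else 0)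
      = 1 := by
  classical
  have hne : (![0, 1] : Fin 2 → ℤ) ≠ ![0, -1] := by
    intro h
    have := congrFun h 1
    simp at this
  rw [tsum_eq_sum (s := {![0, 1], ![0, -1]})]
  · rw [Finset.sum_pair hne]
    simp only [Matrix.cons_val_zero, Matrix.cons_val_one, if_true,
      eisCharWeight_zero_one χ hinf, eisCharWeight_zero_neg_one χ hinf]
    have h1 : ((1 : ℤ) : ℂ) ^ (-k) = 1 := by simp
    have h2 : ((-1 : ℤ) : ℂ) ^ (-k) = 1 := by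
      push_cast
      exact hk2.neg.neg_one_zpow
    rw [h1, h2]
    norm_num
  · intro v hv
    simp only [Finset.mem_insert, Finset.mem_singleton, not_or] at hv
    split_ifs with h0
    · rw [eisCharWeight_eq_zero_of χ h0 hv.1 hv.2, zero_mul]
    · rfl

theorem eisChar_tendsto (hk : 3 ≤ k) (hk2 : Even k) (χ : ↥(Gamma0 N) →* ℂˣ)
    (hχ : ∀ γ, ‖((χ γ : ℂˣ) : ℂ)‖ = 1)
    (hinf : ∀ γ : ↥(Gamma0 N), (γ : SL(2, ℤ)) 1 0 = 0 → χ γ = 1) :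
    Tendsto (eisChar N k χ) atImInfty (𝓝 1) := by
  have h := wEis_tendsto hk (norm_eisCharWeight_le χ hχ)
  rw [eisChar_limit_eq_one hk2 χ hinf] at h
  exact h

/-- A character with values in roots of unity has absolute value one. -/
theorem eisChar_norm_eq_one_of_pow (χ : ↥(Gamma0 N) →* ℂˣ) {n : ℕ} (hn : n ≠ 0)
    (h : ∀ γ, χ γ ^ n = 1) : ∀ γ, ‖((χ γ : ℂˣ) : ℂ)‖ = 1 := by
  intro γ
  have h1 : ((χ γ : ℂˣ) : ℂ) ^ n = 1 := by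
    rw [← Units.val_pow_eq_pow_val, h γ, Units.val_one]
  exact Complex.norm_eq_one_of_pow_eq_one h1 hn

/-- The series does not vanish identically. -/
theorem eisChar_ne_zero (hk : 3 ≤ k) (hk2 : Even k) (χ : ↥(Gamma0 N) →* ℂˣ)
    (hχ : ∀ γ, ‖((χ γ : ℂˣ) : ℂ)‖ = 1)
    (hinf : ∀ γ : ↥(Gamma0 N), (γ : SL(2, ℤ)) 1 0 = 0 → χ γ = 1) :
    eisChar N k χ ≠ 0 := by
  intro h0
  have h := eisChar_tendsto hk hk2 χ hχ hinf
  rw [h0] at h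
  have h' : Tendsto (0 : ℍ → ℂ) atImInfty (𝓝 0) := tendsto_const_nhds
  exact one_ne_zero (tendsto_nhds_unique h h')

end Fermat.Agent.F3I2

namespace Fermat.Agent.F3.EisChar

open UpperHalfPlane Filter Topology CongruenceSubgroup ModularForm
open scoped MatrixGroups Manifold ModularForm

/-- A3b, in the shape requested by helper43: existence of the Eisenstein series with character. -/
theorem exists_eisenstein_character {N : ℕ} [NeZero N] (χ : ↥(Gamma0 N) →* ℂˣ)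
    (hχ1 : ∀ γ, ‖(χ γ : ℂ)‖ = 1)
    (hχinf : ∀ γ : ↥(Gamma0 N), (γ : SL(2, ℤ)) 1 0 = 0 → χ γ = 1)
    (k : ℤ) (hk : 3 ≤ k) (hk2 : Even k) :
    ∃ E : ℍ → ℂ, MDiff E ∧
      (∀ γ : ↥(Gamma0 N), E ∣[k] (γ : SL(2, ℤ)) = (χ γ : ℂ) • E) ∧
      Tendsto E atImInfty (𝓝 1) ∧
      (∀ g : SL(2, ℤ), IsBoundedAtImInfty (E ∣[k] g)) :=
  ⟨Fermat.Agent.F3I2.eisChar N k χ,
    Fermat.Agent.F3I2.eisChar_mdifferentiable hk χ hχ1,
    Fermat.Agent.F3I2.eisChar_slash χ hχinf,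
    Fermat.Agent.F3I2.eisChar_tendsto hk hk2 χ hχ1 hχinf,
    Fermat.Agent.F3I2.eisChar_isBoundedAtImInfty_slash hk χ hχ1⟩

end Fermat.Agent.F3.EisChar
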