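/-
F3 / (I2), piece K1 (owner helper54; architect helper43): modular forms with character on `Γ₀(N)`,
unbundled.  `IsFormChar N w χ f` : `f` is holomorphic on `ℍ`, `f ∣[w] γ = χ(γ) f` for `γ ∈ Γ₀(N)`,
and every `SL(2,ℤ)`-translate of `f` is bounded at `i∞`.
-/
import Mathlib
import Fermat.Prelude.Sol.S_ModularForm_heckeT_slash_eq_self_of_mem_Gamma0
import Fermat.Agent.F3.EigenChar.Defs
import Fermat.Agent.F3.I2.EisChar

set_option autoImplicit false

noncomputable section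

namespace Fermat.Agent.F3I2

open UpperHalfPlane CongruenceSubgroup Filter Topology
open scoped MatrixGroups ModularForm Manifold
open P2MW.S_ModularForm_heckeT_slash_eq_self_of_mem_Gamma0.ModularForm.HeckeSlashInvariance
open Fermat.Agent.F3EC

/-- Modular form of weight `w` and character `χ` on `Γ₀(N)` (unbundled). -/
structure IsFormChar (N : ℕ) (w : ℤ) (χ : ↥(Gamma0 N) →* ℂˣ) (f : ℍ → ℂ) : Prop where
  mdiff : MDiff f
  slash : ∀ γ : ↥(Gamma0 N), f ∣[w] (γ : SL(2, ℤ)) = ((χ γ : ℂˣ) : ℂ) • f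
  bdd : ∀ g : SL(2, ℤ), IsBoundedAtImInfty (f ∣[w] g)

variable {N : ℕ}

theorem IsFormChar.mul {w w' : ℤ} {χ χ' : ↥(Gamma0 N) →* ℂˣ} {f f' : ℍ → ℂ}
    (hf : IsFormChar N w χ f) (hf' : IsFormChar N w' χ' f') :
    IsFormChar N (w + w') (χ * χ') (f * f') := by
  refine ⟨hf.mdiff.mul hf'.mdiff, fun γ => ?_, fun g => ?_⟩
  · rw [ModularForm.mul_slash_SL2, hf.slash, hf'.slash]
    funext z
    simp only [Pi.mul_apply, Pi.smul_apply, smul_eq_mul, MonoidHom.mul_apply, Units.val_mul]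
    ring
  · rw [ModularForm.mul_slash_SL2]
    exact (hf.bdd g).mul (hf'.bdd g)

theorem isFormChar_one : IsFormChar N 0 1 (1 : ℍ → ℂ) := by
  refine ⟨mdifferentiable_const, fun γ => ?_, fun g => ?_⟩
  · rw [ModularForm.is_invariant_one]
    simp
  · rw [ModularForm.is_invariant_one]
    exact const_boundedAtFilter _ _

theorem IsFormChar.pow {w : ℤ} {χ : ↥(Gamma0 N) →* ℂˣ} {f : ℍ → ℂ}
    (hf : IsFormChar N w χ f) (n : ℕ) : IsFormChar N (n * w) (χ ^ n) (f ^ n) := by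
  induction n with
  | zero =>
    have e : ((0 : ℕ) : ℤ) * w = 0 := by simp
    rw [e, pow_zero χ, pow_zero f]
    exact isFormChar_one
  | succ n ih =>
    have e : ((n + 1 : ℕ) : ℤ) * w = n * w + w := by push_cast; ring
    rw [e, pow_succ χ, pow_succ f]
    exact ih.mul hf

/-- A modular form on `Γ₀(N)` is a form with trivial character. -/
theorem isFormChar_of_modularForm [NeZero N] {w : ℤ} (A : ModularForm (Gamma0 N) w) :
    IsFormChar N w 1 (⇑A) := by
  refine ⟨ModularFormClass.holo A, fun γ => ?_, fun g => ?_⟩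
  · have h := SlashInvariantForm.slash_action_eqn A
      (Matrix.SpecialLinearGroup.mapGL ℝ (γ : SL(2, ℤ)))
      (Subgroup.mem_map_of_mem _ γ.2)
    have h' : (⇑A) ∣[w] (γ : SL(2, ℤ)) = ⇑A := h
    rw [h']
    simp
  · have hc : IsCusp (Matrix.SpecialLinearGroup.mapGL ℝ g • (OnePoint.infty : OnePoint ℝ))
        ((Gamma0 N : Subgroup SL(2, ℤ)) : Subgroup (GL (Fin 2) ℝ)) := by
      rw [Subgroup.IsArithmetic.isCusp_iff_isCusp_SL2Z]
      exact isCusp_SL2Z_iff'.mpr ⟨g, rfl⟩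
    have hb := ModularFormClass.bdd_at_cusps A hc
    exact hb _ rfl

/-- A form with trivial character is (the function underlying) a modular form on `Γ₀(N)`. -/
theorem IsFormChar.exists_modularForm {w : ℤ} {f : ℍ → ℂ} (hf : IsFormChar N w 1 f) :
    ∃ A : ModularForm (Gamma0 N) w, ⇑A = f := by
  refine ⟨{ toFun := f
            slash_action_eq' := ?_
            holo' := hf.mdiff
            bdd_at_cusps' := ?_ }, rfl⟩
  · rintro _ ⟨γ, hγ, rfl⟩
    have h2 : f ∣[w] γ = f := by simpa using hf.slash ⟨γ, hγ⟩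
    exact h2
  · intro c hc
    have hc' : IsCusp c 𝒮ℒ := hc.mono (Subgroup.map_le_range _ _)
    rw [OnePoint.isBoundedAt_iff_forall_SL2Z hc']
    intro γ _
    exact hf.bdd γ

/-- helper54's Eisenstein series with character is a form with character. -/
theorem isFormChar_eisChar [NeZero N] (χ : ↥(Gamma0 N) →* ℂˣ)
    (hχ1 : ∀ γ, ‖((χ γ : ℂˣ) : ℂ)‖ = 1)
    (hχinf : ∀ γ : ↥(Gamma0 N), (γ : SL(2, ℤ)) 1 0 = 0 → χ γ = 1)
    (k : ℤ) (hk : 3 ≤ k) : IsFormChar N k χ (eisChar N k χ) :=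
  ⟨eisChar_mdifferentiable hk χ hχ1, eisChar_slash χ hχinf,
    eisChar_isBoundedAtImInfty_slash hk χ hχ1⟩

theorem fc_heckeCoset_one {ℓ : ℕ} [Fact ℓ.Prime] (hℓN : ¬ ℓ ∣ N) (x : OnePoint (ZMod ℓ)) :
    heckeCoset hℓN (1 : ↥(Gamma0 N)) x = 1 := by
  symm
  apply heckeCoset_unique
  simp [redMatrix_one]

/-- The Hecke transfer of a character: `(T_ℓ χ)(γ) = ∏_x χ(γ_x)`, `α_x γ = γ_x α_{γ̄ x}`. -/
def heckeTransfer {ℓ : ℕ} [Fact ℓ.Prime] (hℓN : ¬ ℓ ∣ N) (χ : ↥(Gamma0 N) →* ℂˣ) :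
    ↥(Gamma0 N) →* ℂˣ where
  toFun γ := ∏ x : OnePoint (ZMod ℓ), χ (heckeCoset hℓN γ x)
  map_one' := by
    simp [fc_heckeCoset_one]
  map_mul' := by
    intro γ δ
    have hperm : ∏ x : OnePoint (ZMod ℓ), χ (heckeCoset hℓN δ (redMatrix ℓ (γ : SL(2, ℤ)) • x)) =
        ∏ x : OnePoint (ZMod ℓ), χ (heckeCoset hℓN δ x) :=
      Equiv.prod_comp (MulAction.toPerm (redMatrix ℓ (γ : SL(2, ℤ))))
        (fun x => χ (heckeCoset hℓN δ x))
    rw [← hperm, ← Finset.prod_mul_distrib]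
    refine Finset.prod_congr rfl fun x _ => ?_
    rw [heckeCoset_mul, map_mul]

theorem heckeTransfer_apply {ℓ : ℕ} [Fact ℓ.Prime] (hℓN : ¬ ℓ ∣ N) (χ : ↥(Gamma0 N) →* ℂˣ)
    (γ : ↥(Gamma0 N)) :
    heckeTransfer hℓN χ γ = ∏ x : OnePoint (ZMod ℓ), χ (heckeCoset hℓN γ x) := rfl

/-! ### Slash of finite products -/

theorem fc_prod_slash_SL2 {ι : Type*} (s : Finset ι) (w : ℤ) (F : ι → ℍ → ℂ) (A : SL(2, ℤ)) :
    (∏ i ∈ s, F i) ∣[w * (s.card : ℤ)] A = ∏ i ∈ s, (F i ∣[w] A) := by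
  classical
  induction s using Finset.induction_on with
  | empty =>
    simp only [Finset.prod_empty, Finset.card_empty, Nat.cast_zero, mul_zero]
    exact ModularForm.is_invariant_one A
  | insert a s ha ih =>
    rw [Finset.prod_insert ha, Finset.prod_insert ha, Finset.card_insert_of_notMem ha]
    have e : w * ((s.card + 1 : ℕ) : ℤ) = w + w * (s.card : ℤ) := by push_cast; ring
    rw [e, ModularForm.mul_slash_SL2, ih]

theorem fc_card_onePoint_zmod (ℓ : ℕ) [Fact ℓ.Prime] :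
    (Finset.univ : Finset (OnePoint (ZMod ℓ))).card = ℓ + 1 := by
  rw [Finset.card_univ]
  show Fintype.card (Option (ZMod ℓ)) = ℓ + 1
  rw [Fintype.card_option, ZMod.card]

theorem fc_heckeRep_one_zero (ℓ : ℕ) [Fact ℓ.Prime] (x : OnePoint (ZMod ℓ)) :
    (heckeRep ℓ x : GL (Fin 2) ℝ) 1 0 = 0 := by
  have hℓ : ℓ ≠ 0 := (Fact.out : ℓ.Prime).ne_zero
  induction x using OnePoint.rec with
  | infty => simp [heckeRep_infty, ModularForm.heckeDiagMatrix, hℓ, ModularForm.upperTriangularGL]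
  | coe j => simp [heckeRep_coe, ModularForm.heckeMatrix, hℓ, ModularForm.upperTriangularGL]

theorem fc_heckeRep_det_pos (ℓ : ℕ) [Fact ℓ.Prime] (x : OnePoint (ZMod ℓ)) :
    0 < (heckeRep ℓ x : GL (Fin 2) ℝ).det.val := by
  have hℓ : ℓ ≠ 0 := (Fact.out : ℓ.Prime).ne_zero
  have hpos : (0 : ℝ) < ℓ := by exact_mod_cast Nat.pos_of_ne_zero hℓ
  induction x using OnePoint.rec with
  | infty =>
    simp [heckeRep_infty, ModularForm.heckeDiagMatrix, hℓ, ModularForm.upperTriangularGL,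
      Matrix.GeneralLinearGroup.val_det_apply, Matrix.det_fin_two, hpos]
  | coe j =>
    simp [heckeRep_coe, ModularForm.heckeMatrix, hℓ, ModularForm.upperTriangularGL,
      Matrix.GeneralLinearGroup.val_det_apply, Matrix.det_fin_two, hpos]

theorem fc_smul_slash_heckeRep (ℓ : ℕ) [Fact ℓ.Prime] (x : OnePoint (ZMod ℓ)) (w : ℤ) (c : ℂ)
    (f : ℍ → ℂ) : (c • f) ∣[w] heckeRep ℓ x = c • (f ∣[w] heckeRep ℓ x) := by
  rw [ModularForm.smul_slash]
  congr 1
  have h := fc_heckeRep_det_pos ℓ x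
  rw [Matrix.GeneralLinearGroup.val_det_apply] at h
  simp [UpperHalfPlane.σ, h]

theorem IsFormChar.slash_heckeRep_mul {ℓ : ℕ} [Fact ℓ.Prime] (hℓN : ¬ ℓ ∣ N) {w : ℤ}
    {χ : ↥(Gamma0 N) →* ℂˣ} {f : ℍ → ℂ} (hf : IsFormChar N w χ f) (γ : ↥(Gamma0 N))
    (x : OnePoint (ZMod ℓ)) :
    (f ∣[w] heckeRep ℓ x) ∣[w] (γ : SL(2, ℤ))
      = ((χ (heckeCoset hℓN γ x) : ℂˣ) : ℂ) •
        (f ∣[w] heckeRep ℓ (redMatrix ℓ (γ : SL(2, ℤ)) • x)) := by
  have h1 : (f ∣[w] heckeRep ℓ x) ∣[w] (γ : SL(2, ℤ))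
      = f ∣[w] (heckeRep ℓ x * Matrix.SpecialLinearGroup.mapGL ℝ (γ : SL(2, ℤ))) := by
    rw [SlashAction.slash_mul]
    rfl
  rw [h1, heckeCoset_spec hℓN γ x, SlashAction.slash_mul]
  have h2 : f ∣[w] (Matrix.SpecialLinearGroup.mapGL ℝ
      ((heckeCoset hℓN γ x : ↥(Gamma0 N)) : SL(2, ℤ)))
      = ((χ (heckeCoset hℓN γ x) : ℂˣ) : ℂ) • f := hf.slash (heckeCoset hℓN γ x)
  rw [h2, fc_smul_slash_heckeRep]

theorem IsFormChar.bdd_slash_heckeRep {ℓ : ℕ} [Fact ℓ.Prime] {w : ℤ}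
    {χ : ↥(Gamma0 N) →* ℂˣ} {f : ℍ → ℂ} (hf : IsFormChar N w χ f) (g : SL(2, ℤ))
    (x : OnePoint (ZMod ℓ)) :
    IsBoundedAtImInfty ((f ∣[w] heckeRep ℓ x) ∣[w] g) := by
  have h1 : (f ∣[w] heckeRep ℓ x) ∣[w] g
      = f ∣[w] (heckeRep ℓ x * Matrix.SpecialLinearGroup.mapGL ℝ g) := by
    rw [SlashAction.slash_mul]
    rfl
  have hℓ1 : ¬ ℓ ∣ 1 := fun h => (Fact.out : ℓ.Prime).one_lt.ne' (Nat.dvd_one.mp h)
  obtain ⟨g', -, hmul⟩ := heckeRep_mul (N := 1) hℓ1 g (by simp) x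
  rw [h1, hmul, SlashAction.slash_mul]
  exact IsBoundedAtImInfty.slash w (fc_heckeRep_one_zero ℓ _) (hf.bdd g')

theorem fc_isBoundedAtImInfty_prod {ι : Type*} (s : Finset ι) (F : ι → ℍ → ℂ)
    (h : ∀ i ∈ s, IsBoundedAtImInfty (F i)) : IsBoundedAtImInfty (∏ i ∈ s, F i) := by
  classical
  induction s using Finset.induction_on with
  | empty =>
    simp only [Finset.prod_empty]
    exact const_boundedAtFilter _ (1 : ℂ)
  | insert a s ha ih =>
    rw [Finset.prod_insert ha]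
    exact (h a (Finset.mem_insert_self a s)).mul
      (ih fun i hi => h i (Finset.mem_insert_of_mem hi))

theorem fc_mdifferentiable_prod {ι : Type*} (s : Finset ι) (F : ι → ℍ → ℂ)
    (h : ∀ i ∈ s, MDiff (F i)) : MDiff (∏ i ∈ s, F i) := by
  classical
  induction s using Finset.induction_on with
  | empty =>
    simp only [Finset.prod_empty]
    exact mdifferentiable_const
  | insert a s ha ih =>
    rw [Finset.prod_insert ha]
    exact (h a (Finset.mem_insert_self a s)).mul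
      (ih fun i hi => h i (Finset.mem_insert_of_mem hi))

/-- The product of the `ℓ + 1` Hecke translates of a form with character `χ` is a form with
character `T_ℓ χ` (weight `w * (ℓ + 1)`). -/
theorem IsFormChar.heckeProd {ℓ : ℕ} [Fact ℓ.Prime] (hℓN : ¬ ℓ ∣ N) {w : ℤ}
    {χ : ↥(Gamma0 N) →* ℂˣ} {f : ℍ → ℂ} (hf : IsFormChar N w χ f) :
    IsFormChar N (w * (ℓ + 1)) (heckeTransfer hℓN χ)
      (fun z => ∏ i : OnePoint (ZMod ℓ), (f ∣[w] heckeRep ℓ i) z) := by
  have e : (fun z => ∏ i : OnePoint (ZMod ℓ), (f ∣[w] heckeRep ℓ i) z)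
      = ∏ i : OnePoint (ZMod ℓ), (f ∣[w] heckeRep ℓ i) := by
    funext z
    rw [Finset.prod_apply]
  have hw : w * ((ℓ : ℤ) + 1) = w * ((Finset.univ : Finset (OnePoint (ZMod ℓ))).card : ℤ) := by
    rw [fc_card_onePoint_zmod]
    push_cast
    ring
  rw [e, hw]
  refine ⟨fc_mdifferentiable_prod _ _ fun i _ => hf.mdiff.slash w _, fun γ => ?_, fun g => ?_⟩
  · rw [fc_prod_slash_SL2]
    simp_rw [hf.slash_heckeRep_mul hℓN γ]
    rw [Finset.prod_smul, heckeTransfer_apply]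
    congr 1
    · push_cast
      rfl
    · exact Equiv.prod_comp (MulAction.toPerm (redMatrix ℓ (γ : SL(2, ℤ))))
        (fun x => f ∣[w] heckeRep ℓ x)
  · rw [fc_prod_slash_SL2]
    exact fc_isBoundedAtImInfty_prod _ _ fun i _ => hf.bdd_slash_heckeRep g i

/-- Holomorphic functions on `ℍ` form a domain. -/
theorem fc_mdiff_eq_zero_or_eq_zero_of_mul_eq_zero {F G : ℍ → ℂ} (hF : MDiff F) (hG : MDiff G)
    (h : F * G = 0) : F = 0 ∨ G = 0 := by
  have hF' : AnalyticOnNhd ℂ (F ∘ ofComplex) {z : ℂ | 0 < z.im} :=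
    (UpperHalfPlane.mdifferentiable_iff.mp hF).analyticOnNhd isOpen_upperHalfPlaneSet
  have hG' : AnalyticOnNhd ℂ (G ∘ ofComplex) {z : ℂ | 0 < z.im} :=
    (UpperHalfPlane.mdifferentiable_iff.mp hG).analyticOnNhd isOpen_upperHalfPlaneSet
  have hconn : IsPreconnected {z : ℂ | 0 < z.im} := (convex_halfSpace_im_gt 0).isPreconnected
  have hprod : ∀ z ∈ {z : ℂ | 0 < z.im}, (F ∘ ofComplex) z * (G ∘ ofComplex) z = 0 := by
    intro z _
    have := congrFun h (ofComplex z)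
    simpa using this
  rcases hF'.eq_zero_or_eq_zero_of_mul_eq_zero hG' hprod hconn with h0 | h0
  · left
    funext τ
    have := h0 (τ : ℂ) τ.im_pos
    simpa using this
  · right
    funext τ
    have := h0 (τ : ℂ) τ.im_pos
    simpa using this

theorem fc_mdiff_prod_ne_zero {ι : Type*} (s : Finset ι) (F : ι → ℍ → ℂ)
    (hF : ∀ i ∈ s, MDiff (F i)) (h0 : ∀ i ∈ s, F i ≠ 0) : (∏ i ∈ s, F i) ≠ 0 := by
  classical
  induction s using Finset.induction_on with
  | empty =>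
    simp only [Finset.prod_empty]
    intro h
    have := congrFun h UpperHalfPlane.I
    simp at this
  | insert a s ha ih =>
    rw [Finset.prod_insert ha]
    intro h
    have hs : MDiff (∏ i ∈ s, F i) := by
      clear ih h h0
      induction s using Finset.induction_on with
      | empty =>
        simp only [Finset.prod_empty]
        exact mdifferentiable_const
      | insert b t hb iht =>
        rw [Finset.prod_insert hb]
        refine (hF b ?_).mul (iht ?_ ?_)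
        · simp
        · intro hh
          exact ha (Finset.mem_insert_of_mem hh)
        · intro i hi
          rcases Finset.mem_insert.mp hi with rfl | hi
          · exact hF _ (Finset.mem_insert_self _ _)
          · exact hF i (Finset.mem_insert_of_mem (Finset.mem_insert_of_mem hi))
    rcases fc_mdiff_eq_zero_or_eq_zero_of_mul_eq_zero (hF a (Finset.mem_insert_self a s)) hs h
      with h1 | h1
    · exact h0 a (Finset.mem_insert_self a s) h1
    · exact ih (fun i hi => hF i (Finset.mem_insert_of_mem hi))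
        (fun i hi => h0 i (Finset.mem_insert_of_mem hi)) h1

theorem fc_slash_ne_zero {f : ℍ → ℂ} (hf0 : f ≠ 0) (w : ℤ) (g : GL (Fin 2) ℝ) : f ∣[w] g ≠ 0 := by
  intro h
  apply hf0
  have h1 : (f ∣[w] g) ∣[w] g⁻¹ = f := by
    rw [← SlashAction.slash_mul, mul_inv_cancel, SlashAction.slash_one]
  rw [← h1, h, SlashAction.zero_slash]

/-- The Hecke product of a nonzero function is nonzero. -/
theorem heckeProd_ne_zero {ℓ : ℕ} [Fact ℓ.Prime] {w : ℤ} {f : ℍ → ℂ} (hf : MDiff f)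
    (hf0 : f ≠ 0) :
    (fun z => ∏ i : OnePoint (ZMod ℓ), (f ∣[w] heckeRep ℓ i) z) ≠ 0 := by
  have e : (fun z => ∏ i : OnePoint (ZMod ℓ), (f ∣[w] heckeRep ℓ i) z)
      = ∏ i : OnePoint (ZMod ℓ), (f ∣[w] heckeRep ℓ i) := by
    funext z
    rw [Finset.prod_apply]
  rw [e]
  exact fc_mdiff_prod_ne_zero _ _ (fun i _ => hf.slash w _) (fun i _ => fc_slash_ne_zero hf0 w _)

end Fermat.Agent.F3I2
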