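/-
F3 / (I2), piece K0a (helper43): root extraction on `ℍ` (manifold form) and the character lemma:
a holomorphic `h ≠ 0` on `ℍ` whose `n`-th power is `Γ₀(N)`-invariant of weight `n k` satisfies
`h ∣[k] γ = χ(γ) h` for a homomorphism `χ : Γ₀(N) → μ_n`.
-/
import Mathlib
import Fermat.Agent.F3.I2.Root

set_option autoImplicit false

noncomputable section

namespace Fermat.Agent.F3I2

open UpperHalfPlane CongruenceSubgroup Filter Topology Complex ModularForm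
open scoped MatrixGroups ModularForm Manifold

theorem isOpen_upper : IsOpen {z : ℂ | 0 < z.im} := isOpen_lt continuous_const Complex.continuous_im

theorem isPreconnected_upper : IsPreconnected {z : ℂ | 0 < z.im} :=
  (convex_halfSpace_im_gt 0).isPreconnected

/-- **Root extraction on `ℍ`** (manifold version of `exists_root_upperHalfPlane`). -/
theorem exists_mdiff_root {g : ℍ → ℂ} (hg : MDiff g) {n : ℕ} (hn : n ≠ 0)
    (hord : ∀ τ : ℍ, ∃ m : ℕ, analyticOrderAt (g ∘ ofComplex) (τ : ℂ) = ((n * m : ℕ) : ℕ∞)) :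
    ∃ h : ℍ → ℂ, MDiff h ∧ ∀ τ, h τ ^ n = g τ := by
  have hG : DifferentiableOn ℂ (g ∘ ofComplex) {z : ℂ | 0 < z.im} :=
    UpperHalfPlane.mdifferentiable_iff.1 hg
  obtain ⟨H, hHd, hHp⟩ := exists_root_upperHalfPlane hG hn
    (fun z hz => hord ⟨z, hz⟩)
  refine ⟨fun τ => H (τ : ℂ), ?_, ?_⟩
  · rw [UpperHalfPlane.mdifferentiable_iff]
    refine hHd.congr ?_
    intro z hz
    simp only [Function.comp_apply]
    rw [ofComplex_apply_of_im_pos hz]
  · intro τ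
    have := hHp (τ : ℂ) τ.im_pos
    simpa using this

/-- Two holomorphic functions on `ℍ` with the same `n`-th power differ by an `n`-th root of
unity. -/
theorem exists_smul_of_pow_eq_pow {u h : ℍ → ℂ} (hu : MDiff u) (hh : MDiff h) (hne : h ≠ 0)
    {n : ℕ} (hn : n ≠ 0) (hpow : ∀ τ, u τ ^ n = h τ ^ n) :
    ∃ ζ : ℂ, ζ ^ n = 1 ∧ ∀ τ, u τ = ζ * h τ := by
  obtain ⟨τ₀, hτ₀⟩ : ∃ τ₀, h τ₀ ≠ 0 := by
    by_contra hcon
    push Not at hcon
    exact hne (funext hcon)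
  set ζ : ℂ := u τ₀ / h τ₀ with hζ
  have hζn : ζ ^ n = 1 := by
    rw [hζ, div_pow, hpow τ₀, div_self (pow_ne_zero n hτ₀)]
  refine ⟨ζ, hζn, ?_⟩
  have hU : DifferentiableOn ℂ (u ∘ ofComplex) {z : ℂ | 0 < z.im} :=
    UpperHalfPlane.mdifferentiable_iff.1 hu
  have hH : DifferentiableOn ℂ (fun z => ζ * (h ∘ ofComplex) z) {z : ℂ | 0 < z.im} :=
    (UpperHalfPlane.mdifferentiable_iff.1 hh).const_mul ζ
  have hζ0 : ζ ≠ 0 := by
    intro h0
    rw [h0, zero_pow hn] at hζn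
    exact zero_ne_one hζn
  have key := root_eqOn_of_eq_at isOpen_upper isPreconnected_upper hU hH hn ?_
    (z₀ := (τ₀ : ℂ)) τ₀.im_pos ?_ ?_
  · intro τ
    have := key τ.im_pos
    simpa using this
  · intro z hz
    simp only [Function.comp_apply]
    rw [mul_pow, hζn, one_mul, hpow]
  · simp only [Function.comp_apply, ofComplex_apply]
    rw [hζ, div_mul_cancel₀ _ hτ₀]
  · simp only [Function.comp_apply, ofComplex_apply]
    exact mul_ne_zero hζ0 hτ₀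

/-- Slash of a power, for `SL(2,ℤ)`. -/
theorem pow_slash_SL2 (k : ℤ) (γ : SL(2, ℤ)) (f : ℍ → ℂ) (n : ℕ) :
    (f ^ n) ∣[(n : ℤ) * k] γ = (f ∣[k] γ) ^ n := by
  induction n with
  | zero =>
    simp only [pow_zero, Nat.cast_zero, zero_mul]
    exact is_invariant_one γ
  | succ m ih =>
    have h1 : ((m + 1 : ℕ) : ℤ) * k = (m : ℤ) * k + k := by push_cast; ring
    rw [h1, pow_succ, mul_slash_SL2, ih, pow_succ]

/-- **CHAR**: if `h` is holomorphic on `ℍ`, `h ≠ 0`, and `h ^ n` is invariant under `∣[n k]` for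
`Γ₀(N)`, then `h ∣[k] γ = χ(γ) h` for a homomorphism `χ : Γ₀(N) → μ_n`. -/
theorem exists_character_of_pow_slash {N : ℕ} {n : ℕ} (hn : n ≠ 0) {k : ℤ} {h : ℍ → ℂ}
    (hh : MDiff h) (hne : h ≠ 0)
    (hinv : ∀ γ : ↥(Gamma0 N), (h ^ n) ∣[(n : ℤ) * k] (γ : SL(2, ℤ)) = h ^ n) :
    ∃ χ : ↥(Gamma0 N) →* ℂˣ, (∀ γ, χ γ ^ n = 1) ∧
      ∀ γ : ↥(Gamma0 N), h ∣[k] (γ : SL(2, ℤ)) = ((χ γ : ℂˣ) : ℂ) • h := by
  classical
  obtain ⟨τ₀, hτ₀⟩ : ∃ τ₀, h τ₀ ≠ 0 := by
    by_contra hcon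
    push Not at hcon
    exact hne (funext hcon)
  have hex : ∀ γ : ↥(Gamma0 N), ∃ ζ : ℂ, ζ ^ n = 1 ∧ ∀ τ, (h ∣[k] (γ : SL(2, ℤ))) τ = ζ * h τ := by
    intro γ
    refine exists_smul_of_pow_eq_pow ?_ hh hne hn ?_
    · rw [SL_slash]
      exact hh.slash k _
    · intro τ
      have := congrFun (hinv γ) τ
      rw [pow_slash_SL2] at this
      simpa using this
  choose ζ hζn hζ using hex
  have hζ0 : ∀ γ, ζ γ ≠ 0 := by
    intro γ h0
    have := hζn γ
    rw [h0, zero_pow hn] at this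
    exact zero_ne_one this
  have huniq : ∀ (a b : ℂ), (∀ τ, a * h τ = b * h τ) → a = b := by
    intro a b hab
    exact mul_right_cancel₀ hτ₀ (hab τ₀)
  have hmul : ∀ γ δ : ↥(Gamma0 N), ζ (γ * δ) = ζ γ * ζ δ := by
    intro γ δ
    apply huniq
    intro τ
    rw [← hζ (γ * δ) τ]
    have h1 : h ∣[k] ((γ * δ : ↥(Gamma0 N)) : SL(2, ℤ)) =
        (h ∣[k] (γ : SL(2, ℤ))) ∣[k] (δ : SL(2, ℤ)) := by
      rw [Subgroup.coe_mul, SlashAction.slash_mul]
    have h2 : h ∣[k] (γ : SL(2, ℤ)) = ζ γ • h := by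
      ext τ'
      rw [hζ γ τ']
      rfl
    rw [h1, h2, SL_smul_slash]
    simp only [Pi.smul_apply, smul_eq_mul]
    rw [hζ δ τ]
    ring
  have hone : ζ 1 = 1 := by
    have := hmul 1 1
    rw [mul_one] at this
    exact (mul_right_cancel₀ (hζ0 1) (this.symm.trans (one_mul _).symm)).symm ▸ rfl
  refine ⟨{ toFun := fun γ => Units.mk0 (ζ γ) (hζ0 γ)
            map_one' := Units.ext (by simpa using hone)
            map_mul' := fun γ δ => Units.ext (by simpa using hmul γ δ) }, ?_, ?_⟩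
  · intro γ
    apply Units.ext
    simpa using hζn γ
  · intro γ
    ext τ
    rw [hζ γ τ]
    rfl

end Fermat.Agent.F3I2
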