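/-
F3 / (I2), FINAL (helper43): the analytic package `(K1)`.

For every level `N` there is a family of `ℤ`-linear maps
  `κ_n : Hom_par(Γ₀(N), ℤ) → J₀(N)(ℚ̄)[n]`   (all `n`)
with kernel `n · Hom_par` (`n > 0`), compatible (`d • κ_{dn} = κ_n`) and commuting with `T_ℓ` for
every prime `ℓ ∤ N`.  Consequences: `F3.KappaModP N`.

Inputs (all landed, unconditional):
* the dictionary over `ℂ`: `dictD2a` (helper10/helper84), `dictHPD`, `dictConst` (helper84),
  `dictD3` (helper78), `hi_heckeInputsAlong_complex` (helper76);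
* the descent `ℂ → ℚ̄`: `descBc`, injective, onto the torsion, Hecke-equivariant (helper82,
  helper25, helper89, helper11);
* the kappa core: `exists_kappa_of_bc` (helper43; with helper54, helper9, helper57, helper84).
-/
import Fermat.Agent.F3.I2.Kappa.KappaC
import Fermat.Agent.F3.I2.Descent.Uncond
import Fermat.Agent.F3.Dict.RatioCuspFinal
import Fermat.Agent.F3.Dict.ChartsC
import Fermat.Agent.F3.I2.Dict3Final
import Fermat.Agent.Lib.HeckeInputs.Complex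
import Fermat.Agent.F3.EigenclassGlue

set_option autoImplicit false
set_option linter.style.haveILetI false

noncomputable section

namespace Fermat.Agent.F3I2

open UpperHalfPlane CongruenceSubgroup ModularCurve AlgebraicCurve
open Fermat.Agent.F3EC

/-- **(K1)**: the family `κ_n : Hom_par(Γ₀(N), ℤ) → J₀(N)(ℚ̄)[n]`. -/
theorem kappaAll (N : ℕ) [NeZero N] :
    ∃ κ : (n : ℕ) → HomPar N →ₗ[ℤ] Fermat.Agent.F3.Jtors N n,
      (∀ n : ℕ, 0 < n → ∀ c : HomPar N, κ n c = 0 → ∃ c' : HomPar N, c = (n : ℤ) • c') ∧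
      (∀ (n d : ℕ) (c : HomPar N), 0 < n → 0 < d →
        (d : ℤ) • ((κ (d * n) c : Fermat.Agent.F3.Jtors N (d * n)) : JZero N) =
          (κ n c : JZero N)) ∧
      (∀ (n : ℕ) (ℓ : Nat.Primes), ¬ (ℓ : ℕ) ∣ N → ∀ c : HomPar N,
        κ n (heckeHom N ℓ c) = Fermat.Agent.F3.heckeTors N n ℓ (κ n c)) := by
  refine exists_kappa_of_bc (Fermat.Agent.F3RatioCusp.dictD2a N) (Fermat.Agent.F3Charts.dictHPD N)
    (Fermat.Agent.F3Charts.dictConst N) (fun ℓ _ => ?_) (fun ℓ hℓN => ?_) (descBc N)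
    (descBc_injective N) (fun n hn x' hx' => ?_) (fun ℓ _ n _ y _ => ?_)
  · haveI : NeZero (ℓ : ℕ) := ⟨ℓ.2.ne_zero⟩
    exact Fermat.Agent.HeckeInputs.hi_heckeInputsAlong_complex N ℓ
  · haveI : NeZero (ℓ : ℕ) := ⟨ℓ.2.ne_zero⟩
    exact dictD3 N ℓ ℓ.2 hℓN
  · obtain ⟨x, hx, -⟩ := descBc_surjective_torsion N n hn x' hx'
    exact ⟨x, hx⟩
  · haveI : NeZero (ℓ : ℕ) := ⟨ℓ.2.ne_zero⟩
    exact descBc_hecke N ℓ y

/-- **(A3)** `F3.KappaModP N`. -/
theorem kappaModP (N : ℕ) [NeZero N] : Fermat.Agent.F3.KappaModP N := by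
  intro p hp
  obtain ⟨κ, hker, -, hT⟩ := kappaAll N
  refine ⟨κ p, fun c hc => ?_, fun ℓ hℓ c => ?_⟩
  · obtain ⟨c', hc'⟩ := hker p hp.pos c hc
    exact ⟨c', by rw [hc', natCast_zsmul]⟩
  · exact hT p ℓ (fun h => hℓ (Dvd.dvd.mul_right h p)) c

end Fermat.Agent.F3I2
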