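/-
F3 / (I2), piece K3 (helper57; architect helper43): divisor classes of the form
`(1/n) div x`.  Pure algebra on the Prelude's `Divisor` / `Pic0` (generic function field `F / K`).
`IsRootDiv n x D` : `D` is a degree-zero divisor with `n • D = div x`.
-/
import Mathlib
import Fermat.Prelude.Def_ModularCurve_HeckeModule
import Fermat.Agent.F3.Galois.NormDesc

set_option autoImplicit false

noncomputable section

namespace Fermat.Agent.F3I2

open AlgebraicCurve ModularCurve

section generic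

variable {K F : Type*} [Field K] [Field F] [Algebra K F]

/-- `n • D = div x` for a degree-zero divisor `D` and `x ≠ 0`. -/
def IsRootDiv (n : ℕ) (x : F) (D : Divisor.degZero (K := K) (F := F)) : Prop :=
  x ≠ 0 ∧ ∀ v : Place K F, (n : ℤ) * (D : Divisor K F) v = v.ord x

/-- nonzero constants have order `0` at every place. -/
theorem rootClass_ord_algebraMap (v : Place K F) {a : K} (ha : a ≠ 0) :
    v.ord (algebraMap K F a) = 0 := by
  have hu : IsUnit (algebraMap K v.toValuationSubring a) :=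
    (IsUnit.mk0 a ha).map (algebraMap K v.toValuationSubring)
  have h := v.ord_coe_unit hu.unit
  rwa [IsUnit.unit_spec, Place.coe_algebraMap] at h

/-- Existence: if every order of `x` is divisible by `n > 0`, then `(1/n) div x` exists
(finite support and degree zero come from `HasPrincipalDivisors`). -/
theorem exists_isRootDiv [HasPrincipalDivisors K F] {n : ℕ} (hn : 0 < n) {x : F} (hx : x ≠ 0)
    (hdiv : ∀ v : Place K F, (n : ℤ) ∣ v.ord x) :
    ∃ D : Divisor.degZero (K := K) (F := F), IsRootDiv n x D := by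
  obtain ⟨D₀, hD₀, hdeg⟩ := HasPrincipalDivisors.exists_divisor (K := K) x hx
  have hn0 : (n : ℤ) ≠ 0 := by exact_mod_cast hn.ne'
  set D : Divisor K F := D₀.mapRange (fun k => k / (n : ℤ)) (by simp) with hD
  have hDv : ∀ v : Place K F, (n : ℤ) * D v = v.ord x := by
    intro v
    rw [hD, Finsupp.mapRange_apply, hD₀ v]
    exact Int.mul_ediv_cancel' (hdiv v)
  have hsmul : (n : ℤ) • D = D₀ := by
    ext v
    rw [Finsupp.smul_apply, smul_eq_mul, hDv v, hD₀ v]
  have hdegD : Divisor.degree D = 0 := by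
    have h := congrArg Divisor.degree hsmul
    rw [map_zsmul, hdeg, smul_eq_mul] at h
    exact (mul_eq_zero.mp h).resolve_left hn0
  exact ⟨⟨D, Divisor.mem_degZero.mpr hdegD⟩, hx, hDv⟩

theorem IsRootDiv.unique {n : ℕ} (hn : 0 < n) {x : F}
    {D D' : Divisor.degZero (K := K) (F := F)}
    (h : IsRootDiv n x D) (h' : IsRootDiv n x D') : D = D' := by
  have hn0 : (n : ℤ) ≠ 0 := by exact_mod_cast hn.ne'
  apply Subtype.ext
  ext v
  have h1 := h.2 v
  rw [← h'.2 v] at h1
  exact mul_left_cancel₀ hn0 h1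

theorem IsRootDiv.mul {n : ℕ} {x y : F} {D E : Divisor.degZero (K := K) (F := F)}
    (hD : IsRootDiv n x D) (hE : IsRootDiv n y E) : IsRootDiv n (x * y) (D + E) := by
  refine ⟨mul_ne_zero hD.1 hE.1, fun v => ?_⟩
  rw [AddSubgroup.coe_add, Finsupp.add_apply, mul_add, hD.2 v, hE.2 v, v.ord_mul hD.1 hE.1]

theorem IsRootDiv.inv {n : ℕ} {x : F} {D : Divisor.degZero (K := K) (F := F)}
    (hD : IsRootDiv n x D) : IsRootDiv n x⁻¹ (-D) := by
  refine ⟨inv_ne_zero hD.1, fun v => ?_⟩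
  rw [AddSubgroup.coe_neg, Finsupp.neg_apply, mul_neg, hD.2 v, v.ord_inv]

/-- Multiplying `x` by a constant does not change `(1/n) div x`. -/
theorem IsRootDiv.const_mul {n : ℕ} {x : F} {D : Divisor.degZero (K := K) (F := F)}
    (hD : IsRootDiv n x D) {a : K} (ha : a ≠ 0) : IsRootDiv n (algebraMap K F a * x) D := by
  have ha' : algebraMap K F a ≠ 0 := by simpa using ha
  refine ⟨mul_ne_zero ha' hD.1, fun v => ?_⟩
  rw [v.ord_mul ha' hD.1, rootClass_ord_algebraMap v ha, zero_add, hD.2 v]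

/-- `n • [D] = 0` in `Pic0`. -/
theorem IsRootDiv.nsmul_mk_eq_zero {n : ℕ} {x : F} {D : Divisor.degZero (K := K) (F := F)}
    (hD : IsRootDiv n x D) : (n : ℤ) • Pic0.mk D = 0 := by
  have h1 : (n : ℤ) • Pic0.mk D = Pic0.mk ((n : ℤ) • D) :=
    (map_zsmul (QuotientAddGroup.mk' _) (n : ℤ) D).symm
  rw [h1]
  refine (QuotientAddGroup.eq_zero_iff _).mpr ?_
  refine ⟨x, hD.1, fun v => ?_⟩
  rw [← hD.2 v]
  simp

/-- `(1/n) div (y ^ n) = div y` is principal. -/
theorem IsRootDiv.mk_eq_zero_of_pow {n : ℕ} (hn : 0 < n) {y : F}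
    {D : Divisor.degZero (K := K) (F := F)} (hD : IsRootDiv n (y ^ n) D) : Pic0.mk D = 0 := by
  have hn0 : (n : ℤ) ≠ 0 := by exact_mod_cast hn.ne'
  have hy : y ≠ 0 := fun h => hD.1 (by rw [h, zero_pow hn.ne'])
  refine (QuotientAddGroup.eq_zero_iff _).mpr ?_
  refine ⟨y, hy, fun v => ?_⟩
  have h := hD.2 v
  rw [← zpow_natCast, v.ord_zpow] at h
  exact mul_left_cancel₀ hn0 h

/-- If `[D] = 0` then `div x = n • div y` for some `y ≠ 0`. -/
theorem IsRootDiv.exists_of_mk_eq_zero {n : ℕ} {x : F}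
    {D : Divisor.degZero (K := K) (F := F)} (hD : IsRootDiv n x D) (h0 : Pic0.mk D = 0) :
    ∃ y : F, y ≠ 0 ∧ ∀ v : Place K F, v.ord x = (n : ℤ) * v.ord y := by
  have h2 : (D : Divisor.degZero (K := K) (F := F)) ∈
      (Divisor.principal (K := K) (F := F)).addSubgroupOf
        (Divisor.degZero (K := K) (F := F)) :=
    (QuotientAddGroup.eq_zero_iff _).mp h0
  obtain ⟨y, hy, hDy⟩ := h2
  refine ⟨y, hy, fun v => ?_⟩
  rw [← hD.2 v]
  congr 1
  exact hDy v

/-- Every class killed by `n` is `[(1/n) div x]` for some `x` (helper42's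
`F3G.exists_div_of_zsmul_eq_zero`). -/
theorem exists_isRootDiv_of_torsion (n : ℕ) (c : Pic0 K F) (hc : (n : ℤ) • c = 0) :
    ∃ (D : Divisor.degZero (K := K) (F := F)) (x : F), IsRootDiv n x D ∧ Pic0.mk D = c := by
  obtain ⟨D, f, hf, hDc, hD⟩ := Fermat.Agent.F3G.exists_div_of_zsmul_eq_zero (n : ℤ) c hc
  exact ⟨D, f, ⟨hf, hD⟩, hDc⟩

end generic

/-- `T_ℓ [(1/n) div x] = [(1/n) div (Norm_α (x (q^ℓ)))]` (helper42's
`F3G.heckeOperatorAlong_mk_of_zsmul_eq_div`). -/
theorem IsRootDiv.hecke {L : Type*} [Field L] [Algebra ℚ L] {N ℓ : ℕ} [NeZero N] [NeZero ℓ]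
    (h : HeckeInputsAlong L N ℓ) {n : ℕ}
    {x : laurentBaseChange L (modularFunctionFieldFull N)}
    {D : Divisor.degZero (K := L) (F := laurentBaseChange L (modularFunctionFieldFull N))}
    (hD : IsRootDiv n x D) :
    ∃ E : Divisor.degZero (K := L) (F := laurentBaseChange L (modularFunctionFieldFull N)),
      heckeOperatorAlong L N ℓ (Pic0.mk D) = Pic0.mk E ∧
        IsRootDiv n (Fermat.Agent.F3G.heckeFun L N ℓ x) E := by
  obtain ⟨E, hE, hEv⟩ :=
    Fermat.Agent.F3G.heckeOperatorAlong_mk_of_zsmul_eq_div h D (n : ℤ) hD.1 hD.2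
  exact ⟨E, hE, Fermat.Agent.F3G.heckeFun_ne_zero h hD.1, hEv⟩

end Fermat.Agent.F3I2
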