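/-
F3 / (I2), pieces K2 + K4 (owner: helper50; architect helper43): local orders of holomorphic
functions on `ℍ` at points (`ordAt`) and at `i∞` (`ordInf`), and their behaviour under products,
powers, elliptic stabilisers (K2) and change of period (K4).
-/
import Mathlib
import Fermat.Agent.F3.I2.DictInterface

set_option autoImplicit false

noncomputable section

namespace Fermat.Agent.F3I2

open UpperHalfPlane CongruenceSubgroup Filter Topology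
open scoped MatrixGroups ModularForm Manifold


/-! ### orders at points of `ℍ` -/

lemma lo_analyticOnNhd {f : ℍ → ℂ} (hf : MDiff f) :
    AnalyticOnNhd ℂ (f ∘ ofComplex) {z : ℂ | 0 < z.im} :=
  (UpperHalfPlane.mdifferentiable_iff.mp hf).analyticOnNhd isOpen_upperHalfPlaneSet

lemma lo_analyticAt {f : ℍ → ℂ} (hf : MDiff f) (τ : ℍ) :
    AnalyticAt ℂ (f ∘ ofComplex) (τ : ℂ) :=
  lo_analyticOnNhd hf (τ : ℂ) τ.im_pos

lemma lo_isPreconnected : IsPreconnected {z : ℂ | 0 < z.im} :=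
  (convex_halfSpace_im_gt 0).isPreconnected

/-- Identity theorem on `ℍ`: a nonzero holomorphic function has finite order everywhere. -/
theorem analyticOrderAt_ne_top_of_ne_zero {f : ℍ → ℂ} (hf : MDiff f) (hf0 : f ≠ 0) (τ : ℍ) :
    analyticOrderAt (f ∘ ofComplex) (τ : ℂ) ≠ ⊤ := by
  intro htop
  apply hf0
  have hev : (f ∘ ofComplex) =ᶠ[𝓝 (τ : ℂ)] 0 := analyticOrderAt_eq_top.mp htop
  have hzero := (lo_analyticOnNhd hf).eqOn_zero_of_preconnected_of_eventuallyEq_zero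
    lo_isPreconnected τ.im_pos hev
  funext z
  have := hzero z.im_pos
  simpa [Function.comp, ofComplex_apply] using this

theorem ordAt_mul {f g : ℍ → ℂ} (hf : MDiff f) (hg : MDiff g) (hf0 : f ≠ 0) (hg0 : g ≠ 0)
    (τ : ℍ) : ordAt (f * g) τ = ordAt f τ + ordAt g τ := by
  unfold ordAt
  have h1 : (f * g) ∘ ofComplex = (f ∘ ofComplex) * (g ∘ ofComplex) := rfl
  rw [h1, analyticOrderAt_mul (lo_analyticAt hf τ) (lo_analyticAt hg τ),
    ENat.toNat_add (analyticOrderAt_ne_top_of_ne_zero hf hf0 τ)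
      (analyticOrderAt_ne_top_of_ne_zero hg hg0 τ)]
  push_cast
  rfl

theorem ordAt_pow {f : ℍ → ℂ} (hf : MDiff f) (hf0 : f ≠ 0) (n : ℕ) (τ : ℍ) :
    ordAt (f ^ n) τ = n * ordAt f τ := by
  unfold ordAt
  have h1 : (f ^ n) ∘ ofComplex = (f ∘ ofComplex) ^ n := rfl
  rw [h1, analyticOrderAt_pow (lo_analyticAt hf τ)]
  have hne := analyticOrderAt_ne_top_of_ne_zero hf hf0 τ
  obtain ⟨m, hm⟩ := ENat.ne_top_iff_exists.mp hne
  rw [← hm]
  have : (n • (m : ℕ∞)) = ((n * m : ℕ) : ℕ∞) := by simp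
  rw [this, ENat.toNat_natCast, ENat.toNat_natCast]
  push_cast
  rfl



/-- the Möbius map of `γ` on `ℂ` -/
def loMoeb (γ : SL(2, ℤ)) (z : ℂ) : ℂ :=
  (((γ 0 0 : ℤ) : ℂ) * z + ((γ 0 1 : ℤ) : ℂ)) / (((γ 1 0 : ℤ) : ℂ) * z + ((γ 1 1 : ℤ) : ℂ))

/-- the automorphy factor of `γ` on `ℂ` -/
def loDen (γ : SL(2, ℤ)) (z : ℂ) : ℂ := ((γ 1 0 : ℤ) : ℂ) * z + ((γ 1 1 : ℤ) : ℂ)

lemma loDen_coe (γ : SL(2, ℤ)) (z : ℍ) : loDen γ (z : ℂ) = denom γ z := by
  rw [ModularGroup.denom_apply]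
  rfl

lemma loDen_ne_zero (γ : SL(2, ℤ)) (z : ℍ) : loDen γ (z : ℂ) ≠ 0 := by
  rw [loDen_coe]; exact denom_ne_zero γ z

lemma loMoeb_coe (γ : SL(2, ℤ)) (z : ℍ) : loMoeb γ (z : ℂ) = ((γ • z : ℍ) : ℂ) := by
  rw [coe_specialLinearGroup_apply]
  simp [loMoeb]

lemma lo_det (γ : SL(2, ℤ)) :
    ((γ 0 0 : ℤ) : ℂ) * ((γ 1 1 : ℤ) : ℂ) - ((γ 0 1 : ℤ) : ℂ) * ((γ 1 0 : ℤ) : ℂ) = 1 := by
  have h := γ.det_coe
  rw [Matrix.det_fin_two] at h
  exact_mod_cast h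

lemma continuousAt_loDen (γ : SL(2, ℤ)) (z : ℂ) : ContinuousAt (loDen γ) z := by
  unfold loDen
  fun_prop

lemma continuousAt_loMoeb (γ : SL(2, ℤ)) {z : ℂ} (hz : loDen γ z ≠ 0) :
    ContinuousAt (loMoeb γ) z := by
  unfold loMoeb
  exact ContinuousAt.div (by fun_prop) (continuousAt_loDen γ z) hz

/-- `(γ z - γ τ) (cz + d) (cτ + d) = z - τ`. -/
lemma loMoeb_sub (γ : SL(2, ℤ)) {z w : ℂ} (hz : loDen γ z ≠ 0) (hw : loDen γ w ≠ 0) :
    (loMoeb γ z - loMoeb γ w) * (loDen γ z * loDen γ w) = z - w := by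
  have hd := lo_det γ
  have e1 : loMoeb γ z * loDen γ z = ((γ 0 0 : ℤ) : ℂ) * z + ((γ 0 1 : ℤ) : ℂ) := by
    unfold loMoeb
    exact div_mul_cancel₀ _ hz
  have e2 : loMoeb γ w * loDen γ w = ((γ 0 0 : ℤ) : ℂ) * w + ((γ 0 1 : ℤ) : ℂ) := by
    unfold loMoeb
    exact div_mul_cancel₀ _ hw
  have e3 : (loMoeb γ z - loMoeb γ w) * (loDen γ z * loDen γ w)
      = (loMoeb γ z * loDen γ z) * loDen γ w - (loMoeb γ w * loDen γ w) * loDen γ z := by ring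
  rw [e3, e1, e2]
  unfold loDen
  linear_combination (z - w) * hd

/-- the functional equation of a slash-invariant function, on `ℂ` -/
lemma lo_slash_eq {k : ℤ} {F : ℍ → ℂ} {γ : SL(2, ℤ)} (hF : F ∣[k] γ = F) {z : ℂ}
    (hz : 0 < z.im) :
    (F ∘ ofComplex) (loMoeb γ z) = loDen γ z ^ k * (F ∘ ofComplex) z := by
  have h1 := congrFun hF ⟨z, hz⟩
  rw [ModularForm.SL_slash_apply] at h1
  have hden : denom γ (⟨z, hz⟩ : ℍ) ≠ 0 := denom_ne_zero γ _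
  have h2 : F (γ • ⟨z, hz⟩) = denom γ (⟨z, hz⟩ : ℍ) ^ k * F ⟨z, hz⟩ := by
    rw [← h1, mul_comm, mul_assoc, ← zpow_add₀ hden]
    simp
  have h3 : loMoeb γ z = ((γ • (⟨z, hz⟩ : ℍ) : ℍ) : ℂ) := loMoeb_coe γ ⟨z, hz⟩
  have h4 : loDen γ z = denom γ (⟨z, hz⟩ : ℍ) := loDen_coe γ ⟨z, hz⟩
  simp only [Function.comp_apply]
  rw [h3, ofComplex_apply, h4, ofComplex_apply_of_im_pos hz]
  exact h2

/-- Core of (ELL): `(cτ + d) ^ (k + 2 ord_τ F) = 1`. -/
theorem lo_denom_zpow_eq_one {k : ℤ} {F : ℍ → ℂ} (hF : MDiff F) (_hne : F ≠ 0) {γ₀ : SL(2, ℤ)}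
    {τ : ℍ} (hfix : γ₀ • τ = τ) (hinv : F ∣[k] γ₀ = F)
    (hfin : analyticOrderAt (F ∘ ofComplex) (τ : ℂ) ≠ ⊤) :
    loDen γ₀ (τ : ℂ) ^ (k + 2 * ordAt F τ) = 1 := by
  set j := loDen γ₀ (τ : ℂ) with hj
  have hj0 : j ≠ 0 := loDen_ne_zero γ₀ τ
  obtain ⟨m, hm⟩ := ENat.ne_top_iff_exists.mp hfin
  have hord : ordAt F τ = (m : ℤ) := by
    unfold ordAt
    rw [← hm, ENat.toNat_natCast]
  obtain ⟨g, hg, hg0, hev⟩ := ((lo_analyticAt hF τ).analyticOrderAt_eq_natCast (n := m)).mp hm.symm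
  have hφτ : loMoeb γ₀ (τ : ℂ) = (τ : ℂ) := by rw [loMoeb_coe, hfix]
  have hφc : ContinuousAt (loMoeb γ₀) (τ : ℂ) := continuousAt_loMoeb γ₀ hj0
  have hdc : ContinuousAt (loDen γ₀) (τ : ℂ) := continuousAt_loDen γ₀ _
  -- the expansion also holds at `φ z`
  have hev' : ∀ᶠ z in 𝓝 (τ : ℂ),
      (F ∘ ofComplex) (loMoeb γ₀ z) = (loMoeb γ₀ z - τ) ^ m • g (loMoeb γ₀ z) := by
    have : Tendsto (loMoeb γ₀) (𝓝 (τ : ℂ)) (𝓝 (τ : ℂ)) := by
      have := hφc.tendsto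
      rwa [hφτ] at this
    exact this.eventually hev
  have hden : ∀ᶠ z in 𝓝 (τ : ℂ), loDen γ₀ z ≠ 0 := hdc.eventually_ne hj0
  have him : ∀ᶠ z in 𝓝 (τ : ℂ), 0 < z.im := isOpen_upperHalfPlaneSet.mem_nhds τ.im_pos
  -- the key identity away from `τ`
  have hkey : ∀ᶠ z in 𝓝[≠] (τ : ℂ),
      g (loMoeb γ₀ z) = loDen γ₀ z ^ k * (loDen γ₀ z * j) ^ m * g z := by
    have hall := (hev.and (hev'.and (hden.and him)))
    filter_upwards [nhdsWithin_le_nhds hall, self_mem_nhdsWithin] with z hz hzne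
    obtain ⟨h1, h2, h3, h4⟩ := hz
    have hzτ : z - (τ : ℂ) ≠ 0 := sub_ne_zero.mpr hzne
    have h5 := lo_slash_eq hinv h4
    have h6 : (loMoeb γ₀ z - (τ : ℂ)) * (loDen γ₀ z * j) = z - (τ : ℂ) := by
      have := loMoeb_sub γ₀ h3 hj0
      rw [hφτ] at this
      exact this
    have h7 : (z - (τ : ℂ)) ^ m * g (loMoeb γ₀ z)
        = (z - (τ : ℂ)) ^ m * (loDen γ₀ z ^ k * (loDen γ₀ z * j) ^ m * g z) := by
      calc (z - (τ : ℂ)) ^ m * g (loMoeb γ₀ z)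
          = (loDen γ₀ z * j) ^ m * ((loMoeb γ₀ z - τ) ^ m * g (loMoeb γ₀ z)) := by
            rw [← h6, mul_pow (loMoeb γ₀ z - (τ : ℂ)) (loDen γ₀ z * j) m]; ring
        _ = (loDen γ₀ z * j) ^ m * (F ∘ ofComplex) (loMoeb γ₀ z) := by
            rw [h2, smul_eq_mul]
        _ = (loDen γ₀ z * j) ^ m * (loDen γ₀ z ^ k * ((z - (τ : ℂ)) ^ m * g z)) := by
            rw [h5, h1, smul_eq_mul]
        _ = (z - (τ : ℂ)) ^ m * (loDen γ₀ z ^ k * (loDen γ₀ z * j) ^ m * g z) := by ring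
    exact mul_left_cancel₀ (pow_ne_zero m hzτ) h7
  -- pass to the limit `z → τ`
  have hl : Tendsto (fun z => g (loMoeb γ₀ z)) (𝓝[≠] (τ : ℂ)) (𝓝 (g (τ : ℂ))) := by
    have h1 : ContinuousAt (fun z => g (loMoeb γ₀ z)) (τ : ℂ) := by
      have hgc : ContinuousAt g (loMoeb γ₀ (τ : ℂ)) := by rw [hφτ]; exact hg.continuousAt
      exact ContinuousAt.comp (g := g) hgc hφc
    have h2 := h1.tendsto
    simp only [hφτ] at h2
    exact tendsto_nhdsWithin_of_tendsto_nhds h2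
  have hr : Tendsto (fun z => loDen γ₀ z ^ k * (loDen γ₀ z * j) ^ m * g z) (𝓝[≠] (τ : ℂ))
      (𝓝 (j ^ k * (j * j) ^ m * g (τ : ℂ))) := by
    have h1 : ContinuousAt (fun z => loDen γ₀ z ^ k * (loDen γ₀ z * j) ^ m * g z) (τ : ℂ) := by
      refine ContinuousAt.mul (ContinuousAt.mul ?_ ?_) hg.continuousAt
      · exact hdc.zpow₀ k (Or.inl hj0)
      · exact (hdc.mul continuousAt_const).pow m
    exact tendsto_nhdsWithin_of_tendsto_nhds h1.tendsto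
  have huniq := tendsto_nhds_unique (hl.congr' hkey) hr
  have h8 : j ^ k * (j * j) ^ m = 1 := by
    have : g (τ : ℂ) * 1 = g (τ : ℂ) * (j ^ k * (j * j) ^ m) := by
      rw [mul_one]
      conv_lhs => rw [huniq]
      ring
    exact (mul_left_cancel₀ hg0 this).symm
  rw [hord, zpow_add₀ hj0, ← h8]
  congr 1
  rw [← pow_two, ← pow_mul, ← zpow_natCast]
  congr 1


/-- (K2, "ELL") If `F₁, F₂` are nonzero holomorphic functions on `ℍ`, both invariant under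
`∣[k] γ₀` for an element `γ₀` fixing `τ` whose squared automorphy factor `(cτ + d)²` is a primitive
`e`-th root of unity, then `e ∣ ord_τ F₁ - ord_τ F₂`.
(Proof: `F(γ₀ z) (cz+d)^{-k} = F(z)` and `γ₀ z - τ = (z - τ) / ((cz+d)(cτ+d))` give
`(cτ+d)^{2 m + k} = 1` for `m = ord_τ F`.) -/
theorem dvd_ordAt_sub_of_slash_invariant {k : ℤ} {F₁ F₂ : ℍ → ℂ} (h₁ : MDiff F₁) (h₂ : MDiff F₂)
    (hne₁ : F₁ ≠ 0) (hne₂ : F₂ ≠ 0) {γ₀ : SL(2, ℤ)} {τ : ℍ} (hfix : γ₀ • τ = τ) {e : ℕ}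
    (hprim : IsPrimitiveRoot ((((γ₀ 1 0 : ℤ) : ℂ) * (τ : ℂ) + ((γ₀ 1 1 : ℤ) : ℂ)) ^ 2) e)
    (hF₁ : F₁ ∣[k] γ₀ = F₁) (hF₂ : F₂ ∣[k] γ₀ = F₂) :
    (e : ℤ) ∣ ordAt F₁ τ - ordAt F₂ τ := by
  have e1 := lo_denom_zpow_eq_one h₁ hne₁ hfix hF₁ (analyticOrderAt_ne_top_of_ne_zero h₁ hne₁ τ)
  have e2 := lo_denom_zpow_eq_one h₂ hne₂ hfix hF₂ (analyticOrderAt_ne_top_of_ne_zero h₂ hne₂ τ)
  have hj0 : loDen γ₀ (τ : ℂ) ≠ 0 := loDen_ne_zero γ₀ τ
  have hprim' : IsPrimitiveRoot (loDen γ₀ (τ : ℂ) ^ 2) e := hprim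
  rw [← hprim'.zpow_eq_one_iff_dvd]
  have h3 : (loDen γ₀ (τ : ℂ) ^ 2) ^ (ordAt F₁ τ - ordAt F₂ τ)
      = loDen γ₀ (τ : ℂ) ^ (k + 2 * ordAt F₁ τ) / loDen γ₀ (τ : ℂ) ^ (k + 2 * ordAt F₂ τ) := by
    rw [← zpow_sub₀ hj0, ← zpow_natCast, ← zpow_mul]
    congr 1
    push_cast
    ring
  rw [h3, e1, e2, div_one]

/-! ### orders at `i∞` -/

/-- `f` has period `h`: `f (z + h) = f z`. -/
def HasPeriod (h : ℕ) (f : ℍ → ℂ) : Prop := ∀ z : ℍ, f ((h : ℝ) +ᵥ z) = f z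


lemma lo_periodic {h : ℕ} {f : ℍ → ℂ} (hfp : HasPeriod h f) :
    Function.Periodic (f ∘ ofComplex) (((h : ℕ) : ℝ) : ℂ) := by
  intro w
  by_cases hw : 0 < w.im
  · have hw' : 0 < (w + (((h : ℕ) : ℝ) : ℂ)).im := by simpa using hw
    simp only [Function.comp_apply, ofComplex_apply_of_im_pos hw', ofComplex_apply_of_im_pos hw]
    rw [← hfp ⟨w, hw⟩]
    congr 1
    ext
    simp [add_comm]
  · have hw0 : w.im ≤ 0 := not_lt.mp hw
    have hw' : (w + (((h : ℕ) : ℝ) : ℂ)).im ≤ 0 := by simpa using hw0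
    simp only [Function.comp_apply]
    rw [ofComplex_apply_of_im_nonpos hw', ofComplex_apply_of_im_nonpos hw0]

lemma lo_hasPeriod_mul {h : ℕ} {f : ℍ → ℂ} (hfp : HasPeriod h f) (e : ℕ) :
    HasPeriod (h * e) f := by
  induction e with
  | zero =>
    intro z
    congr 1
    ext
    simp
  | succ n ih =>
    intro z
    have h1 : ((((h * (n + 1) : ℕ)) : ℝ) +ᵥ z) = ((h : ℝ) +ᵥ (((h * n : ℕ) : ℝ) +ᵥ z)) := by
      ext
      simp
      ring
    rw [h1, hfp, ih]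

lemma lo_hasPeriod_mul' {f g : ℍ → ℂ} {h : ℕ} (hfp : HasPeriod h f) (hgp : HasPeriod h g) :
    HasPeriod h (f * g) := fun z => by
  simp only [Pi.mul_apply, hfp z, hgp z]

lemma lo_hasPeriod_pow {f : ℍ → ℂ} {h : ℕ} (hfp : HasPeriod h f) (n : ℕ) :
    HasPeriod h (f ^ n) := fun z => by
  simp only [Pi.pow_apply, hfp z]

lemma lo_bounded_pow {f : ℍ → ℂ} (hfb : IsBoundedAtImInfty f) (n : ℕ) :
    IsBoundedAtImInfty (f ^ n) := by
  induction n with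
  | zero =>
    have h1 : (f ^ 0 : ℍ → ℂ) = Function.const ℍ (1 : ℂ) := by
      rw [pow_zero]; rfl
    rw [h1]
    exact Filter.const_boundedAtFilter atImInfty (1 : ℂ)
  | succ m ihm =>
    rw [pow_succ]
    exact ihm.mul hfb

lemma lo_analyticAt_cusp {h : ℕ} (hh : 0 < h) {f : ℍ → ℂ} (hf : MDiff f)
    (hfp : HasPeriod h f) (hfb : IsBoundedAtImInfty f) :
    AnalyticAt ℂ (cuspFunction (h : ℝ) f) 0 :=
  analyticAt_cuspFunction_zero (by exact_mod_cast hh) (lo_periodic hfp) hf hfb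

/-- The order of the `q`-expansion is the analytic order of the cusp function at `0`. -/
lemma lo_order_qExpansion {H : ℝ} {f : ℍ → ℂ} (hF : AnalyticAt ℂ (cuspFunction H f) 0) :
    (qExpansion H f).order = analyticOrderAt (cuspFunction H f) 0 := by
  refine ENat.eq_of_forall_natCast_le_iff fun n => ?_
  rw [natCast_le_analyticOrderAt_iff_iteratedDeriv_eq_zero hF]
  constructor
  · intro hn i hi
    have hlt : (i : ℕ∞) < (qExpansion H f).order :=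
      lt_of_lt_of_le (by exact_mod_cast hi) hn
    have := PowerSeries.coeff_of_lt_order i hlt
    rw [qExpansion_coeff] at this
    rcases mul_eq_zero.mp this with h0 | h0
    · exact absurd h0 (inv_ne_zero (by exact_mod_cast Nat.factorial_ne_zero i))
    · exact h0
  · intro hn
    apply PowerSeries.nat_le_order
    intro i hi
    rw [qExpansion_coeff, hn i hi, mul_zero]

/-- A nonzero holomorphic periodic function bounded at `i∞` has finite order at the cusp. -/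
lemma lo_order_cusp_ne_top {h : ℕ} (hh : 0 < h) {f : ℍ → ℂ} (hf : MDiff f)
    (hfp : HasPeriod h f) (hf0 : f ≠ 0) :
    analyticOrderAt (cuspFunction (h : ℝ) f) 0 ≠ ⊤ := by
  intro htop
  have hh' : (0 : ℝ) < (h : ℝ) := by exact_mod_cast hh
  have hev : ∀ᶠ q in 𝓝 (0 : ℂ), cuspFunction (h : ℝ) f q = 0 := analyticOrderAt_eq_top.mp htop
  have hq := qParam_tendsto_atImInfty (h := (h : ℝ)) hh'
  have hev2 : ∀ᶠ τ in atImInfty, f τ = 0 := by
    filter_upwards [hq.eventually hev] with τ hτ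
    rw [← eq_cuspFunction τ hh'.ne' (lo_periodic hfp)]
    exact hτ
  obtain ⟨A, hA⟩ := (atImInfty_mem _).mp hev2
  have hpos : 0 < (Complex.I * ((max A 0 + 1 : ℝ) : ℂ)).im := by
    simp
    positivity
  let τ₀ : ℍ := ⟨Complex.I * ((max A 0 + 1 : ℝ) : ℂ), hpos⟩
  apply analyticOrderAt_ne_top_of_ne_zero hf hf0 τ₀
  rw [analyticOrderAt_eq_top]
  have hopen : IsOpen {z : ℂ | max A 0 < z.im} := isOpen_lt continuous_const Complex.continuous_im
  have hmem : (τ₀ : ℂ) ∈ {z : ℂ | max A 0 < z.im} := by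
    show max A 0 < (Complex.I * ((max A 0 + 1 : ℝ) : ℂ)).im
    simp
  filter_upwards [hopen.mem_nhds hmem] with z hz
  have hz0 : 0 < z.im := lt_of_le_of_lt (le_max_right A 0) hz
  simp only [Function.comp_apply, ofComplex_apply_of_im_pos hz0]
  exact hA ⟨z, hz0⟩ (le_of_lt (lt_of_le_of_lt (le_max_left A 0) hz))

lemma lo_ordInf_eq {h : ℕ} (hh : 0 < h) {f : ℍ → ℂ} (hf : MDiff f)
    (hfp : HasPeriod h f) (hfb : IsBoundedAtImInfty f) :
    ordInf h f = ((analyticOrderAt (cuspFunction (h : ℝ) f) 0).toNat : ℤ) := by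
  unfold ordInf
  rw [lo_order_qExpansion (lo_analyticAt_cusp hh hf hfp hfb)]

theorem ordInf_mul {h : ℕ} (hh : 0 < h) {f g : ℍ → ℂ} (hf : MDiff f) (hg : MDiff g)
    (hfp : HasPeriod h f) (hgp : HasPeriod h g)
    (hfb : IsBoundedAtImInfty f) (hgb : IsBoundedAtImInfty g) (hf0 : f ≠ 0) (hg0 : g ≠ 0) :
    ordInf h (f * g) = ordInf h f + ordInf h g := by
  have hF := lo_analyticAt_cusp hh hf hfp hfb
  have hG := lo_analyticAt_cusp hh hg hgp hgb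
  rw [lo_ordInf_eq hh hf hfp hfb, lo_ordInf_eq hh hg hgp hgb]
  unfold ordInf
  rw [qExpansion_mul hF hG, PowerSeries.order_mul, lo_order_qExpansion hF, lo_order_qExpansion hG,
    ENat.toNat_add (lo_order_cusp_ne_top hh hf hfp hf0) (lo_order_cusp_ne_top hh hg hgp hg0)]
  push_cast
  rfl

theorem ordInf_pow {h : ℕ} (hh : 0 < h) {f : ℍ → ℂ} (hf : MDiff f) (hfp : HasPeriod h f)
    (hfb : IsBoundedAtImInfty f) (hf0 : f ≠ 0) (n : ℕ) :
    ordInf h (f ^ n) = n * ordInf h f := by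
  induction n with
  | zero =>
    have h1 : (f ^ 0 : ℍ → ℂ) = 1 := pow_zero f
    rw [h1]
    unfold ordInf
    have : qExpansion (h : ℝ) (1 : ℍ → ℂ) = 1 := qExpansion_one _
    rw [this]
    simp
  | succ n ih =>
    have hfn0 : f ^ n ≠ 0 := pow_ne_zero n hf0
    have hfn : MDiff (f ^ n) := hf.pow n
    have hfnb : IsBoundedAtImInfty (f ^ n) := lo_bounded_pow hfb n
    rw [pow_succ, ordInf_mul hh hfn hf (lo_hasPeriod_pow hfp n) hfp hfnb hfb hfn0 hf0, ih]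
    push_cast
    ring

lemma lo_qParam_pow {h e : ℕ} (hh : 0 < h) (he : 0 < e) (z : ℂ) :
    (Function.Periodic.qParam (((h * e : ℕ)) : ℝ) z) ^ e
      = Function.Periodic.qParam ((h : ℕ) : ℝ) z := by
  unfold Function.Periodic.qParam
  rw [← Complex.exp_nat_mul]
  congr 1
  have hh' : ((h : ℕ) : ℂ) ≠ 0 := by exact_mod_cast hh.ne'
  have he' : ((e : ℕ) : ℂ) ≠ 0 := by exact_mod_cast he.ne'
  push_cast
  field_simp

lemma lo_cuspFunction_mul_period {h e : ℕ} (hh : 0 < h) (he : 0 < e) {f : ℍ → ℂ}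
    (hf : MDiff f) (hfp : HasPeriod h f) (hfb : IsBoundedAtImInfty f) :
    cuspFunction (((h * e : ℕ)) : ℝ) f
      =ᶠ[𝓝 0] (cuspFunction ((h : ℕ) : ℝ) f) ∘ (fun q => q ^ e) := by
  have hhe : 0 < h * e := Nat.mul_pos hh he
  have hhR : (0 : ℝ) < ((h : ℕ) : ℝ) := by exact_mod_cast hh
  have hheR : (0 : ℝ) < ((h * e : ℕ) : ℝ) := by exact_mod_cast hhe
  have hp := lo_hasPeriod_mul hfp e
  filter_upwards [Metric.ball_mem_nhds (0 : ℂ) zero_lt_one] with q hq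
  rw [mem_ball_zero_iff] at hq
  simp only [Function.comp_apply]
  rcases eq_or_ne q 0 with rfl | hq0
  · rw [zero_pow he.ne', cuspFunction_apply_zero hheR (lo_analyticAt_cusp hhe hf hp hfb)
      (lo_periodic hp), cuspFunction_apply_zero hhR (lo_analyticAt_cusp hh hf hfp hfb)
      (lo_periodic hfp)]
  · have him := Function.Periodic.im_invQParam_pos_of_norm_lt_one hheR hq hq0
    have hqz : Function.Periodic.qParam ((h * e : ℕ) : ℝ)
        (Function.Periodic.invQParam ((h * e : ℕ) : ℝ) q) = q :=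
      Function.Periodic.qParam_right_inv hheR.ne' hq0
    have h1 : cuspFunction ((h * e : ℕ) : ℝ) f q
        = f ⟨Function.Periodic.invQParam ((h * e : ℕ) : ℝ) q, him⟩ := by
      conv_lhs => rw [← hqz]
      exact eq_cuspFunction ⟨_, him⟩ hheR.ne' (lo_periodic hp)
    have h2 : cuspFunction ((h : ℕ) : ℝ) f (q ^ e)
        = f ⟨Function.Periodic.invQParam ((h * e : ℕ) : ℝ) q, him⟩ := by
      conv_lhs => rw [← hqz, lo_qParam_pow hh he]
      exact eq_cuspFunction ⟨_, him⟩ hhR.ne' (lo_periodic hfp)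
    rw [h1, h2]

theorem ordInf_mul_period {h e : ℕ} (hh : 0 < h) (he : 0 < e) {f : ℍ → ℂ} (hf : MDiff f)
    (hfp : HasPeriod h f) (hfb : IsBoundedAtImInfty f) (hf0 : f ≠ 0) :
    ordInf (h * e) f = e * ordInf h f := by
  have hhe : 0 < h * e := Nat.mul_pos hh he
  have hp := lo_hasPeriod_mul hfp e
  rw [lo_ordInf_eq hhe hf hp hfb, lo_ordInf_eq hh hf hfp hfb,
    analyticOrderAt_congr (lo_cuspFunction_mul_period hh he hf hfp hfb)]
  have hF := lo_analyticAt_cusp hh hf hfp hfb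
  have hpow : AnalyticAt ℂ (fun q : ℂ => q ^ e) 0 := by fun_prop
  have h0 : (fun q : ℂ => q ^ e) 0 = 0 := zero_pow he.ne'
  have hF' : AnalyticAt ℂ (cuspFunction ((h : ℕ) : ℝ) f) ((fun q : ℂ => q ^ e) 0) := by
    rw [h0]; exact hF
  have hcomp := AnalyticAt.analyticOrderAt_comp (f := cuspFunction ((h : ℕ) : ℝ) f)
    (g := fun q : ℂ => q ^ e) (z₀ := 0) hF' hpow
  rw [hcomp]
  have h1 : analyticOrderAt (fun x : ℂ => (fun q : ℂ => q ^ e) x - (fun q : ℂ => q ^ e) 0) 0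
      = (e : ℕ∞) := by
    have h2 := analyticOrderAt_centeredMonomial (𝕜 := ℂ) (z₀ := 0) (n := e)
    have h3 : (fun x : ℂ => (fun q : ℂ => q ^ e) x - (fun q : ℂ => q ^ e) 0)
        = ((· - (0 : ℂ)) ^ e) := by
      funext x
      simp [zero_pow he.ne']
    rw [h3]
    exact h2
  rw [h1, zero_pow he.ne']
  obtain ⟨m, hm⟩ := ENat.ne_top_iff_exists.mp (lo_order_cusp_ne_top hh hf hfp hf0)
  rw [← hm]
  have : ((m : ℕ∞) * (e : ℕ∞)) = ((m * e : ℕ) : ℕ∞) := by simp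
  rw [this, ENat.toNat_natCast, ENat.toNat_natCast]
  push_cast
  ring


end Fermat.Agent.F3I2
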