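/-
Cluster A (F3), analytic package (I2), piece A3c (D3θ) (helper78):
the Hecke norm of `θ x₀` (`x₀ ∈ F_ℚ̄`, `θ` = coefficientwise embedding `F_ℚ̄ → F_ℂ`) is
`θ (T_ℓ x₀)`, where `T_ℓ x₀ = Norm_{F_{Nℓ}/F_N} (x₀(q^ℓ))` is computed over `ℚ̄`:
whenever `θ x₀ = A / B`, `θ (T_ℓ x₀) = ∏_i (A ∣ α_i) / ∏_i (B ∣ α_i)`.
Inputs: the norm product formula over `ℚ̄` (helper20 `conjugateExpansions`, helper42
`normProductFormula_of_conjugateExpansions`) and `Dict3.lean`.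
-/
import Fermat.Agent.F3.I2.Dict3Glue
import Fermat.Agent.F3.I2.Descent.Theta
import Fermat.Agent.Lib.Kronecker.NormProd
import Fermat.Agent.Lib.Kronecker.ConjExp
import Fermat.Prelude.Thm_ModularCurve_coeffMap_qExpand

set_option autoImplicit false

namespace Fermat.Agent.F3I2

open UpperHalfPlane ModularForm MatrixGroups CongruenceSubgroup
open scoped ModularForm
open ModularCurve
open Fermat.Agent.Kronecker (scaleL scaleL_coeff)
open P2MW.S_ModularForm_heckeT_slash_eq_self_of_mem_Gamma0.ModularForm.HeckeSlashInvariance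

/-- **Core of (D3)**: if `x'(q^ℓ) = x(q^{ℓ²}) ∏_{b<ℓ} x(ζ^b q)` then `x'` is the Hecke norm of `x`:
whenever `x = A / B`, `x' = ∏_i (A ∣ α_i) / ∏_i (B ∣ α_i)`. -/
theorem dict3_heckeNorm_of_qExpand_eq (N ℓ : ℕ) [NeZero ℓ] {x x' : FC N}
    (h : qExpand ℂ ℓ (x' : LaurentSeries ℂ) = dict3E ℓ (x : LaurentSeries ℂ)) :
    ∀ (w : ℤ) (A B : ModularForm (Gamma0 N) w), A ≠ 0 → IsRatio N x A B →
      ∀ (w' : ℤ) (A' B' : ModularForm (Gamma0 N) w'),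
        (⇑A' = fun z => ∏ i : OnePoint (ZMod ℓ), (⇑A ∣[w] heckeRep ℓ i) z) →
        (⇑B' = fun z => ∏ i : OnePoint (ZMod ℓ), (⇑B ∣[w] heckeRep ℓ i) z) →
        IsRatio N x' A' B' := by
  intro w A B _ hx w' A' B' hA' hB'
  obtain ⟨hB, hAB⟩ := hx
  have hqB : qLaurent B ≠ 0 := dict1QL_ne_zero B hB
  have kA := dict3_qExpand_prod N ℓ A A' hA'
  have kB := dict3_qExpand_prod N ℓ B B' hB'
  have hc := dict3Const_ne_zero ℓ w
  have hC : (HahnSeries.C (dict3Const ℓ w) : LaurentSeries ℂ) ≠ 0 := by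
    intro h0
    have := congrArg (fun y : LaurentSeries ℂ => y.coeff 0) h0
    simp at this
    exact hc this
  have hB'0 : B' ≠ 0 := by
    rintro rfl
    have h0 : qLaurent (0 : ModularForm (Gamma0 N) w') = 0 := dict1QF_zero
    rw [h0, map_zero] at kB
    exact mul_ne_zero hC (dict3E_ne_zero ℓ hqB) kB.symm
  refine ⟨hB'0, ?_⟩
  apply qExpand_injective (R := ℂ) ℓ
  rw [map_mul, kA, kB, h, hAB, dict3E_mul]
  ring

/-- The norm product formula over `ℚ̄`, transported to `ℂ` along any embedding. -/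
theorem dict3_qExpand_theta (N ℓ : ℕ) [NeZero N] [NeZero ℓ] (hℓ : ℓ.Prime) (hℓN : ¬ ℓ ∣ N)
    [Algebra (AlgebraicClosure ℚ) ℂ] (x₀ : ↥(modularFunctionFieldBar N)) :
    qExpand ℂ ℓ ((descTheta (AlgebraicClosure ℚ) ℂ (modularFunctionFieldFull N)
        (Fermat.Agent.F3G.heckeFun (AlgebraicClosure ℚ) N ℓ x₀) : FC N) : LaurentSeries ℂ) =
      dict3E ℓ ((descTheta (AlgebraicClosure ℚ) ℂ (modularFunctionFieldFull N) x₀ : FC N) :
        LaurentSeries ℂ) := by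
  obtain ⟨ζ, hζ, hy⟩ := Fermat.Agent.Kronecker.normProductFormula_of_conjugateExpansions N ℓ hℓ hℓN
    (Fermat.Agent.Kronecker.conjugateExpansions N ℓ ((Nat.Prime.coprime_iff_not_dvd hℓ).mpr hℓN))
  have h1 := congrArg (coeffMap (algebraMap (AlgebraicClosure ℚ) ℂ)) (hy x₀)
  rw [coeffMap_qExpand, map_mul, coeffMap_qExpand, map_prod] at h1
  simp only [Fermat.Agent.Kronecker.coeffMap_scaleL] at h1
  rw [coe_descTheta, coe_descTheta, h1, dict3E]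
  congr 1
  have hinj : Function.Injective (algebraMap (AlgebraicClosure ℚ) ℂ) :=
    (algebraMap (AlgebraicClosure ℚ) ℂ).injective
  set ζ' : ℂˣ := Units.map ((algebraMap (AlgebraicClosure ℚ) ℂ : _ →+* _) : _ →* _) ζ with hζ'
  have hprim : IsPrimitiveRoot ζ' ℓ := by
    rw [← IsPrimitiveRoot.coe_units_iff]
    have h0 : IsPrimitiveRoot (ζ : AlgebraicClosure ℚ) ℓ := IsPrimitiveRoot.coe_units_iff.mpr hζ
    exact h0.map_of_injective hinj
  have h0 : IsPrimitiveRoot (dict3Zeta ℓ) ℓ := by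
    rw [← IsPrimitiveRoot.coe_units_iff, dict3Zeta_coe]
    exact Complex.isPrimitiveRoot_exp ℓ (NeZero.ne ℓ)
  rw [← dict3_prod_scaleL_eq ℓ ζ' (dict3Zeta ℓ) hprim h0]
  refine Finset.prod_congr rfl fun b _ => ?_
  rw [hζ', map_pow]

/-- **(D3θ)**: for `ℓ` prime, `ℓ ∤ N`, `x₀ ∈ F_ℚ̄(N)` and `θ` the coefficientwise embedding along
any `ℚ̄ → ℂ`: whenever `θ x₀ = A / B`,
`θ (Norm_{F_{Nℓ}/F_N} (x₀(q^ℓ))) = ∏_i (A ∣ α_i) / ∏_i (B ∣ α_i)`. -/
theorem dictD3Theta (N ℓ : ℕ) [NeZero N] [NeZero ℓ] (hℓ : ℓ.Prime) (hℓN : ¬ ℓ ∣ N)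
    [Algebra (AlgebraicClosure ℚ) ℂ] (x₀ : ↥(modularFunctionFieldBar N)) :
    ∀ (w : ℤ) (A B : ModularForm (Gamma0 N) w), A ≠ 0 →
      IsRatio N (descTheta (AlgebraicClosure ℚ) ℂ (modularFunctionFieldFull N) x₀) A B →
      ∀ (w' : ℤ) (A' B' : ModularForm (Gamma0 N) w'),
        (⇑A' = fun z => ∏ i : OnePoint (ZMod ℓ), (⇑A ∣[w] heckeRep ℓ i) z) →
        (⇑B' = fun z => ∏ i : OnePoint (ZMod ℓ), (⇑B ∣[w] heckeRep ℓ i) z) →
        IsRatio N (descTheta (AlgebraicClosure ℚ) ℂ (modularFunctionFieldFull N)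
          (Fermat.Agent.F3G.heckeFun (AlgebraicClosure ℚ) N ℓ x₀)) A' B' :=
  dict3_heckeNorm_of_qExpand_eq N ℓ (dict3_qExpand_theta N ℓ hℓ hℓN x₀)

end Fermat.Agent.F3I2
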