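/-
Cluster A / F3 (I2), piece (C) = A3b (helper54), extras:
* `eisChar_slash_slash`: `(E ∣ g) ∣ h = χ(g h g⁻¹) (E ∣ g)` when `g h g⁻¹ ∈ Γ₀(N)`;
* periodicity of `E ∣ g` under `z ↦ z + w` when `χ(g T^w g⁻¹) = 1`;
* the hypothesis "trivial on the stabiliser of `∞`" from `χ(-1) = 1` and `χ(T) = 1`.
-/
import Mathlib
import Fermat.Agent.F3.I2.EisChar

set_option autoImplicit false

noncomputable section

namespace Fermat.Agent.F3I2

open UpperHalfPlane Filter Topology CongruenceSubgroup EisensteinSeries Matrix ModularForm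
open scoped MatrixGroups Manifold ModularForm

variable {N : ℕ} {k : ℤ}

/-- General form: a function with character `χ` on `Γ₀(N)`, slashed by `g`, has character
`h ↦ χ(g h g⁻¹)` on `g⁻¹ Γ₀(N) g`. -/
theorem slash_slash_of_character {E : ℍ → ℂ} (χ : ↥(Gamma0 N) →* ℂˣ)
    (hE : ∀ γ : ↥(Gamma0 N), E ∣[k] (γ : SL(2, ℤ)) = ((χ γ : ℂˣ) : ℂ) • E)
    (g h : SL(2, ℤ)) (hmem : g * h * g⁻¹ ∈ Gamma0 N) :
    (E ∣[k] g) ∣[k] h = ((χ ⟨g * h * g⁻¹, hmem⟩ : ℂˣ) : ℂ) • (E ∣[k] g) := by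
  have e : (E ∣[k] g) ∣[k] h = (E ∣[k] (g * h * g⁻¹)) ∣[k] g := by
    rw [← SlashAction.slash_mul, ← SlashAction.slash_mul]
    congr 1
    group
  have := hE ⟨g * h * g⁻¹, hmem⟩
  simp only at this
  rw [e, this, SL_smul_slash]

theorem eisChar_slash_slash (χ : ↥(Gamma0 N) →* ℂˣ)
    (hinf : ∀ γ : ↥(Gamma0 N), (γ : SL(2, ℤ)) 1 0 = 0 → χ γ = 1)
    (g h : SL(2, ℤ)) (hmem : g * h * g⁻¹ ∈ Gamma0 N) :
    (eisChar N k χ ∣[k] g) ∣[k] h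
      = ((χ ⟨g * h * g⁻¹, hmem⟩ : ℂˣ) : ℂ) • (eisChar N k χ ∣[k] g) :=
  slash_slash_of_character χ (eisChar_slash χ hinf) g h hmem

/-- Slashing with `T ^ w` is translation by `w`. -/
theorem slash_T_zpow_apply (F : ℍ → ℂ) (w : ℤ) (z : ℍ) :
    (F ∣[k] (ModularGroup.T ^ w)) z = F (ModularGroup.T ^ w • z) := by
  rw [SL_slash_apply]
  have hd : denom ((ModularGroup.T ^ w : SL(2, ℤ)) : GL (Fin 2) ℝ) z = 1 := by
    rw [ModularGroup.denom_apply]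
    have h10 : (ModularGroup.T ^ w : SL(2, ℤ)) 1 0 = 0 := by
      show (↑(ModularGroup.T ^ w) : Matrix (Fin 2) (Fin 2) ℤ) 1 0 = 0
      rw [ModularGroup.coe_T_zpow]
      simp
    have h11 : (ModularGroup.T ^ w : SL(2, ℤ)) 1 1 = 1 := by
      show (↑(ModularGroup.T ^ w) : Matrix (Fin 2) (Fin 2) ℤ) 1 1 = 1
      rw [ModularGroup.coe_T_zpow]
      simp
    rw [h10, h11]
    simp
  rw [hd, _root_.one_zpow, mul_one]

/-- Periodicity of `E ∣ g` at the cusp `g ∞`. -/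
theorem eisChar_slash_periodic (χ : ↥(Gamma0 N) →* ℂˣ)
    (hinf : ∀ γ : ↥(Gamma0 N), (γ : SL(2, ℤ)) 1 0 = 0 → χ γ = 1)
    (g : SL(2, ℤ)) (w : ℤ) (hmem : g * ModularGroup.T ^ w * g⁻¹ ∈ Gamma0 N)
    (hχ : χ ⟨g * ModularGroup.T ^ w * g⁻¹, hmem⟩ = 1) (z : ℍ) :
    (eisChar N k χ ∣[k] g) (ModularGroup.T ^ w • z) = (eisChar N k χ ∣[k] g) z := by
  rw [← slash_T_zpow_apply (k := k) (eisChar N k χ ∣[k] g) w z,
    eisChar_slash_slash χ hinf g _ hmem, hχ]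
  simp

/-- Periodicity of `E` itself: `E (z + 1) = E z`. -/
theorem eisChar_T_smul (χ : ↥(Gamma0 N) →* ℂˣ)
    (hinf : ∀ γ : ↥(Gamma0 N), (γ : SL(2, ℤ)) 1 0 = 0 → χ γ = 1) (z : ℍ) :
    eisChar N k χ (ModularGroup.T • z) = eisChar N k χ z := by
  have hT : ModularGroup.T ∈ Gamma0 N := by
    rw [Gamma0_mem]
    simp [ModularGroup.coe_T]
  have h1 : χ ⟨ModularGroup.T, hT⟩ = 1 := hinf _ (by simp [ModularGroup.coe_T])
  have h2 := congrFun (eisChar_slash (k := k) χ hinf ⟨ModularGroup.T, hT⟩) z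
  rw [h1] at h2
  have h3 := slash_T_zpow_apply (k := k) (eisChar N k χ) 1 z
  rw [zpow_one] at h3
  rw [← h3]
  simpa using h2

/-! ### The stabiliser of `∞` -/

theorem eis_sl2_eq_T_zpow_of_zero (g : SL(2, ℤ)) (hc : g 1 0 = 0) :
    ∃ n : ℤ, g = ModularGroup.T ^ n ∨ g = -ModularGroup.T ^ n := by
  have had := g.det_coe
  replace had : g 0 0 * g 1 1 = 1 := by rw [det_fin_two, hc] at had; lia
  rcases Int.eq_one_or_neg_one_of_mul_eq_one' had with (⟨ha, hd⟩ | ⟨ha, hd⟩)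
  · refine ⟨g 0 1, Or.inl ?_⟩
    ext i j; fin_cases i <;> fin_cases j <;>
      simp [ha, hc, hd, ModularGroup.coe_T_zpow, show (1 : Fin (0 + 2)) = (1 : Fin 2) from rfl]
  · refine ⟨-(g 0 1), Or.inr ?_⟩
    ext i j; fin_cases i <;> fin_cases j <;>
      simp [ha, hc, hd, ModularGroup.coe_T_zpow, show (1 : Fin (0 + 2)) = (1 : Fin 2) from rfl]

theorem eis_T_mem_Gamma0 (N : ℕ) : ModularGroup.T ∈ Gamma0 N := by
  rw [Gamma0_mem]
  simp [ModularGroup.coe_T]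

/-- The stabiliser of `∞` is generated by `-1` and `T`. -/
theorem eisChar_hinf_of (χ : ↥(Gamma0 N) →* ℂˣ)
    (hneg : ∀ γ : ↥(Gamma0 N), (γ : SL(2, ℤ)) = -1 → χ γ = 1)
    (hT : ∀ γ : ↥(Gamma0 N), (γ : SL(2, ℤ)) = ModularGroup.T → χ γ = 1) :
    ∀ γ : ↥(Gamma0 N), (γ : SL(2, ℤ)) 1 0 = 0 → χ γ = 1 := by
  intro γ hγ
  have h1 : χ ⟨ModularGroup.T, eis_T_mem_Gamma0 N⟩ = 1 := hT _ rfl
  have h2 : χ ⟨-1, eis_neg_one_mem_Gamma0 N⟩ = 1 := hneg _ rfl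
  obtain ⟨n, hn | hn⟩ := eis_sl2_eq_T_zpow_of_zero (γ : SL(2, ℤ)) hγ
  · have e : γ = (⟨ModularGroup.T, eis_T_mem_Gamma0 N⟩ : ↥(Gamma0 N)) ^ n := by
      apply Subtype.ext
      rw [hn]
      simp
    rw [e, map_zpow, h1, _root_.one_zpow]
  · have e : γ = (⟨-1, eis_neg_one_mem_Gamma0 N⟩ : ↥(Gamma0 N))
        * (⟨ModularGroup.T, eis_T_mem_Gamma0 N⟩ : ↥(Gamma0 N)) ^ n := by
      apply Subtype.ext
      rw [hn]
      simp
    rw [e, map_mul, map_zpow, h1, h2, _root_.one_zpow, one_mul]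

end Fermat.Agent.F3I2
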